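import Mathlib
import Fermat.Prelude.Def_GaloisRep_Adic

/-!
# S53 chunk C core (owner: helper45): `GaloisRepAdic` versus 2×2 matrix representations

Generic API used by `MatRep.lean` (all in `namespace Fermat.Agent.S53`):

* `MatAdicContinuous r`        : adic continuity of `r : Γ →* M₂(A)` (entries of `r σ - 1` in `𝔪ⁿ`).
* `ofMat r hr : GaloisRepAdic A`: the representation on `Fin 2 → A` given by `r`.
* `toMat ρ b`                  : the matrix of `ρ` in a basis `b`; `toMat_adicContinuous`.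
* `isEquiv_ofMat_toMat`        : `ρ ≅ ofMat (toMat ρ b)`.
* `ofMat_baseChangeAlong`      : `(ofMat r).baseChangeAlong φ ≅ ofMat (φ ∘ r)`.
* `ofMat_isEquiv_iff`          : `ofMat r ≅ ofMat r' ↔ ∃ T invertible, T * r σ = r' σ * T`.
* `exists_basis_lifting`       : a basis of `ρ.V` lifting a given basis of `ρbar.V` through an
                                 isomorphism `ρ.residual ≅ ρbar.baseChangeAlong ψ`.
* `ofMat_residual_isEquiv`     : if `r ≡ r̄` entrywise then `(ofMat r).residual ≅ ρbar ⊗ k_A`.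
-/

set_option autoImplicit false

namespace Fermat.Agent.S53

open IsLocalRing Matrix
open scoped TensorProduct

local notation "Γℚ" => (AlgebraicClosure ℚ ≃ₐ[ℚ] AlgebraicClosure ℚ)

section Aux

variable {A : Type*} [CommRing A]

/-- A vector of `ι → A` all of whose coordinates lie in `I` belongs to `I • ⊤`. -/
theorem mem_ideal_smul_top_pi {ι : Type*} [Fintype ι] [DecidableEq ι] (I : Ideal A)
    (w : ι → A) (hw : ∀ i, w i ∈ I) : w ∈ I • (⊤ : Submodule A (ι → A)) := by
  have h : w = ∑ i, w i • (Pi.single i (1 : A) : ι → A) := by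
    ext j
    simp [Finset.sum_apply, Pi.single_apply]
  rw [h]
  exact Submodule.sum_mem _ fun i _ => Submodule.smul_mem_smul (hw i) Submodule.mem_top

/-- Coordinates (in any basis) of an element of `I • ⊤` lie in `I`. -/
theorem repr_mem_of_mem_ideal_smul_top {ι : Type*} {V : Type*} [AddCommGroup V] [Module A V]
    (b : Module.Basis ι A V) (I : Ideal A) {w : V} (hw : w ∈ I • (⊤ : Submodule A V)) (i : ι) :
    b.repr w i ∈ I := by
  refine Submodule.smul_induction_on (p := fun w => b.repr w i ∈ I) hw ?_ ?_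
  · intro a ha v _
    rw [map_smul, Finsupp.smul_apply, smul_eq_mul]
    exact I.mul_mem_right _ ha
  · intro x y hx hy
    rw [map_add, Finsupp.add_apply]
    exact I.add_mem hx hy

end Aux

variable {A : Type} [CommRing A] [IsLocalRing A]

/-- Adic continuity of a matrix representation: for every `n` the matrices `r σ`, for `σ` fixing a
suitable finite extension of `ℚ`, are congruent to `1` modulo `𝔪ⁿ`. -/
def MatAdicContinuous (r : Γℚ →* Matrix (Fin 2) (Fin 2) A) : Prop :=
  ∀ n : ℕ, ∃ L : IntermediateField ℚ (AlgebraicClosure ℚ), FiniteDimensional ℚ L ∧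
    ∀ σ : Γℚ, (∀ x ∈ L, σ x = x) → ∀ i j, (r σ - 1) i j ∈ maximalIdeal A ^ n

/-- The monoid homomorphism `M₂(A) →* End_A(A²)`. -/
noncomputable def matToEnd (A : Type) [CommRing A] :
    Matrix (Fin 2) (Fin 2) A →* Module.End A (Fin 2 → A) :=
  (Matrix.toLinAlgEquiv' : Matrix (Fin 2) (Fin 2) A ≃ₐ[A] _).toAlgHom.toRingHom.toMonoidHom

omit [IsLocalRing A] in
@[simp] theorem matToEnd_apply (M : Matrix (Fin 2) (Fin 2) A) (v : Fin 2 → A) :
    matToEnd A M v = M *ᵥ v := by
  simp [matToEnd]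

/-- The `GaloisRepAdic` attached to a matrix representation. -/
noncomputable def ofMat (r : Γℚ →* Matrix (Fin 2) (Fin 2) A) (hr : MatAdicContinuous r) :
    GaloisRepAdic A where
  V := Fin 2 → A
  finrank_eq := by simp
  ρ := (matToEnd A).comp r
  isAdicContinuous := by
    intro n
    obtain ⟨L, hL, h⟩ := hr n
    refine ⟨L, hL, fun σ hσ v => ?_⟩
    apply mem_ideal_smul_top_pi
    intro i
    have h1 : ((matToEnd A).comp r) σ v - v = (r σ - 1) *ᵥ v := by
      rw [MonoidHom.comp_apply, matToEnd_apply, Matrix.sub_mulVec, Matrix.one_mulVec]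
    rw [h1]
    simp only [Matrix.mulVec, dotProduct]
    exact Ideal.sum_mem _ fun j _ => Ideal.mul_mem_right _ _ (h σ hσ i j)

@[simp] theorem ofMat_ρ_apply (r : Γℚ →* Matrix (Fin 2) (Fin 2) A) (hr : MatAdicContinuous r)
    (σ : Γℚ) (v : Fin 2 → A) : (ofMat r hr).ρ σ v = (r σ) *ᵥ v := by
  show ((matToEnd A).comp r) σ v = _
  rw [MonoidHom.comp_apply, matToEnd_apply]

/-- The matrix representation of `ρ` in the basis `b`. -/
noncomputable def toMat (ρ : GaloisRepAdic A) (b : Module.Basis (Fin 2) A ρ.V) :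
    Γℚ →* Matrix (Fin 2) (Fin 2) A :=
  (LinearMap.toMatrixAlgEquiv b : Module.End A ρ.V ≃ₐ[A] _).toAlgHom.toRingHom.toMonoidHom.comp ρ.ρ

theorem toMat_apply (ρ : GaloisRepAdic A) (b : Module.Basis (Fin 2) A ρ.V) (σ : Γℚ) :
    toMat ρ b σ = LinearMap.toMatrix b b (ρ.ρ σ) := rfl

theorem toMat_apply_apply (ρ : GaloisRepAdic A) (b : Module.Basis (Fin 2) A ρ.V) (σ : Γℚ)
    (i j : Fin 2) : toMat ρ b σ i j = b.repr (ρ.ρ σ (b j)) i := by
  rw [toMat_apply, LinearMap.toMatrix_apply]

theorem toMat_adicContinuous (ρ : GaloisRepAdic A) (b : Module.Basis (Fin 2) A ρ.V) :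
    MatAdicContinuous (toMat ρ b) := by
  intro n
  obtain ⟨L, hL, h⟩ := ρ.isAdicContinuous n
  refine ⟨L, hL, fun σ hσ i j => ?_⟩
  have h1 : (toMat ρ b σ - 1) i j = b.repr (ρ.ρ σ (b j) - b j) i := by
    rw [Matrix.sub_apply, toMat_apply_apply, map_sub, Finsupp.sub_apply, Matrix.one_apply,
      Module.Basis.repr_self, Finsupp.single_apply]
    congr 1
    by_cases hij : i = j
    · simp [hij]
    · simp [hij, Ne.symm hij]
  rw [h1]
  exact repr_mem_of_mem_ideal_smul_top b _ (h σ hσ (b j)) i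

/-- Every `GaloisRepAdic` has a basis indexed by `Fin 2`. -/
theorem exists_basis_fin2 (ρ : GaloisRepAdic A) : Nonempty (Module.Basis (Fin 2) A ρ.V) :=
  ⟨Module.finBasisOfFinrankEq A ρ.V ρ.finrank_eq⟩

/-- `ρ` is equivalent to the matrix representation in any basis. -/
theorem isEquiv_ofMat_toMat (ρ : GaloisRepAdic A) (b : Module.Basis (Fin 2) A ρ.V) :
    ρ.IsEquiv (ofMat (toMat ρ b) (toMat_adicContinuous ρ b)) := by
  refine ⟨⟨b.equivFun, fun σ x => ?_⟩⟩
  show b.equivFun (ρ.ρ σ x) = (toMat ρ b σ) *ᵥ (b.equivFun x)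
  rw [toMat_apply]
  have := LinearMap.toMatrix_mulVec_repr b b (ρ.ρ σ) x
  simpa [Module.Basis.equivFun_apply] using this.symm

/-- Entrywise image of a matrix representation under a ring homomorphism. -/
noncomputable def mapMat {A B : Type} [CommRing A] [CommRing B] (φ : A →+* B)
    (r : Γℚ →* Matrix (Fin 2) (Fin 2) A) : Γℚ →* Matrix (Fin 2) (Fin 2) B :=
  (φ.mapMatrix : Matrix (Fin 2) (Fin 2) A →+* Matrix (Fin 2) (Fin 2) B).toMonoidHom.comp r

@[simp] theorem mapMat_apply {A B : Type} [CommRing A] [CommRing B] (φ : A →+* B)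
    (r : Γℚ →* Matrix (Fin 2) (Fin 2) A) (σ : Γℚ) (i j : Fin 2) :
    mapMat φ r σ i j = φ (r σ i j) := rfl

theorem map_maximalIdeal_pow_le {B : Type} [CommRing B] [IsLocalRing B] (φ : A →+* B)
    (hφ : IsLocalHom φ) (n : ℕ) {a : A} (ha : a ∈ maximalIdeal A ^ n) :
    φ a ∈ maximalIdeal B ^ n := by
  have hmap : (maximalIdeal A ^ n).map φ ≤ maximalIdeal B ^ n := by
    rw [Ideal.map_pow]
    exact Ideal.pow_right_mono (Ideal.map_le_iff_le_comap.mpr fun a ha =>
      Ideal.mem_comap.mpr (haveI := hφ; map_nonunit φ a ha)) n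
  exact hmap (Ideal.mem_map_of_mem φ ha)

theorem mapMat_adicContinuous {B : Type} [CommRing B] [IsLocalRing B] (φ : A →+* B)
    (hφ : IsLocalHom φ) {r : Γℚ →* Matrix (Fin 2) (Fin 2) A} (hr : MatAdicContinuous r) :
    MatAdicContinuous (mapMat φ r) := by
  intro n
  obtain ⟨L, hL, h⟩ := hr n
  refine ⟨L, hL, fun σ hσ i j => ?_⟩
  have h1 : (mapMat φ r σ - 1) i j = φ ((r σ - 1) i j) := by
    simp only [Matrix.sub_apply, mapMat_apply, map_sub, Matrix.one_apply]
    split_ifs <;> simp
  rw [h1]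
  exact map_maximalIdeal_pow_le φ hφ n (h σ hσ i j)

/-- Compatibility of `piScalarRight` with the action of a matrix. -/
theorem piScalarRight_baseChange_matToEnd {A B : Type} [CommRing A] [CommRing B] [Algebra A B]
    (M : Matrix (Fin 2) (Fin 2) A) (x : B ⊗[A] (Fin 2 → A)) :
    TensorProduct.piScalarRight A B B (Fin 2) ((matToEnd A M).baseChange B x) =
      (M.map (algebraMap A B)) *ᵥ (TensorProduct.piScalarRight A B B (Fin 2) x) := by
  induction x using TensorProduct.induction_on with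
  | zero => simp
  | tmul b v =>
    rw [LinearMap.baseChange_tmul, TensorProduct.piScalarRight_apply,
      TensorProduct.piScalarRightHom_tmul, TensorProduct.piScalarRight_apply,
      TensorProduct.piScalarRightHom_tmul, matToEnd_apply]
    ext i
    simp only [Matrix.mulVec, dotProduct, Matrix.map_apply, Algebra.smul_def, Fin.sum_univ_two]
    rw [map_add, map_mul, map_mul]
    ring
  | add x y hx hy =>
    rw [map_add, map_add, hx, hy, map_add, Matrix.mulVec_add]

/-- Base change of `ofMat r` is `ofMat` of the entrywise image. -/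
theorem ofMat_baseChangeAlong {B : Type} [CommRing B] [IsLocalRing B] (φ : A →+* B)
    (hφ : IsLocalHom φ) (r : Γℚ →* Matrix (Fin 2) (Fin 2) A) (hr : MatAdicContinuous r) :
    ((ofMat r hr).baseChangeAlong φ hφ).IsEquiv
      (ofMat (mapMat φ r) (mapMat_adicContinuous φ hφ hr)) := by
  let _ : Algebra A B := φ.toAlgebra
  refine ⟨⟨(TensorProduct.piScalarRight A B B (Fin 2) : B ⊗[A] (Fin 2 → A) ≃ₗ[B] (Fin 2 → B)),
    fun σ x => ?_⟩⟩
  exact piScalarRight_baseChange_matToEnd (r σ) x

/-- Two matrix representations are equivalent iff they are conjugate. -/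
theorem ofMat_isEquiv_iff (r r' : Γℚ →* Matrix (Fin 2) (Fin 2) A)
    (hr : MatAdicContinuous r) (hr' : MatAdicContinuous r') :
    (ofMat r hr).IsEquiv (ofMat r' hr') ↔
      ∃ T T' : Matrix (Fin 2) (Fin 2) A, T * T' = 1 ∧ T' * T = 1 ∧
        ∀ σ : Γℚ, T * r σ = r' σ * T := by
  constructor
  · rintro ⟨e⟩
    let f : (Fin 2 → A) ≃ₗ[A] (Fin 2 → A) := e.toLinearEquiv
    have hf : ∀ (σ : Γℚ) (v : Fin 2 → A), f ((r σ) *ᵥ v) = (r' σ) *ᵥ (f v) := fun σ v => by
      have h1 : f ((ofMat r hr).ρ σ v) = (ofMat r' hr').ρ σ (f v) := e.map_apply σ v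
      have h2 : (ofMat r hr).ρ σ v = (r σ) *ᵥ v := ofMat_ρ_apply r hr σ v
      have h3 : (ofMat r' hr').ρ σ (f v) = (r' σ) *ᵥ (f v) := ofMat_ρ_apply r' hr' σ (f v)
      rw [← h2, ← h3]
      exact h1
    refine ⟨LinearMap.toMatrix' f.toLinearMap, LinearMap.toMatrix' f.symm.toLinearMap, ?_, ?_, ?_⟩
    · rw [← LinearMap.toMatrix'_comp]
      simp
    · rw [← LinearMap.toMatrix'_comp]
      simp
    · intro σ
      apply Matrix.toLin'.injective
      apply LinearMap.ext
      intro v
      simp only [Matrix.toLin'_mul, LinearMap.comp_apply, Matrix.toLin'_toMatrix',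
        Matrix.toLin'_apply, LinearEquiv.coe_coe]
      exact hf σ v
  · rintro ⟨T, T', h1, h2, h⟩
    have key : ∀ (σ : Γℚ) (w : Fin 2 → A),
        Matrix.toLin'OfInv h2 h1 ((r σ) *ᵥ w) = (r' σ) *ᵥ (Matrix.toLin'OfInv h2 h1 w) := by
      intro σ w
      show Matrix.toLin' T ((r σ) *ᵥ w) = (r' σ) *ᵥ (Matrix.toLin' T w)
      rw [Matrix.toLin'_apply, Matrix.toLin'_apply, Matrix.mulVec_mulVec, Matrix.mulVec_mulVec,
        h σ]
    exact ⟨⟨Matrix.toLin'OfInv h2 h1, fun σ v => key σ v⟩⟩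

section Residual

/-- Two endomorphisms are intertwined by an isomorphism matching two bases iff their matrices in
these bases agree. -/
theorem intertwine_iff_toMatrix {κ M₁ M₂ : Type*} [CommRing κ] [AddCommGroup M₁] [Module κ M₁]
    [AddCommGroup M₂] [Module κ M₂]
    (B₁ : Module.Basis (Fin 2) κ M₁) (B₂ : Module.Basis (Fin 2) κ M₂) (e : M₁ ≃ₗ[κ] M₂)
    (he : ∀ i, e (B₁ i) = B₂ i) (F : M₁ →ₗ[κ] M₁) (F' : M₂ →ₗ[κ] M₂) :
    (∀ x, e (F x) = F' (e x)) ↔ LinearMap.toMatrix B₁ B₁ F = LinearMap.toMatrix B₂ B₂ F' := by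
  have h1 : LinearMap.toMatrix B₁ B₂ e.toLinearMap = 1 := by
    ext i j
    rw [LinearMap.toMatrix_apply, LinearEquiv.coe_coe, he, Module.Basis.repr_self,
      Matrix.one_apply, Finsupp.single_apply]
    by_cases hij : i = j
    · simp [hij]
    · simp [hij, Ne.symm hij]
  have hL : LinearMap.toMatrix B₁ B₂ (e.toLinearMap ∘ₗ F) = LinearMap.toMatrix B₁ B₁ F := by
    rw [LinearMap.toMatrix_comp B₁ B₁ B₂, h1, Matrix.one_mul]
  have hR : LinearMap.toMatrix B₁ B₂ (F' ∘ₗ e.toLinearMap) = LinearMap.toMatrix B₂ B₂ F' := by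
    rw [LinearMap.toMatrix_comp B₁ B₂ B₂, h1, Matrix.mul_one]
  constructor
  · intro h
    have : e.toLinearMap ∘ₗ F = F' ∘ₗ e.toLinearMap := LinearMap.ext h
    rw [← hL, ← hR, this]
  · intro h x
    have : e.toLinearMap ∘ₗ F = F' ∘ₗ e.toLinearMap := by
      apply (LinearMap.toMatrix B₁ B₂).injective
      rw [hL, hR, h]
    exact LinearMap.congr_fun this x

variable {k : Type} [Field k]

/-- The matrix of a residual representation in a basis. -/
noncomputable def resToMat (ρbar : ResidualGaloisRep k) (b : Module.Basis (Fin 2) k ρbar.V) :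
    Γℚ →* Matrix (Fin 2) (Fin 2) k :=
  (LinearMap.toMatrixAlgEquiv b : Module.End k ρbar.V ≃ₐ[k] _).toAlgHom.toRingHom.toMonoidHom.comp
    ρbar.ρ

omit [IsLocalRing A] in
theorem resToMat_apply (ρbar : ResidualGaloisRep k) (b : Module.Basis (Fin 2) k ρbar.V) (σ : Γℚ) :
    resToMat ρbar b σ = LinearMap.toMatrix b b (ρbar.ρ σ) := rfl

/-- Every residual representation has a basis indexed by `Fin 2`. -/
theorem exists_basis_residual (ρbar : ResidualGaloisRep k) :
    Nonempty (Module.Basis (Fin 2) k ρbar.V) :=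
  ⟨Module.finBasisOfFinrankEq k ρbar.V ρbar.finrank_eq⟩

/-- Key comparison: with `B₁ = 1 ⊗ b`, `B₂ = 1 ⊗ bbar` and an isomorphism `e` matching them,
`e` intertwines the base changes of `f` and `fbar` iff the matrices agree after reduction. -/
theorem intertwine_baseChange_iff {V : Type} [AddCommGroup V] [Module A V]
    {Vbar : Type} [AddCommGroup Vbar] [Module k Vbar] [Algebra k (ResidueField A)]
    (b : Module.Basis (Fin 2) A V) (bbar : Module.Basis (Fin 2) k Vbar)
    (e : (ResidueField A ⊗[A] V) ≃ₗ[ResidueField A] (ResidueField A ⊗[k] Vbar))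
    (he : ∀ i, e (1 ⊗ₜ b i) = 1 ⊗ₜ bbar i) (f : V →ₗ[A] V) (fbar : Vbar →ₗ[k] Vbar) :
    (∀ x, e (f.baseChange (ResidueField A) x) = fbar.baseChange (ResidueField A) (e x)) ↔
      ∀ i j, residue A (LinearMap.toMatrix b b f i j) =
        algebraMap k (ResidueField A) (LinearMap.toMatrix bbar bbar fbar i j) := by
  rw [intertwine_iff_toMatrix (Algebra.TensorProduct.basis (ResidueField A) b)
    (Algebra.TensorProduct.basis (ResidueField A) bbar) e
    (fun i => by rw [Algebra.TensorProduct.basis_apply, he, Algebra.TensorProduct.basis_apply]),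
    LinearMap.toMatrix_baseChange, LinearMap.toMatrix_baseChange]
  constructor
  · intro h i j
    have := congrFun (congrFun h i) j
    simpa [Matrix.map_apply] using this
  · intro h
    ext i j
    simpa [Matrix.map_apply] using h i j

/-- Lifting a basis: if `ρ.residual ≅ ρbar ⊗_ψ k_A`, there is a basis of `ρ.V` in which the
matrices of `ρ` reduce (entrywise) to `ψ` of the matrices of `ρbar` in the basis `bbar`. -/
theorem exists_basis_lifting (ρ : GaloisRepAdic A) (ρbar : ResidualGaloisRep k)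
    (ψ : k →+* ResidueField A) (bbar : Module.Basis (Fin 2) k ρbar.V)
    (hres : ρ.residual.IsEquiv (ρbar.baseChangeAlong ψ)) :
    ∃ b : Module.Basis (Fin 2) A ρ.V, ∀ (σ : Γℚ) (i j : Fin 2),
      residue A (toMat ρ b σ i j) = ψ (resToMat ρbar bbar σ i j) := by
  let _ : Algebra k (ResidueField A) := ψ.toAlgebra
  obtain ⟨E⟩ := hres
  let e : (ResidueField A ⊗[A] ρ.V) ≃ₗ[ResidueField A] (ResidueField A ⊗[k] ρbar.V) :=
    E.toLinearEquiv
  have hE : ∀ (σ : Γℚ) (x : ResidueField A ⊗[A] ρ.V),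
      e ((ρ.ρ σ).baseChange (ResidueField A) x) =
        (ρbar.ρ σ).baseChange (ResidueField A) (e x) := fun σ x => E.map_apply σ x
  -- the basis `w i = e⁻¹ (1 ⊗ bbar i)` of the special fibre
  let B₂ := Algebra.TensorProduct.basis (ResidueField A) bbar
  let W : Module.Basis (Fin 2) (ResidueField A) (ResidueField A ⊗[A] ρ.V) := B₂.map e.symm
  have hsurj : Function.Surjective (TensorProduct.mk A (ResidueField A) ρ.V 1) :=
    TensorProduct.mk_surjective A ρ.V (ResidueField A) IsLocalRing.residue_surjective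
  choose v hv using fun i => hsurj (W i)
  have hv' : ∀ i, (1 : ResidueField A) ⊗ₜ[A] v i = W i := hv
  have hspan : Submodule.span A (Set.range v) = ⊤ :=
    IsLocalRing.span_eq_top_of_tmul_eq_basis v W hv'
  let b : Module.Basis (Fin 2) A ρ.V :=
    basisOfTopLeSpanOfCardEqFinrank v hspan.ge (by rw [ρ.finrank_eq]; simp)
  have hb : ∀ i, b i = v i := fun i => by
    simp only [b, coe_basisOfTopLeSpanOfCardEqFinrank]
  refine ⟨b, fun σ i j => ?_⟩
  have he : ∀ i, e (1 ⊗ₜ b i) = 1 ⊗ₜ bbar i := fun i => by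
    rw [hb, hv']
    simp only [W, B₂, Module.Basis.map_apply, LinearEquiv.apply_symm_apply,
      Algebra.TensorProduct.basis_apply]
  have := (intertwine_baseChange_iff b bbar e he (ρ.ρ σ) (ρbar.ρ σ)).mp (hE σ) i j
  rw [toMat_apply, resToMat_apply]
  exact this

/-- Conversely, a matrix representation reducing entrywise to `ρbar` (in the basis `bbar`) has
residual representation equivalent to `ρbar ⊗_ψ k_A`. -/
theorem ofMat_residual_isEquiv (r : Γℚ →* Matrix (Fin 2) (Fin 2) A) (hr : MatAdicContinuous r)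
    (ρbar : ResidualGaloisRep k) (ψ : k →+* ResidueField A)
    (bbar : Module.Basis (Fin 2) k ρbar.V)
    (h : ∀ (σ : Γℚ) (i j : Fin 2), residue A (r σ i j) = ψ (resToMat ρbar bbar σ i j)) :
    (ofMat r hr).residual.IsEquiv (ρbar.baseChangeAlong ψ) := by
  let _ : Algebra k (ResidueField A) := ψ.toAlgebra
  let b : Module.Basis (Fin 2) A (Fin 2 → A) := Pi.basisFun A (Fin 2)
  let B₁ := Algebra.TensorProduct.basis (ResidueField A) b
  let B₂ := Algebra.TensorProduct.basis (ResidueField A) bbar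
  let e : (ResidueField A ⊗[A] (Fin 2 → A)) ≃ₗ[ResidueField A] (ResidueField A ⊗[k] ρbar.V) :=
    B₁.equiv B₂ (Equiv.refl _)
  have he : ∀ i, e (1 ⊗ₜ b i) = 1 ⊗ₜ bbar i := fun i => by
    have := Module.Basis.equiv_apply B₁ i B₂ (Equiv.refl _)
    simpa [B₁, B₂, e, Algebra.TensorProduct.basis_apply] using this
  have key : ∀ (σ : Γℚ) (x : ResidueField A ⊗[A] (Fin 2 → A)),
      e ((matToEnd A (r σ)).baseChange (ResidueField A) x) =
        (ρbar.ρ σ).baseChange (ResidueField A) (e x) := by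
    intro σ
    rw [intertwine_baseChange_iff b bbar e he]
    intro i j
    have hm : LinearMap.toMatrix b b (matToEnd A (r σ)) = r σ := by
      ext i j
      simp [b, matToEnd_apply, Matrix.mulVec, dotProduct,
        Pi.single_apply]
    rw [hm]
    exact h σ i j
  exact ⟨⟨e, fun σ x => key σ x⟩⟩

end Residual

end Fermat.Agent.S53
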