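import Mathlib
import Fermat.Prelude.Thm_IsLocalRing_isAdicComplete_of_module_finite

/-!
# S53 chunk P (owner: helper38): the power series ring `𝒪⟦X₁,…,X_d⟧`

Interface (statements fixed by the S53 plan):
* `mvPowerSeries_isAdicComplete` : `𝒪⟦X⟧` is complete for its maximal ideal
* `exists_algHom_mvPowerSeries` : evaluation at nilpotent elements
* `algHom_mvPowerSeries_ext` : two `𝒪`-algebra maps out of `𝒪⟦X⟧` that agree on the variables
   and send them to nilpotent elements are equal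

Extra lemmas that other chunks may find useful (all in `Fermat.Agent.S53.PowerSeriesAux`):
* `sub_truncTotal_mem_span_X_pow` : `f - truncTotal N f ∈ (X)^N`
* `mem_maximalIdeal_mvPowerSeries_iff` : `g ∈ 𝔪 ↔ constantCoeff g ∈ 𝔪_𝒪`
* `maximalIdeal_pow_eq_coeffIdeal` : `g ∈ 𝔪^k ↔ ∀ x, coeff x g ∈ 𝔪_𝒪^(k - deg x)`
-/

namespace Fermat.Agent.S53

open IsLocalRing

namespace PowerSeriesAux

section tail

variable {R : Type*} [CommRing R] {σ : Type*}

/-- the extension of the ideal of variables of the polynomial ring is the ideal of variables -/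
theorem map_idealOfVars_eq :
    (MvPolynomial.idealOfVars σ R).map (algebraMap (MvPolynomial σ R) (MvPowerSeries σ R)) =
      Ideal.span (Set.range (MvPowerSeries.X : σ → MvPowerSeries σ R)) := by
  rw [MvPolynomial.idealOfVars, Ideal.map_span, ← Set.range_comp]
  congr 2
  funext i
  simp [MvPowerSeries.algebraMap_apply']

variable [Finite σ]

/-- A power series without terms of degree `< N` lies in the `N`-th power of the ideal of
variables. -/
theorem mem_span_X_pow_of_coeff_eq_zero (N : ℕ) (g : MvPowerSeries σ R)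
    (hg : ∀ x : σ →₀ ℕ, Finsupp.degree x < N → MvPowerSeries.coeff x g = 0) :
    g ∈ (Ideal.span (Set.range (MvPowerSeries.X : σ → MvPowerSeries σ R))) ^ N := by
  classical
  set I := MvPolynomial.idealOfVars σ R with hI
  set e := MvPowerSeries.toAdicCompletionAlgEquiv σ R with he
  have htr : MvPowerSeries.truncTotal N g = 0 := by
    ext x
    by_cases hx : Finsupp.degree x < N
    · rw [MvPowerSeries.coeff_truncTotal _ hx, hg x hx]; simp
    · rw [MvPowerSeries.coeff_truncTotal_eq_zero _ (not_lt.mp hx)]; simp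
  have h1 : e g ∈ (AdicCompletion.eval I (MvPolynomial σ R) N).ker := by
    rw [LinearMap.mem_ker]
    change (MvPowerSeries.toAdicCompletion σ R g).val N = 0
    rw [MvPowerSeries.toAdicCompletion_apply_eq_mk_truncTotal, htr]
    simp
  rw [← AdicCompletion.pow_smul_top_eq_ker_eval (MvPolynomial.idealOfVars_fg σ R)] at h1
  have h2 : g ∈ (I ^ N • (⊤ : Submodule (MvPolynomial σ R) (MvPowerSeries σ R))) := by
    have := Submodule.mem_map_of_mem (f := e.symm.toLinearMap) h1
    rw [Submodule.map_smul''] at this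
    have htop : Submodule.map e.symm.toLinearMap (⊤ : Submodule (MvPolynomial σ R) _) = ⊤ := by
      rw [Submodule.map_top]
      exact LinearMap.range_eq_top.mpr e.symm.surjective
    rw [htop] at this
    simpa using this
  rw [Ideal.smul_top_eq_map, Submodule.restrictScalars_mem, Ideal.map_pow,
    map_idealOfVars_eq] at h2
  exact h2

/-- The tail `f - truncTotal N f` lies in the `N`-th power of the ideal of variables. -/
theorem sub_truncTotal_mem_span_X_pow (N : ℕ) (f : MvPowerSeries σ R) :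
    f - ((MvPowerSeries.truncTotal N f : MvPolynomial σ R) : MvPowerSeries σ R) ∈
      (Ideal.span (Set.range (MvPowerSeries.X : σ → MvPowerSeries σ R))) ^ N := by
  apply mem_span_X_pow_of_coeff_eq_zero
  intro x hx
  rw [map_sub, MvPolynomial.coeff_coe, MvPowerSeries.coeff_truncTotal _ hx, sub_self]

end tail

section eval

variable {d : ℕ} {A : Type} [CommRing A]

/-- finitely many nilpotent elements generate a nilpotent ideal -/
theorem exists_span_range_pow_eq_bot (a : Fin d → A) (ha : ∀ i, IsNilpotent (a i)) :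
    ∃ N : ℕ, (Ideal.span (Set.range a)) ^ N = ⊥ := by
  classical
  have hfg : (Ideal.span (Set.range a)).FG := ⟨(Finset.univ.image a), by simp⟩
  have hle : Ideal.span (Set.range a) ≤ nilradical A := by
    rw [Ideal.span_le]
    rintro _ ⟨i, rfl⟩
    exact (mem_nilradical).mpr (ha i)
  obtain ⟨N, hN⟩ := (Ideal.FG.isNilpotent_iff_le_nilradical hfg).mpr hle
  exact ⟨N, by simpa using hN⟩

end eval

section complete

variable (𝒪 : Type) [CommRing 𝒪] [IsLocalRing 𝒪] (σ : Type)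

/-- the ideal of power series whose coefficient at `x` lies in `𝔪^(k - deg x)` -/
def coeffIdeal (k : ℕ) : Ideal (MvPowerSeries σ 𝒪) where
  carrier := {g | ∀ x : σ →₀ ℕ, MvPowerSeries.coeff x g ∈ maximalIdeal 𝒪 ^ (k - Finsupp.degree x)}
  add_mem' := by
    intro a b ha hb x
    rw [map_add]
    exact Ideal.add_mem _ (ha x) (hb x)
  zero_mem' := by
    intro x
    simp
  smul_mem' := by
    classical
    intro c g hg x
    rw [smul_eq_mul, MvPowerSeries.coeff_mul]
    refine Ideal.sum_mem _ fun p hp => ?_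
    have hp' : p.1 + p.2 = x := by simpa using hp
    have hdeg : Finsupp.degree p.2 ≤ Finsupp.degree x := by
      rw [← hp', map_add]
      exact Nat.le_add_left _ _
    exact Ideal.mul_mem_left _ _ (Ideal.pow_le_pow_right (by omega) (hg p.2))

variable {𝒪 σ}

theorem mem_coeffIdeal {k : ℕ} {g : MvPowerSeries σ 𝒪} :
    g ∈ coeffIdeal 𝒪 σ k ↔
      ∀ x : σ →₀ ℕ, MvPowerSeries.coeff x g ∈ maximalIdeal 𝒪 ^ (k - Finsupp.degree x) :=
  Iff.rfl

theorem mem_maximalIdeal_mvPowerSeries_iff {g : MvPowerSeries σ 𝒪} :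
    g ∈ maximalIdeal (MvPowerSeries σ 𝒪) ↔ MvPowerSeries.constantCoeff g ∈ maximalIdeal 𝒪 := by
  rw [mem_maximalIdeal, mem_maximalIdeal, mem_nonunits_iff, mem_nonunits_iff,
    MvPowerSeries.isUnit_iff_constantCoeff]

theorem maximalIdeal_le_coeffIdeal_one :
    maximalIdeal (MvPowerSeries σ 𝒪) ≤ coeffIdeal 𝒪 σ 1 := by
  intro g hg x
  by_cases hx : x = 0
  · subst hx
    simpa using mem_maximalIdeal_mvPowerSeries_iff.mp hg
  · have : 0 < Finsupp.degree x := by
      rw [Nat.pos_iff_ne_zero]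
      intro h
      exact hx ((Finsupp.degree_eq_zero_iff x).mp h)
    have h1 : 1 - Finsupp.degree x = 0 := by omega
    rw [h1, pow_zero, Ideal.one_eq_top]
    exact Submodule.mem_top

theorem coeffIdeal_mul_le (j k : ℕ) :
    coeffIdeal 𝒪 σ j * coeffIdeal 𝒪 σ k ≤ coeffIdeal 𝒪 σ (j + k) := by
  classical
  rw [Ideal.mul_le]
  intro g hg h hh x
  rw [MvPowerSeries.coeff_mul]
  refine Ideal.sum_mem _ fun p hp => ?_
  have hp' : p.1 + p.2 = x := by simpa using hp
  have hdeg : Finsupp.degree p.1 + Finsupp.degree p.2 = Finsupp.degree x := by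
    rw [← hp', map_add]
  have := Ideal.mul_mem_mul (hg p.1) (hh p.2)
  rw [← pow_add] at this
  exact Ideal.pow_le_pow_right (by omega) this

theorem maximalIdeal_pow_le_coeffIdeal (k : ℕ) :
    maximalIdeal (MvPowerSeries σ 𝒪) ^ k ≤ coeffIdeal 𝒪 σ k := by
  induction k with
  | zero =>
    intro g _ x
    simp
  | succ k ih =>
    rw [pow_succ]
    exact (Ideal.mul_mono ih maximalIdeal_le_coeffIdeal_one).trans (coeffIdeal_mul_le k 1)

theorem span_X_le_maximalIdeal :
    Ideal.span (Set.range (MvPowerSeries.X : σ → MvPowerSeries σ 𝒪)) ≤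
      maximalIdeal (MvPowerSeries σ 𝒪) := by
  classical
  rw [Ideal.span_le]
  rintro _ ⟨i, rfl⟩
  rw [SetLike.mem_coe, mem_maximalIdeal_mvPowerSeries_iff]
  simp

theorem C_mem_maximalIdeal_pow {n : ℕ} {c : 𝒪} (hc : c ∈ maximalIdeal 𝒪 ^ n) :
    (MvPowerSeries.C c : MvPowerSeries σ 𝒪) ∈ maximalIdeal (MvPowerSeries σ 𝒪) ^ n := by
  have h1 : (maximalIdeal 𝒪).map (MvPowerSeries.C (σ := σ) (R := 𝒪)) ≤
      maximalIdeal (MvPowerSeries σ 𝒪) := by
    rw [Ideal.map_le_iff_le_comap]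
    intro a ha
    rw [Ideal.mem_comap, mem_maximalIdeal_mvPowerSeries_iff]
    simpa using ha
  have h2 := Ideal.mem_map_of_mem (MvPowerSeries.C (σ := σ) (R := 𝒪)) hc
  rw [Ideal.map_pow] at h2
  exact Ideal.pow_right_mono h1 n h2

theorem coe_monomial_mem_maximalIdeal_pow {k : ℕ} (x : σ →₀ ℕ) (hx : Finsupp.degree x ≤ k)
    {c : 𝒪} (hc : c ∈ maximalIdeal 𝒪 ^ (k - Finsupp.degree x)) :
    ((MvPolynomial.monomial x c : MvPolynomial σ 𝒪) : MvPowerSeries σ 𝒪) ∈
      maximalIdeal (MvPowerSeries σ 𝒪) ^ k := by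
  classical
  have h1 : (MvPolynomial.monomial x (1 : 𝒪)) ∈
      MvPolynomial.idealOfVars σ 𝒪 ^ (Finsupp.degree x) := by
    rw [MvPolynomial.mem_pow_idealOfVars_iff']
    intro y hy
    rw [MvPolynomial.coeff_monomial, if_neg]
    rintro rfl
    exact lt_irrefl _ hy
  have h2 : ((MvPolynomial.monomial x (1 : 𝒪) : MvPolynomial σ 𝒪) : MvPowerSeries σ 𝒪) ∈
      maximalIdeal (MvPowerSeries σ 𝒪) ^ (Finsupp.degree x) := by
    have := Ideal.mem_map_of_mem (algebraMap (MvPolynomial σ 𝒪) (MvPowerSeries σ 𝒪)) h1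
    rw [Ideal.map_pow, map_idealOfVars_eq] at this
    exact Ideal.pow_right_mono span_X_le_maximalIdeal _ this
  have h3 : ((MvPolynomial.monomial x c : MvPolynomial σ 𝒪) : MvPowerSeries σ 𝒪) =
      MvPowerSeries.C c * ((MvPolynomial.monomial x (1 : 𝒪) : MvPolynomial σ 𝒪) :
        MvPowerSeries σ 𝒪) := by
    rw [MvPolynomial.coe_monomial, MvPolynomial.coe_monomial, ← MvPowerSeries.smul_eq_C_mul,
      ← map_smul, smul_eq_mul, mul_one]
  rw [h3]
  have h4 := Ideal.mul_mem_mul (C_mem_maximalIdeal_pow (σ := σ) hc) h2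
  rw [← pow_add] at h4
  have h5 : k - Finsupp.degree x + Finsupp.degree x = k := by omega
  rwa [h5] at h4

variable [Finite σ]

theorem coeffIdeal_le_maximalIdeal_pow (k : ℕ) :
    coeffIdeal 𝒪 σ k ≤ maximalIdeal (MvPowerSeries σ 𝒪) ^ k := by
  classical
  intro g hg
  have htail := sub_truncTotal_mem_span_X_pow k g
  have htail' : g - ((MvPowerSeries.truncTotal k g : MvPolynomial σ 𝒪) : MvPowerSeries σ 𝒪) ∈
      maximalIdeal (MvPowerSeries σ 𝒪) ^ k :=
    Ideal.pow_right_mono span_X_le_maximalIdeal _ htail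
  have hpoly : ((MvPowerSeries.truncTotal k g : MvPolynomial σ 𝒪) : MvPowerSeries σ 𝒪) ∈
      maximalIdeal (MvPowerSeries σ 𝒪) ^ k := by
    set p := MvPowerSeries.truncTotal k g with hp
    rw [← MvPolynomial.support_sum_monomial_coeff p]
    rw [← MvPolynomial.coeToMvPowerSeries.ringHom_apply, map_sum]
    refine Ideal.sum_mem _ fun x hx => ?_
    rw [MvPolynomial.coeToMvPowerSeries.ringHom_apply]
    have hxk : Finsupp.degree x < k := by
      by_contra hcon
      rw [MvPolynomial.mem_support_iff, hp,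
        MvPowerSeries.coeff_truncTotal_eq_zero _ (not_lt.mp hcon)] at hx
      exact hx rfl
    apply coe_monomial_mem_maximalIdeal_pow x hxk.le
    rw [hp, MvPowerSeries.coeff_truncTotal _ hxk]
    exact hg x
  have := Ideal.add_mem _ htail' hpoly
  simpa using this

/-- `g ∈ 𝔪^k` iff every coefficient `coeff x g` lies in `𝔪_𝒪^(k - deg x)`. -/
theorem maximalIdeal_pow_eq_coeffIdeal (k : ℕ) :
    maximalIdeal (MvPowerSeries σ 𝒪) ^ k = coeffIdeal 𝒪 σ k :=
  le_antisymm (maximalIdeal_pow_le_coeffIdeal k) (coeffIdeal_le_maximalIdeal_pow k)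

theorem isPrecomplete_mvPowerSeries [IsPrecomplete (maximalIdeal 𝒪) 𝒪] :
    IsPrecomplete (maximalIdeal (MvPowerSeries σ 𝒪)) (MvPowerSeries σ 𝒪) := by
  classical
  refine ⟨fun f hf => ?_⟩
  have hcoef : ∀ x : σ →₀ ℕ, ∃ c : 𝒪, ∀ n : ℕ,
      MvPowerSeries.coeff x (f (n + Finsupp.degree x)) - c ∈ maximalIdeal 𝒪 ^ n := by
    intro x
    have hC : ∀ {a b : ℕ}, a ≤ b →
        MvPowerSeries.coeff x (f (a + Finsupp.degree x)) ≡
          MvPowerSeries.coeff x (f (b + Finsupp.degree x))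
          [SMOD (maximalIdeal 𝒪 ^ a • ⊤ : Submodule 𝒪 𝒪)] := by
      intro a b hab
      rw [SModEq.sub_mem, smul_eq_mul, Ideal.mul_top]
      have h1 := hf (m := a + Finsupp.degree x) (n := b + Finsupp.degree x) (by omega)
      rw [SModEq.sub_mem, smul_eq_mul, Ideal.mul_top] at h1
      have h2 := maximalIdeal_pow_le_coeffIdeal _ h1 x
      rw [map_sub] at h2
      simpa using h2
    obtain ⟨c, hc⟩ := IsPrecomplete.prec ‹_› hC
    refine ⟨c, fun n => ?_⟩
    have := hc n
    rwa [SModEq.sub_mem, smul_eq_mul, Ideal.mul_top] at this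
  choose c hc using hcoef
  obtain ⟨L, hL⟩ : ∃ L : MvPowerSeries σ 𝒪, ∀ x, MvPowerSeries.coeff x L = c x :=
    ⟨fun x => c x, fun x => rfl⟩
  refine ⟨L, fun n => ?_⟩
  rw [SModEq.sub_mem, smul_eq_mul, Ideal.mul_top, maximalIdeal_pow_eq_coeffIdeal]
  intro x
  rw [map_sub, hL]
  by_cases hx : Finsupp.degree x ≤ n
  · have h := hc x (n - Finsupp.degree x)
    have hn : n - Finsupp.degree x + Finsupp.degree x = n := by omega
    rw [hn] at h
    exact h
  · have h0 : n - Finsupp.degree x = 0 := by omega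
    rw [h0, pow_zero, Ideal.one_eq_top]
    exact Submodule.mem_top

end complete

end PowerSeriesAux

open PowerSeriesAux

theorem mvPowerSeries_isAdicComplete (𝒪 : Type) [CommRing 𝒪] [IsDomain 𝒪]
    [IsDiscreteValuationRing 𝒪] [IsAdicComplete (maximalIdeal 𝒪) 𝒪] (d : ℕ) :
    IsAdicComplete (maximalIdeal (MvPowerSeries (Fin d) 𝒪)) (MvPowerSeries (Fin d) 𝒪) :=
  { toIsHausdorff := inferInstance
    toIsPrecomplete := isPrecomplete_mvPowerSeries }

theorem exists_algHom_mvPowerSeries {𝒪 : Type} [CommRing 𝒪] {d : ℕ}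
    {A : Type} [CommRing A] [Algebra 𝒪 A] (a : Fin d → A) (ha : ∀ i, IsNilpotent (a i)) :
    ∃ θ : MvPowerSeries (Fin d) 𝒪 →ₐ[𝒪] A, ∀ i, θ (MvPowerSeries.X i) = a i := by
  obtain ⟨N, hN⟩ := exists_span_range_pow_eq_bot a ha
  set ev : MvPolynomial (Fin d) 𝒪 →ₐ[𝒪] A := MvPolynomial.aeval a with hev
  have hmap : (MvPolynomial.idealOfVars (Fin d) 𝒪).map ev.toRingHom ≤
      Ideal.span (Set.range a) := by
    rw [MvPolynomial.idealOfVars, Ideal.map_span, Ideal.span_le]
    rintro _ ⟨_, ⟨i, rfl⟩, rfl⟩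
    apply Ideal.subset_span
    exact ⟨i, by simp [hev]⟩
  have hker : ∀ p ∈ (MvPolynomial.idealOfVars (Fin d) 𝒪) ^ N, ev p = 0 := by
    intro p hp
    have h1 : ev p ∈ ((MvPolynomial.idealOfVars (Fin d) 𝒪).map ev.toRingHom) ^ N := by
      rw [← Ideal.map_pow]
      exact Ideal.mem_map_of_mem _ hp
    have h2 := Ideal.pow_right_mono hmap N h1
    rw [hN] at h2
    simpa using h2
  let lift : (MvPolynomial (Fin d) 𝒪 ⧸ (MvPolynomial.idealOfVars (Fin d) 𝒪) ^ N) →ₐ[𝒪] A :=
    Ideal.Quotient.liftₐ _ ev hker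
  let tr : MvPowerSeries (Fin d) 𝒪 →ₐ[𝒪]
      (MvPolynomial (Fin d) 𝒪 ⧸ (MvPolynomial.idealOfVars (Fin d) 𝒪) ^ N) :=
    (MvPowerSeries.truncTotalAlgHom (Fin d) 𝒪 N).restrictScalars 𝒪
  refine ⟨lift.comp tr, fun i => ?_⟩
  have hX : (MvPowerSeries.X i : MvPowerSeries (Fin d) 𝒪) =
      algebraMap (MvPolynomial (Fin d) 𝒪) (MvPowerSeries (Fin d) 𝒪) (MvPolynomial.X i) := by
    simp [MvPowerSeries.algebraMap_apply']
  have htr : tr (MvPowerSeries.X i) = Ideal.Quotient.mk _ (MvPolynomial.X i) := by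
    rw [hX]
    exact (MvPowerSeries.truncTotalAlgHom (Fin d) 𝒪 N).commutes (MvPolynomial.X i)
  rw [AlgHom.comp_apply, htr]
  have : lift (Ideal.Quotient.mk _ (MvPolynomial.X i)) = ev (MvPolynomial.X i) :=
    Ideal.Quotient.lift_mk _ _ _
  rw [this, hev, MvPolynomial.aeval_X]

theorem algHom_mvPowerSeries_ext {𝒪 : Type} [CommRing 𝒪] {d : ℕ}
    {A : Type} [CommRing A] [Algebra 𝒪 A] (θ θ' : MvPowerSeries (Fin d) 𝒪 →ₐ[𝒪] A)
    (h : ∀ i, θ (MvPowerSeries.X i) = θ' (MvPowerSeries.X i))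
    (hnil : ∀ i, IsNilpotent (θ (MvPowerSeries.X i))) : θ = θ' := by
  obtain ⟨N, hN⟩ := exists_span_range_pow_eq_bot (fun i => θ (MvPowerSeries.X i)) hnil
  set 𝔵 : Ideal (MvPowerSeries (Fin d) 𝒪) := Ideal.span (Set.range MvPowerSeries.X) with h𝔵
  have key : ∀ ψ : MvPowerSeries (Fin d) 𝒪 →ₐ[𝒪] A,
      (∀ i, ψ (MvPowerSeries.X i) = θ (MvPowerSeries.X i)) → ∀ g ∈ 𝔵 ^ N, ψ g = 0 := by
    intro ψ hψ g hg
    have hmap : 𝔵.map ψ.toRingHom ≤ Ideal.span (Set.range fun i => θ (MvPowerSeries.X i)) := by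
      rw [h𝔵, Ideal.map_span, Ideal.span_le]
      rintro _ ⟨_, ⟨i, rfl⟩, rfl⟩
      apply Ideal.subset_span
      exact ⟨i, (hψ i).symm⟩
    have h1 : ψ g ∈ (𝔵.map ψ.toRingHom) ^ N := by
      rw [← Ideal.map_pow]
      exact Ideal.mem_map_of_mem _ hg
    have h2 := Ideal.pow_right_mono hmap N h1
    rw [hN] at h2
    simpa using h2
  have hpoly : θ.comp (MvPolynomial.coeToMvPowerSeries.algHom 𝒪) =
      θ'.comp (MvPolynomial.coeToMvPowerSeries.algHom 𝒪) := by
    apply MvPolynomial.algHom_ext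
    intro i
    simp [h i]
  ext f
  have hf := sub_truncTotal_mem_span_X_pow N f
  have e1 := key θ (fun _ => rfl) _ hf
  have e2 := key θ' (fun i => (h i).symm) _ hf
  rw [map_sub, sub_eq_zero] at e1 e2
  rw [e1, e2]
  exact congrArg (fun φ => φ (MvPowerSeries.truncTotal N f)) hpoly

end Fermat.Agent.S53
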