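import Mathlib
import Fermat.Prelude.Def_GaloisRep_DeformationCondition

/-!
# S53: shared definitions (interfaces between the chunks)

`IsPointFunctor 𝒪 Ω F c`: `F` assigns to every local `𝒪`-algebra `A` a set of `Ω`-indexed
families of elements of `A` ("points"), stable under maps / injective descent / fibre products
on Artinian test algebras, residually rigid (`x ω ≡ c ω` mod `𝔪`), nonempty over the residue
field and finite over the dual numbers.

`UniversalPoint 𝒪 Ω F`: a complete Noetherian local `𝒪`-algebra `R` with a universal point.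
-/

namespace Fermat.Agent.S53

open IsLocalRing GaloisRep

/-- The `𝒪`-algebra structure on the dual numbers over the residue field that is used in
`GaloisRep.TangentFinite`. -/
@[reducible] noncomputable def dualNumberAlgebra (𝒪 : Type) [CommRing 𝒪] [IsLocalRing 𝒪] :
    Algebra 𝒪 (DualNumber (ResidueField 𝒪)) :=
  ((algebraMap (ResidueField 𝒪) (DualNumber (ResidueField 𝒪))).comp
      (algebraMap 𝒪 (ResidueField 𝒪))).toAlgebra

/-- Axioms for a "point functor". -/
structure IsPointFunctor (𝒪 : Type) [CommRing 𝒪] [IsLocalRing 𝒪] (Ω : Type)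
    (F : ∀ (A : Type) [CommRing A] [IsLocalRing A] [Algebra 𝒪 A], Set (Ω → A))
    (c : Ω → 𝒪) : Prop where
  map : ∀ ⦃A B : Type⦄ [CommRing A] [IsLocalRing A] [Algebra 𝒪 A]
    [CommRing B] [IsLocalRing B] [Algebra 𝒪 B],
    IsArtinianTestAlgebra 𝒪 A → IsArtinianTestAlgebra 𝒪 B →
    ∀ (φ : A →ₐ[𝒪] B), IsLocalHom (φ : A →+* B) → ∀ x ∈ F A, (fun ω => φ (x ω)) ∈ F B
  of_injective : ∀ ⦃A B : Type⦄ [CommRing A] [IsLocalRing A] [Algebra 𝒪 A]
    [CommRing B] [IsLocalRing B] [Algebra 𝒪 B],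
    IsArtinianTestAlgebra 𝒪 A → IsArtinianTestAlgebra 𝒪 B →
    ∀ (φ : A →ₐ[𝒪] B), IsLocalHom (φ : A →+* B) → Function.Injective φ →
    ∀ x : Ω → A, (fun ω => φ (x ω)) ∈ F B → x ∈ F A
  of_fibreProduct : ∀ ⦃A B C P : Type⦄ [CommRing A] [IsLocalRing A] [Algebra 𝒪 A]
    [CommRing B] [IsLocalRing B] [Algebra 𝒪 B] [CommRing C] [IsLocalRing C] [Algebra 𝒪 C]
    [CommRing P] [IsLocalRing P] [Algebra 𝒪 P],
    IsArtinianTestAlgebra 𝒪 A → IsArtinianTestAlgebra 𝒪 B → IsArtinianTestAlgebra 𝒪 C →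
    IsArtinianTestAlgebra 𝒪 P →
    ∀ (f : A →ₐ[𝒪] C) (g : B →ₐ[𝒪] C) (pA : P →ₐ[𝒪] A) (pB : P →ₐ[𝒪] B),
      IsLocalHom (pA : P →+* A) → IsLocalHom (pB : P →+* B) →
      f.comp pA = g.comp pB →
      Function.Injective (fun x => (pA x, pB x)) →
      (∀ a b, f a = g b → ∃ x, pA x = a ∧ pB x = b) →
      ∀ x : Ω → P, (fun ω => pA (x ω)) ∈ F A → (fun ω => pB (x ω)) ∈ F B → x ∈ F P
  residue_eq : ∀ ⦃A : Type⦄ [CommRing A] [IsLocalRing A] [Algebra 𝒪 A],
    IsArtinianTestAlgebra 𝒪 A → ∀ x ∈ F A, ∀ ω, x ω - algebraMap 𝒪 A (c ω) ∈ maximalIdeal A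
  base_mem : (fun ω => algebraMap 𝒪 (ResidueField 𝒪) (c ω)) ∈ F (ResidueField 𝒪)
  tangent_finite : letI := dualNumberAlgebra 𝒪; (F (DualNumber (ResidueField 𝒪))).Finite

/-- A universal point of a point functor. -/
structure UniversalPoint (𝒪 : Type) [CommRing 𝒪] [IsLocalRing 𝒪] (Ω : Type)
    (F : ∀ (A : Type) [CommRing A] [IsLocalRing A] [Algebra 𝒪 A], Set (Ω → A)) : Type 1 where
  R : Type
  [instCommRing : CommRing R]
  [instIsLocalRing : IsLocalRing R]
  [instIsNoetherianRing : IsNoetherianRing R]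
  [instIsAdicComplete : IsAdicComplete (IsLocalRing.maximalIdeal R) R]
  [instAlgebra : Algebra 𝒪 R]
  [instIsLocalHom : IsLocalHom (algebraMap 𝒪 R)]
  residue_surjective : Function.Surjective (IsLocalRing.residue R ∘ algebraMap 𝒪 R)
  /-- the universal point -/
  x : Ω → R
  /-- every Artinian quotient of the universal point is a point -/
  mem_of_surjective : ∀ (B : Type) [CommRing B] [IsLocalRing B] [Algebra 𝒪 B],
    IsArtinianTestAlgebra 𝒪 B → ∀ (q : R →ₐ[𝒪] B), IsLocalHom (q : R →+* B) →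
      Function.Surjective q → (fun ω => q (x ω)) ∈ F B
  /-- universality with respect to complete Noetherian local test algebras -/
  universal : ∀ (A : Type) [CommRing A] [IsLocalRing A] [IsNoetherianRing A]
    [IsAdicComplete (IsLocalRing.maximalIdeal A) A] [Algebra 𝒪 A] [IsLocalHom (algebraMap 𝒪 A)],
    Function.Surjective (IsLocalRing.residue A ∘ algebraMap 𝒪 A) →
    ∀ y : Ω → A,
      (∀ (B : Type) [CommRing B] [IsLocalRing B] [Algebra 𝒪 B], IsArtinianTestAlgebra 𝒪 B →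
        ∀ (q : A →ₐ[𝒪] B), IsLocalHom (q : A →+* B) → Function.Surjective q →
          (fun ω => q (y ω)) ∈ F B) →
      ∃ φ : R →ₐ[𝒪] A, IsLocalHom (φ : R →+* A) ∧ (∀ ω, φ (x ω) = y ω) ∧
        ∀ φ' : R →ₐ[𝒪] A, IsLocalHom (φ' : R →+* A) → (∀ ω, φ' (x ω) = y ω) → φ' = φ

attribute [instance] UniversalPoint.instCommRing UniversalPoint.instIsLocalRing
  UniversalPoint.instIsNoetherianRing UniversalPoint.instIsAdicComplete
  UniversalPoint.instAlgebra UniversalPoint.instIsLocalHom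

end Fermat.Agent.S53
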