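import Mathlib
import Fermat.Agent.S53.Defs

/-!
# S53 chunk "Tangent" (owner: helper29): the tangent lemma

`exists_ne_algHom_dualNumber`: if `A₀ ⊊ A` is a proper `𝒪`-subalgebra of an Artinian test
algebra, there are two distinct local `𝒪`-algebra maps `A → k[ε]` that agree on `A₀`.

Auxiliary results (all in `namespace Fermat.Agent.S53`, names prefixed `tangent`):
* `tangent_subalgebra_eq_top` : if `A = A₀ + 𝔪²` and `𝔪` is nilpotent then `A₀ = ⊤`.
* `tangentRingHom` : the ring hom `a ↦ π a + d a • ε` attached to a "derivation" `d`.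
-/

namespace Fermat.Agent.S53

open IsLocalRing GaloisRep

section Approx

variable {𝒪 : Type} [CommRing 𝒪]
variable {A : Type} [CommRing A] [IsLocalRing A] [Algebra 𝒪 A]

/-- One step of the successive approximation: if `A = A₀ + 𝔪²`, every element of `𝔪ʲ` is
congruent modulo `𝔪ʲ⁺¹` to an element of `A₀ ∩ 𝔪ʲ`. -/
theorem tangent_approx_step (A₀ : Subalgebra 𝒪 A)
    (h : ∀ x : A, ∃ a ∈ A₀, x - a ∈ maximalIdeal A ^ 2) (j : ℕ) :
    ∀ x ∈ maximalIdeal A ^ j, ∃ a ∈ A₀, a ∈ maximalIdeal A ^ j ∧ x - a ∈ maximalIdeal A ^ (j + 1) := by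
  induction j with
  | zero =>
    intro x _
    obtain ⟨a, ha, hxa⟩ := h x
    refine ⟨a, ha, by simp, ?_⟩
    exact Ideal.pow_le_pow_right (by norm_num) hxa
  | succ j ih =>
    intro x hx
    rw [pow_succ] at hx
    refine Submodule.mul_induction_on hx ?_ ?_
    · intro y hy z hz
      obtain ⟨b, hb, hbj, hyb⟩ := ih y hy
      obtain ⟨c, hc, hzc⟩ := h z
      have hcm : c ∈ maximalIdeal A := by
        have h2 : z - c ∈ maximalIdeal A := Ideal.pow_le_self (by norm_num) hzc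
        have : c = z - (z - c) := by ring
        rw [this]
        exact Ideal.sub_mem _ hz h2
      refine ⟨b * c, A₀.mul_mem hb hc, ?_, ?_⟩
      · rw [pow_succ]
        exact Ideal.mul_mem_mul hbj hcm
      · have e : y * z - b * c = (y - b) * z + b * (z - c) := by ring
        rw [e]
        refine Ideal.add_mem _ ?_ ?_
        · rw [pow_succ (maximalIdeal A) (j + 1)]
          exact Ideal.mul_mem_mul hyb hz
        · have : maximalIdeal A ^ (j + 1 + 1) = maximalIdeal A ^ j * maximalIdeal A ^ 2 := by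
            rw [← pow_add]
          rw [this]
          exact Ideal.mul_mem_mul hbj hzc
    · rintro x y ⟨a, ha, haj, hxa⟩ ⟨b, hb, hbj, hyb⟩
      refine ⟨a + b, A₀.add_mem ha hb, Ideal.add_mem _ haj hbj, ?_⟩
      have e : x + y - (a + b) = (x - a) + (y - b) := by ring
      rw [e]
      exact Ideal.add_mem _ hxa hyb

/-- If `A = A₀ + 𝔪²` then `A = A₀ + 𝔪ʲ` for every `j`. -/
theorem tangent_approx (A₀ : Subalgebra 𝒪 A)
    (h : ∀ x : A, ∃ a ∈ A₀, x - a ∈ maximalIdeal A ^ 2) (j : ℕ) (x : A) :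
    ∃ a ∈ A₀, x - a ∈ maximalIdeal A ^ j := by
  induction j with
  | zero => exact ⟨0, A₀.zero_mem, by simp⟩
  | succ j ih =>
    obtain ⟨a, ha, hxa⟩ := ih
    obtain ⟨b, hb, -, hb2⟩ := tangent_approx_step A₀ h j (x - a) hxa
    refine ⟨a + b, A₀.add_mem ha hb, ?_⟩
    have e : x - (a + b) = x - a - b := by ring
    rw [e]
    exact hb2

/-- If the maximal ideal is nilpotent and `A = A₀ + 𝔪²` then `A₀ = ⊤`. -/
theorem tangent_subalgebra_eq_top (hnil : ∃ n : ℕ, maximalIdeal A ^ n = ⊥)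
    (A₀ : Subalgebra 𝒪 A)
    (h : ∀ x : A, ∃ a ∈ A₀, x - a ∈ maximalIdeal A ^ 2) : A₀ = ⊤ := by
  obtain ⟨n, hn⟩ := hnil
  rw [eq_top_iff]
  intro x _
  obtain ⟨a, ha, hxa⟩ := tangent_approx A₀ h n x
  rw [hn, Ideal.mem_bot, sub_eq_zero] at hxa
  rw [hxa]
  exact ha

end Approx

section Hom

variable {A k : Type} [CommRing A] [Field k]

/-- The ring homomorphism `a ↦ π a + d a • ε` into the dual numbers attached to a ring
homomorphism `π : A → k` and a `π`-derivation `d : A → k`. -/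
noncomputable def tangentRingHom (π : A →+* k) (d : A →+ k) (h1 : d 1 = 0)
    (hmul : ∀ a b, d (a * b) = π a * d b + π b * d a) : A →+* DualNumber k where
  toFun a := TrivSqZeroExt.inl (π a) + TrivSqZeroExt.inr (d a)
  map_one' := by
    apply TrivSqZeroExt.ext <;> simp [h1]
  map_mul' a b := by
    apply TrivSqZeroExt.ext
    · simp
    · simp [hmul, mul_comm]
  map_zero' := by
    apply TrivSqZeroExt.ext <;> simp
  map_add' a b := by
    apply TrivSqZeroExt.ext <;> simp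

@[simp] theorem tangentRingHom_fst (π : A →+* k) (d : A →+ k) (h1 : d 1 = 0)
    (hmul : ∀ a b, d (a * b) = π a * d b + π b * d a) (a : A) :
    (tangentRingHom π d h1 hmul a).fst = π a := by
  simp [tangentRingHom]

@[simp] theorem tangentRingHom_snd (π : A →+* k) (d : A →+ k) (h1 : d 1 = 0)
    (hmul : ∀ a b, d (a * b) = π a * d b + π b * d a) (a : A) :
    (tangentRingHom π d h1 hmul a).snd = d a := by
  simp [tangentRingHom]

end Hom

end Fermat.Agent.S53

namespace Fermat.Agent.S53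

open IsLocalRing GaloisRep

section Main

/-- Tangent lemma, general form (`𝒪` any local ring). -/
theorem tangent_exists_ne_algHom {𝒪 : Type} [CommRing 𝒪] [IsLocalRing 𝒪]
    {A : Type} [CommRing A] [IsLocalRing A] [Algebra 𝒪 A]
    (hA : IsArtinianTestAlgebra 𝒪 A) (A₀ : Subalgebra 𝒪 A) (h : A₀ ≠ ⊤) :
    letI := dualNumberAlgebra 𝒪
    ∃ ψ ψ' : A →ₐ[𝒪] DualNumber (ResidueField 𝒪),
      IsLocalHom (ψ : A →+* DualNumber (ResidueField 𝒪)) ∧
      IsLocalHom (ψ' : A →+* DualNumber (ResidueField 𝒪)) ∧ ψ ≠ ψ' ∧ ∀ a ∈ A₀, ψ a = ψ' a := by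
  letI := dualNumberAlgebra 𝒪
  haveI := hA.isLocalHom
  haveI := hA.isArtinian
  -- the maximal ideal is nilpotent
  have hnil : ∃ n : ℕ, maximalIdeal A ^ n = ⊥ := by
    have h1 := IsArtinianRing.isNilpotent_jacobson_bot (R := A)
    rw [jacobson_eq_maximalIdeal ⊥ bot_ne_top] at h1
    exact h1
  -- an element that is not in `A₀ + 𝔪²`
  obtain ⟨x₀, hx₀⟩ : ∃ x₀ : A, ∀ a ∈ A₀, x₀ - a ∉ maximalIdeal A ^ 2 := by
    by_contra hcon
    push Not at hcon
    exact h (tangent_subalgebra_eq_top hnil A₀ hcon)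
  -- the residue field of `A` is `k`
  have he0 : Function.Bijective (ResidueField.map (algebraMap 𝒪 A)) := by
    refine ⟨(ResidueField.map (algebraMap 𝒪 A)).injective, fun y => ?_⟩
    obtain ⟨α, hα⟩ := hA.residue_surjective y
    exact ⟨residue 𝒪 α, by rw [ResidueField.map_residue]; exact hα⟩
  let e : ResidueField 𝒪 ≃+* ResidueField A := RingEquiv.ofBijective _ he0
  let π : A →+* ResidueField 𝒪 := (e.symm : ResidueField A →+* ResidueField 𝒪).comp (residue A)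
  have hπ : ∀ α : 𝒪, π (algebraMap 𝒪 A α) = residue 𝒪 α := by
    intro α
    show e.symm (residue A (algebraMap 𝒪 A α)) = residue 𝒪 α
    rw [RingEquiv.symm_apply_eq]
    show _ = ResidueField.map (algebraMap 𝒪 A) (residue 𝒪 α)
    rw [ResidueField.map_residue]
  have hπ0 : ∀ a : A, π a = 0 ↔ a ∈ maximalIdeal A := by
    intro a
    show e.symm (residue A a) = 0 ↔ _
    rw [map_eq_zero_iff _ e.symm.injective, residue_eq_zero_iff]
  have key : ∀ a : A, ∃ α : 𝒪, residue 𝒪 α = π a ∧ a - algebraMap 𝒪 A α ∈ maximalIdeal A := by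
    intro a
    obtain ⟨α, hα⟩ := residue_surjective (π a)
    refine ⟨α, hα, ?_⟩
    rw [← hπ0, map_sub, hπ, hα, sub_self]
  -- the submodule `U = A₀ + 𝔪²`
  let U : Submodule 𝒪 A := Subalgebra.toSubmodule A₀ ⊔ (maximalIdeal A ^ 2).restrictScalars 𝒪
  have hA₀U : ∀ a ∈ A₀, a ∈ U := fun a ha =>
    Submodule.mem_sup_left (show a ∈ Subalgebra.toSubmodule A₀ from ha)
  have hm2U : ∀ a ∈ maximalIdeal A ^ 2, a ∈ U := fun a ha =>
    Submodule.mem_sup_right (show a ∈ (maximalIdeal A ^ 2).restrictScalars 𝒪 from ha)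
  have hxU : x₀ ∉ U := by
    intro hx
    obtain ⟨a, ha, y, hy, hay⟩ := Submodule.mem_sup.mp hx
    refine hx₀ a ha ?_
    have : x₀ - a = y := by rw [← hay]; ring
    rw [this]
    exact hy
  -- `A ⧸ U` is killed by the maximal ideal of `𝒪`
  have hmaxO : ∀ α ∈ maximalIdeal 𝒪, algebraMap 𝒪 A α ∈ maximalIdeal A := by
    intro α hα
    rw [mem_maximalIdeal, mem_nonunits_iff] at hα ⊢
    exact fun hu => hα (isUnit_of_map_unit (algebraMap 𝒪 A) α hu)
  have htors : Module.IsTorsionBySet 𝒪 (A ⧸ U) (maximalIdeal 𝒪 : Set 𝒪) := by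
    rintro v ⟨α, hα⟩
    obtain ⟨a, rfl⟩ := U.mkQ_surjective v
    show α • U.mkQ a = 0
    rw [← map_smul, Submodule.mkQ_apply, Submodule.Quotient.mk_eq_zero]
    obtain ⟨β, -, hβ⟩ := key a
    have e1 : α • a = algebraMap 𝒪 A (α * β) + algebraMap 𝒪 A α * (a - algebraMap 𝒪 A β) := by
      rw [Algebra.smul_def, map_mul]; ring
    rw [e1]
    refine U.add_mem (hA₀U _ (A₀.algebraMap_mem _)) (hm2U _ ?_)
    rw [pow_two]
    exact Ideal.mul_mem_mul (hmaxO α hα) hβ
  letI : Module (ResidueField 𝒪) (A ⧸ U) := htors.module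
  haveI : IsScalarTower 𝒪 (ResidueField 𝒪) (A ⧸ U) := htors.isScalarTower
  -- a functional that does not vanish at `x₀`
  obtain ⟨φ, hφ⟩ : ∃ φ : Module.Dual (ResidueField 𝒪) (A ⧸ U), φ (U.mkQ x₀) ≠ 0 := by
    by_contra hcon
    push Not at hcon
    have h0 := (Module.forall_dual_apply_eq_zero_iff (ResidueField 𝒪) (U.mkQ x₀)).mp hcon
    rw [Submodule.mkQ_apply, Submodule.Quotient.mk_eq_zero] at h0
    exact hxU h0
  let d : A →ₗ[𝒪] ResidueField 𝒪 := (φ.restrictScalars 𝒪).comp U.mkQ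
  have hdU : ∀ u ∈ U, d u = 0 := by
    intro u hu
    show φ (U.mkQ u) = 0
    rw [Submodule.mkQ_apply, (Submodule.Quotient.mk_eq_zero U).mpr hu, map_zero]
  have hdalg : ∀ α : 𝒪, d (algebraMap 𝒪 A α) = 0 := fun α =>
    hdU _ (hA₀U _ (A₀.algebraMap_mem α))
  have hd1 : d 1 = 0 := hdU _ (hA₀U _ A₀.one_mem)
  have hdsub : ∀ (a : A) (α : 𝒪), d (a - algebraMap 𝒪 A α) = d a := by
    intro a α
    rw [map_sub, hdalg, sub_zero]
  have hdmul : ∀ a b : A, d (a * b) = π a * d b + π b * d a := by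
    intro a b
    obtain ⟨α, hα, hx⟩ := key a
    obtain ⟨β, hβ, hy⟩ := key b
    have e1 : a * b = algebraMap 𝒪 A (α * β) + α • (b - algebraMap 𝒪 A β)
        + β • (a - algebraMap 𝒪 A α)
        + (a - algebraMap 𝒪 A α) * (b - algebraMap 𝒪 A β) := by
      rw [Algebra.smul_def, Algebra.smul_def, map_mul]; ring
    have e2 : d ((a - algebraMap 𝒪 A α) * (b - algebraMap 𝒪 A β)) = 0 := by
      refine hdU _ (hm2U _ ?_)
      rw [pow_two]
      exact Ideal.mul_mem_mul hx hy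
    rw [e1, map_add, map_add, map_add, e2, hdalg, map_smul, map_smul, hdsub, hdsub,
      Algebra.smul_def, Algebra.smul_def, ← hα, ← hβ]
    simp only [zero_add, add_zero]
    rfl
  -- the two maps
  let Ψ : A →+* DualNumber (ResidueField 𝒪) := tangentRingHom π d.toAddMonoidHom hd1 hdmul
  let Ψ' : A →+* DualNumber (ResidueField 𝒪) :=
    tangentRingHom π 0 rfl (fun a b => by simp)
  have hΨ1 : ∀ a : A, (Ψ a).fst = π a := fun a => tangentRingHom_fst _ _ _ _ a
  have hΨ2 : ∀ a : A, (Ψ a).snd = d a := fun a => tangentRingHom_snd _ _ _ _ a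
  have hΨ'1 : ∀ a : A, (Ψ' a).fst = π a := fun a => tangentRingHom_fst _ _ _ _ a
  have hΨ'2 : ∀ a : A, (Ψ' a).snd = 0 := fun a => tangentRingHom_snd _ _ _ _ a
  have halg1 : ∀ α : 𝒪,
      (algebraMap 𝒪 (DualNumber (ResidueField 𝒪)) α).fst = residue 𝒪 α := fun α => rfl
  have halg2 : ∀ α : 𝒪,
      (algebraMap 𝒪 (DualNumber (ResidueField 𝒪)) α).snd = 0 := fun α => rfl
  have hΨ : ∀ α : 𝒪, Ψ (algebraMap 𝒪 A α) = algebraMap 𝒪 (DualNumber (ResidueField 𝒪)) α := by
    intro α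
    apply TrivSqZeroExt.ext
    · rw [hΨ1, hπ, halg1]
    · rw [hΨ2, hdalg, halg2]
  have hΨ' : ∀ α : 𝒪, Ψ' (algebraMap 𝒪 A α) = algebraMap 𝒪 (DualNumber (ResidueField 𝒪)) α := by
    intro α
    apply TrivSqZeroExt.ext
    · rw [hΨ'1, hπ, halg1]
    · rw [hΨ'2, halg2]
  have hloc : ∀ (Φ : A →+* DualNumber (ResidueField 𝒪)), (∀ a, (Φ a).fst = π a) →
      IsLocalHom Φ := by
    intro Φ hΦ
    refine ⟨fun a ha => ?_⟩
    rw [TrivSqZeroExt.isUnit_iff_isUnit_fst, hΦ] at ha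
    rw [← notMem_maximalIdeal, ← hπ0]
    exact ha.ne_zero
  refine ⟨{ Ψ with commutes' := hΨ }, { Ψ' with commutes' := hΨ' },
    hloc Ψ hΨ1, hloc Ψ' hΨ'1, ?_, ?_⟩
  · intro heq
    have h1 : Ψ x₀ = Ψ' x₀ := congrArg (fun f : A →ₐ[𝒪] DualNumber (ResidueField 𝒪) => f x₀) heq
    have h2 := congrArg TrivSqZeroExt.snd h1
    rw [hΨ2, hΨ'2] at h2
    exact hφ h2
  · intro a ha
    show Ψ a = Ψ' a
    apply TrivSqZeroExt.ext
    · rw [hΨ1, hΨ'1]
    · rw [hΨ2, hΨ'2]
      exact hdU a (hA₀U a ha)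

/-- Tangent lemma: if `A₀ ⊊ A` is a proper `𝒪`-subalgebra of an Artinian test algebra, there are
two distinct (local) `𝒪`-algebra maps `A → k[ε]` that agree on `A₀`. -/
theorem exists_ne_algHom_dualNumber {𝒪 : Type} [CommRing 𝒪] [IsDomain 𝒪]
    [IsDiscreteValuationRing 𝒪] [Finite (ResidueField 𝒪)]
    {A : Type} [CommRing A] [IsLocalRing A] [Algebra 𝒪 A]
    (hA : IsArtinianTestAlgebra 𝒪 A) (A₀ : Subalgebra 𝒪 A) (h : A₀ ≠ ⊤) :
    letI := dualNumberAlgebra 𝒪
    ∃ ψ ψ' : A →ₐ[𝒪] DualNumber (ResidueField 𝒪),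
      IsLocalHom (ψ : A →+* DualNumber (ResidueField 𝒪)) ∧
      IsLocalHom (ψ' : A →+* DualNumber (ResidueField 𝒪)) ∧ ψ ≠ ψ' ∧ ∀ a ∈ A₀, ψ a = ψ' a :=
  tangent_exists_ne_algHom hA A₀ h

end Main

end Fermat.Agent.S53
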