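import Mathlib
import Fermat.Agent.S53.Defs

/-!
# S53 chunk T: Artinian test algebras (toolkit)

All statements are about `GaloisRep.IsArtinianTestAlgebra 𝒪 A` (Prelude): `A` is an Artinian local
`𝒪`-algebra, the structure map is local and `𝒪 → A/𝔪_A` is onto.

Main results (namespace `Fermat.Agent.S53`):
* `IsArtinianTestAlgebra.finite_residueField`, `IsArtinianTestAlgebra.finite`
* `isArtinianTestAlgebra_of_finite`
* `IsArtinianTestAlgebra.exists_pow_maximalIdeal_eq_bot`, `IsArtinianTestAlgebra.isNilpotent_of_mem`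
* `IsArtinianTestAlgebra.exists_algebraMap_sub_mem` (every element is `algebraMap c + nilpotent`)
* `isArtinianTestAlgebra_residueField`, `isArtinianTestAlgebra_dualNumber`
* `isArtinianTestAlgebra_of_surjective` (quotients of local `𝒪`-algebras with the two structure
  properties, e.g. `A ⧸ 𝔪ⁿ`), `IsArtinianTestAlgebra.of_surjective`, `IsArtinianTestAlgebra.quotient`
* `isArtinianTestAlgebra_quotient_of_pow_le`, `isArtinianTestAlgebra_quotient_pow`
* `IsArtinianTestAlgebra.isLocalRing_of_injective`, `IsArtinianTestAlgebra.of_injective`,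
  `IsArtinianTestAlgebra.isLocalHom_of_injective` (subobjects; e.g. subalgebras, `Λ ⧸ ker`)
* `IsArtinianTestAlgebra.of_algHom_of_finite`
* `isLocalRing_quotient_of_ne_top`, `isLocalHom_quotient_mk`
-/

namespace Fermat.Agent.S53

set_option linter.unusedSectionVars false
set_option linter.style.haveILetI false

open IsLocalRing GaloisRep

variable {𝒪 : Type} [CommRing 𝒪] [IsDomain 𝒪] [IsDiscreteValuationRing 𝒪]
  [Finite (ResidueField 𝒪)]

/-! ### Generalities on local rings -/

/-- A proper quotient of a local ring is local. -/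
theorem isLocalRing_quotient_of_ne_top {A : Type} [CommRing A] [IsLocalRing A] (I : Ideal A)
    (hI : I ≠ ⊤) : IsLocalRing (A ⧸ I) :=
  haveI : Nontrivial (A ⧸ I) := Ideal.Quotient.nontrivial_iff.mpr hI
  IsLocalRing.of_surjective' (Ideal.Quotient.mk I) Ideal.Quotient.mk_surjective

/-- The quotient map of a local ring onto a nontrivial quotient is a local homomorphism. -/
theorem isLocalHom_quotient_mk {A : Type} [CommRing A] [IsLocalRing A] (I : Ideal A)
    [Nontrivial (A ⧸ I)] : IsLocalHom (Ideal.Quotient.mk I) :=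
  IsLocalHom.of_surjective (Ideal.Quotient.mk I) Ideal.Quotient.mk_surjective

/-- A surjective ring homomorphism from a local ring onto a nontrivial ring is local. -/
theorem isLocalHom_of_surjective_algHom {A B : Type} [CommRing A] [IsLocalRing A] [Algebra 𝒪 A]
    [CommRing B] [Nontrivial B] [Algebra 𝒪 B] (φ : A →ₐ[𝒪] B) (hφ : Function.Surjective φ) :
    IsLocalHom (φ : A →+* B) :=
  IsLocalHom.of_surjective (φ : A →+* B) hφ

/-! ### Basic consequences -/

/-- The residue field of a local `𝒪`-algebra with local structure map and `𝒪 → A/𝔪` onto is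
finite. -/
theorem finite_residueField_of_surjective {A : Type} [CommRing A] [IsLocalRing A] [Algebra 𝒪 A]
    (h2 : Function.Surjective (residue A ∘ algebraMap 𝒪 A)) : Finite (ResidueField A) := by
  -- the map `𝒪 → ResidueField A` kills the maximal ideal, hence factors through the residue field
  have hker : maximalIdeal 𝒪 ≤ RingHom.ker ((residue A).comp (algebraMap 𝒪 A)) := by
    intro x hx
    rw [RingHom.mem_ker]
    by_contra hne
    -- the kernel is a proper ideal, so it is contained in the maximal ideal; conversely we need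
    -- that `x` nonunit maps to zero: use maximality of `𝔪_𝒪`
    have hproper : RingHom.ker ((residue A).comp (algebraMap 𝒪 A)) ≠ ⊤ :=
      RingHom.ker_ne_top _
    have hle : RingHom.ker ((residue A).comp (algebraMap 𝒪 A)) ≤ maximalIdeal 𝒪 :=
      IsLocalRing.le_maximalIdeal hproper
    -- the kernel is a maximal ideal (quotient is a field)
    have hsurj : Function.Surjective ((residue A).comp (algebraMap 𝒪 A)) := h2
    have hmax : (RingHom.ker ((residue A).comp (algebraMap 𝒪 A))).IsMaximal :=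
      RingHom.ker_isMaximal_of_surjective _ hsurj
    have heq : RingHom.ker ((residue A).comp (algebraMap 𝒪 A)) = maximalIdeal 𝒪 :=
      hmax.eq_of_le (IsLocalRing.maximalIdeal.isMaximal 𝒪).ne_top hle
    exact hne (by rw [← RingHom.mem_ker, heq]; exact hx)
  let g : ResidueField 𝒪 →+* ResidueField A :=
    Ideal.Quotient.lift (maximalIdeal 𝒪) ((residue A).comp (algebraMap 𝒪 A))
      (fun x hx => RingHom.mem_ker.1 (hker hx))
  have hg : Function.Surjective g := by
    intro y
    obtain ⟨x, hx⟩ := h2 y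
    refine ⟨Ideal.Quotient.mk _ x, ?_⟩
    show Ideal.Quotient.lift (maximalIdeal 𝒪) ((residue A).comp (algebraMap 𝒪 A)) _
      (Ideal.Quotient.mk _ x) = y
    rw [Ideal.Quotient.lift_mk]
    exact hx
  exact Finite.of_surjective g hg

theorem IsArtinianTestAlgebra.finite_residueField {A : Type} [CommRing A] [IsLocalRing A]
    [Algebra 𝒪 A] (hA : IsArtinianTestAlgebra 𝒪 A) : Finite (ResidueField A) :=
  finite_residueField_of_surjective hA.residue_surjective

theorem IsArtinianTestAlgebra.exists_pow_maximalIdeal_eq_bot {A : Type} [CommRing A]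
    [IsLocalRing A] [Algebra 𝒪 A] (hA : IsArtinianTestAlgebra 𝒪 A) :
    ∃ n : ℕ, maximalIdeal A ^ n = ⊥ := by
  haveI := hA.isArtinian
  obtain ⟨n, hn⟩ := IsArtinianRing.isNilpotent_jacobson_bot (R := A)
  rw [IsLocalRing.jacobson_eq_maximalIdeal _ bot_ne_top] at hn
  exact ⟨n, hn⟩

/-- Every element of the maximal ideal of an Artinian test algebra is nilpotent. -/
theorem IsArtinianTestAlgebra.isNilpotent_of_mem {A : Type} [CommRing A]
    [IsLocalRing A] [Algebra 𝒪 A] (hA : IsArtinianTestAlgebra 𝒪 A) {a : A}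
    (ha : a ∈ maximalIdeal A) : IsNilpotent a := by
  obtain ⟨n, hn⟩ := IsArtinianTestAlgebra.exists_pow_maximalIdeal_eq_bot hA
  refine ⟨n, ?_⟩
  have : a ^ n ∈ maximalIdeal A ^ n := Ideal.pow_mem_pow ha n
  rw [hn] at this
  exact this

theorem IsArtinianTestAlgebra.finite {A : Type} [CommRing A] [IsLocalRing A] [Algebra 𝒪 A]
    (hA : IsArtinianTestAlgebra 𝒪 A) : Finite A := by
  haveI := hA.isArtinian
  haveI := IsArtinianTestAlgebra.finite_residueField hA
  obtain ⟨n, hn⟩ := IsArtinianTestAlgebra.exists_pow_maximalIdeal_eq_bot hA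
  have h : Finite (A ⧸ (⊥ : Ideal A)) :=
    IsLocalRing.finite_quotient_iff.2 ⟨n, hn.le⟩
  exact Finite.of_equiv _ (RingEquiv.quotientBot A).toEquiv

theorem isArtinianTestAlgebra_of_finite {A : Type} [CommRing A] [IsLocalRing A] [Algebra 𝒪 A]
    [Finite A] (h1 : IsLocalHom (algebraMap 𝒪 A))
    (h2 : Function.Surjective (residue A ∘ algebraMap 𝒪 A)) : IsArtinianTestAlgebra 𝒪 A :=
  ⟨h1, h2, inferInstance⟩

/-- In a local `𝒪`-algebra with `𝒪 → A/𝔪` onto, every element is congruent modulo the maximal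
ideal to an element coming from `𝒪`. -/
theorem exists_algebraMap_sub_mem_of_surjective {A : Type} [CommRing A] [IsLocalRing A]
    [Algebra 𝒪 A] (h2 : Function.Surjective (residue A ∘ algebraMap 𝒪 A)) (a : A) :
    ∃ c : 𝒪, a - algebraMap 𝒪 A c ∈ maximalIdeal A := by
  obtain ⟨c, hc⟩ := h2 (residue A a)
  refine ⟨c, ?_⟩
  rw [← IsLocalRing.residue_eq_zero_iff, map_sub, sub_eq_zero]
  exact hc.symm

theorem IsArtinianTestAlgebra.exists_algebraMap_sub_mem {A : Type} [CommRing A] [IsLocalRing A]
    [Algebra 𝒪 A] (hA : IsArtinianTestAlgebra 𝒪 A) (a : A) :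
    ∃ c : 𝒪, a - algebraMap 𝒪 A c ∈ maximalIdeal A :=
  exists_algebraMap_sub_mem_of_surjective hA.residue_surjective a

/-! ### The residue field and the dual numbers -/

/-- The residue field is an Artinian test algebra. -/
theorem isArtinianTestAlgebra_residueField : IsArtinianTestAlgebra 𝒪 (ResidueField 𝒪) := by
  refine ⟨?_, ?_, inferInstance⟩
  · -- `algebraMap 𝒪 k = residue 𝒪` is local
    have : IsLocalHom (residue 𝒪) := inferInstance
    exact this
  · intro y
    obtain ⟨z, rfl⟩ := IsLocalRing.residue_surjective y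
    obtain ⟨x, rfl⟩ := IsLocalRing.residue_surjective z
    exact ⟨x, rfl⟩

/-- The dual numbers form an Artinian test algebra. -/
theorem isArtinianTestAlgebra_dualNumber :
    letI := dualNumberAlgebra 𝒪
    IsArtinianTestAlgebra 𝒪 (DualNumber (ResidueField 𝒪)) := by
  letI := dualNumberAlgebra 𝒪
  have halg : ∀ x : 𝒪, algebraMap 𝒪 (DualNumber (ResidueField 𝒪)) x =
      algebraMap (ResidueField 𝒪) (DualNumber (ResidueField 𝒪)) (residue 𝒪 x) := fun x => rfl
  refine ⟨⟨fun a ha => ?_⟩, ?_, ?_⟩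
  · -- local
    rw [halg] at ha
    have h1 : IsUnit (TrivSqZeroExt.fst
        (algebraMap (ResidueField 𝒪) (DualNumber (ResidueField 𝒪)) (residue 𝒪 a))) :=
      TrivSqZeroExt.isUnit_iff_isUnit_fst.1 ha
    have h2 : IsUnit (residue 𝒪 a) := h1
    exact isUnit_of_map_unit (residue 𝒪) a h2
  · intro y
    obtain ⟨z, rfl⟩ := IsLocalRing.residue_surjective y
    obtain ⟨x, hx⟩ := IsLocalRing.residue_surjective (TrivSqZeroExt.fst z)
    refine ⟨x, ?_⟩
    show residue _ (algebraMap 𝒪 (DualNumber (ResidueField 𝒪)) x) = residue _ z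
    rw [halg, hx, ← sub_eq_zero, ← map_sub, IsLocalRing.residue_eq_zero_iff,
      IsLocalRing.mem_maximalIdeal, mem_nonunits_iff, TrivSqZeroExt.isUnit_iff_isUnit_fst]
    have : TrivSqZeroExt.fst
        (algebraMap (ResidueField 𝒪) (DualNumber (ResidueField 𝒪)) (TrivSqZeroExt.fst z) - z)
          = 0 := by
      rw [TrivSqZeroExt.fst_sub]
      exact sub_self _
    rw [this]
    exact not_isUnit_zero
  · haveI : Finite (DualNumber (ResidueField 𝒪)) :=
      Finite.of_equiv (ResidueField 𝒪 × ResidueField 𝒪) (Equiv.refl _)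
    infer_instance

/-! ### Quotients -/

/-- A quotient (image under a surjective algebra map) of a local `𝒪`-algebra whose structure map
is local and with `𝒪 → A/𝔪` onto again has these two properties. -/
theorem isLocalHom_algebraMap_of_surjective {A B : Type} [CommRing A] [IsLocalRing A]
    [Algebra 𝒪 A] [CommRing B] [IsLocalRing B] [Algebra 𝒪 B]
    (h1 : IsLocalHom (algebraMap 𝒪 A)) (φ : A →ₐ[𝒪] B) (hφ : Function.Surjective φ) :
    IsLocalHom (algebraMap 𝒪 B) := by
  haveI : IsLocalHom (φ : A →+* B) := isLocalHom_of_surjective_algHom φ hφ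
  refine ⟨fun a ha => ?_⟩
  have h : IsUnit ((φ : A →+* B) (algebraMap 𝒪 A a)) := by
    rw [AlgHom.coe_toRingHom, AlgHom.commutes]; exact ha
  exact isUnit_of_map_unit (algebraMap 𝒪 A) a (isUnit_of_map_unit (φ : A →+* B) _ h)

theorem residue_surjective_of_surjective {A B : Type} [CommRing A] [IsLocalRing A]
    [Algebra 𝒪 A] [CommRing B] [IsLocalRing B] [Algebra 𝒪 B]
    (h2 : Function.Surjective (residue A ∘ algebraMap 𝒪 A)) (φ : A →ₐ[𝒪] B)
    (hφ : Function.Surjective φ) :
    Function.Surjective (residue B ∘ algebraMap 𝒪 B) := by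
  haveI : IsLocalHom (φ : A →+* B) := isLocalHom_of_surjective_algHom φ hφ
  intro y
  obtain ⟨b, rfl⟩ := IsLocalRing.residue_surjective y
  obtain ⟨a, rfl⟩ := hφ b
  obtain ⟨c, hc⟩ := exists_algebraMap_sub_mem_of_surjective h2 a
  refine ⟨c, ?_⟩
  show residue B (algebraMap 𝒪 B c) = residue B (φ a)
  rw [eq_comm, ← sub_eq_zero, ← map_sub, IsLocalRing.residue_eq_zero_iff, ← φ.commutes c,
    ← map_sub]
  -- nonunits map to nonunits
  rw [IsLocalRing.mem_maximalIdeal, mem_nonunits_iff] at hc ⊢
  intro hu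
  exact hc (isUnit_of_map_unit (φ : A →+* B) _ hu)

/-- Quotients: a finite local quotient of a local `𝒪`-algebra (local structure map, `𝒪 → A/𝔪`
onto) is an Artinian test algebra. -/
theorem isArtinianTestAlgebra_of_surjective {A B : Type} [CommRing A] [IsLocalRing A]
    [Algebra 𝒪 A] [CommRing B] [IsLocalRing B] [Algebra 𝒪 B] [IsArtinianRing B]
    (h1 : IsLocalHom (algebraMap 𝒪 A))
    (h2 : Function.Surjective (residue A ∘ algebraMap 𝒪 A)) (φ : A →ₐ[𝒪] B)
    (hφ : Function.Surjective φ) : IsArtinianTestAlgebra 𝒪 B :=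
  ⟨isLocalHom_algebraMap_of_surjective h1 φ hφ, residue_surjective_of_surjective h2 φ hφ,
    inferInstance⟩

theorem IsArtinianTestAlgebra.of_surjective {A B : Type} [CommRing A] [IsLocalRing A]
    [Algebra 𝒪 A] [CommRing B] [IsLocalRing B] [Algebra 𝒪 B]
    (hA : IsArtinianTestAlgebra 𝒪 A) (φ : A →ₐ[𝒪] B) (hφ : Function.Surjective φ) :
    IsArtinianTestAlgebra 𝒪 B :=
  haveI := hA.isArtinian
  haveI : IsArtinianRing B := Function.Surjective.isArtinianRing (f := (φ : A →+* B)) hφ
  isArtinianTestAlgebra_of_surjective hA.isLocalHom hA.residue_surjective φ hφ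

theorem IsArtinianTestAlgebra.quotient {A : Type} [CommRing A] [IsLocalRing A]
    [Algebra 𝒪 A] (hA : IsArtinianTestAlgebra 𝒪 A) (I : Ideal A) [IsLocalRing (A ⧸ I)] :
    IsArtinianTestAlgebra 𝒪 (A ⧸ I) :=
  IsArtinianTestAlgebra.of_surjective hA (Ideal.Quotient.mkₐ 𝒪 I) (Ideal.Quotient.mkₐ_surjective 𝒪 I)

/-- `A ⧸ I` is an Artinian test algebra if `A` is a Noetherian local `𝒪`-algebra (local structure
map, `𝒪 → A/𝔪` onto) and `𝔪ⁿ ≤ I`. -/
theorem isArtinianTestAlgebra_quotient_of_pow_le {A : Type} [CommRing A] [IsLocalRing A]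
    [IsNoetherianRing A] [Algebra 𝒪 A] (h1 : IsLocalHom (algebraMap 𝒪 A))
    (h2 : Function.Surjective (residue A ∘ algebraMap 𝒪 A)) (I : Ideal A)
    [IsLocalRing (A ⧸ I)] {n : ℕ} (hn : maximalIdeal A ^ n ≤ I) :
    IsArtinianTestAlgebra 𝒪 (A ⧸ I) := by
  haveI := finite_residueField_of_surjective h2
  haveI : Finite (A ⧸ I) := IsLocalRing.finite_quotient_iff.2 ⟨n, hn⟩
  exact isArtinianTestAlgebra_of_surjective h1 h2 (Ideal.Quotient.mkₐ 𝒪 I)
    (Ideal.Quotient.mkₐ_surjective 𝒪 I)

theorem maximalIdeal_pow_ne_top {A : Type} [CommRing A] [IsLocalRing A] {n : ℕ} (hn : n ≠ 0) :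
    maximalIdeal A ^ n ≠ ⊤ := by
  intro h
  have hle : maximalIdeal A ^ n ≤ maximalIdeal A := Ideal.pow_le_self hn
  rw [h] at hle
  exact (IsLocalRing.maximalIdeal.isMaximal A).ne_top (top_le_iff.1 hle)

/-- `A ⧸ 𝔪ⁿ` (`n ≠ 0`) is a local ring. -/
theorem isLocalRing_quotient_pow {A : Type} [CommRing A] [IsLocalRing A] {n : ℕ} (hn : n ≠ 0) :
    IsLocalRing (A ⧸ maximalIdeal A ^ n) :=
  isLocalRing_quotient_of_ne_top _ (maximalIdeal_pow_ne_top hn)

/-- `A ⧸ 𝔪ⁿ` (`n ≠ 0`) is an Artinian test algebra, for `A` Noetherian local with local structure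
map and `𝒪 → A/𝔪` onto. -/
theorem isArtinianTestAlgebra_quotient_pow {A : Type} [CommRing A] [IsLocalRing A]
    [IsNoetherianRing A] [Algebra 𝒪 A] (h1 : IsLocalHom (algebraMap 𝒪 A))
    (h2 : Function.Surjective (residue A ∘ algebraMap 𝒪 A)) (n : ℕ)
    [IsLocalRing (A ⧸ maximalIdeal A ^ n)] :
    IsArtinianTestAlgebra 𝒪 (A ⧸ maximalIdeal A ^ n) :=
  isArtinianTestAlgebra_quotient_of_pow_le h1 h2 _ le_rfl

/-! ### Subobjects -/

/-- Any `𝒪`-algebra map from a finite local `𝒪`-algebra to an Artinian test algebra makes the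
source an Artinian test algebra. -/
theorem IsArtinianTestAlgebra.of_algHom_of_finite {A B : Type} [CommRing A] [IsLocalRing A]
    [Algebra 𝒪 A] [CommRing B] [IsLocalRing B] [Algebra 𝒪 B] [Finite B]
    (hA : IsArtinianTestAlgebra 𝒪 A) (φ : B →ₐ[𝒪] A) : IsArtinianTestAlgebra 𝒪 B := by
  haveI := hA.isLocalHom
  refine ⟨⟨fun a ha => ?_⟩, ?_, inferInstance⟩
  · have h : IsUnit (algebraMap 𝒪 A a) := by
      rw [← φ.commutes]; exact ha.map φ
    exact isUnit_of_map_unit (algebraMap 𝒪 A) a h
  · intro y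
    obtain ⟨b, rfl⟩ := IsLocalRing.residue_surjective y
    obtain ⟨c, hc⟩ := IsArtinianTestAlgebra.exists_algebraMap_sub_mem hA (φ b)
    refine ⟨c, ?_⟩
    show residue B (algebraMap 𝒪 B c) = residue B b
    rw [eq_comm, ← sub_eq_zero, ← map_sub, IsLocalRing.residue_eq_zero_iff,
      IsLocalRing.mem_maximalIdeal, mem_nonunits_iff]
    intro hu
    rw [IsLocalRing.mem_maximalIdeal, mem_nonunits_iff] at hc
    apply hc
    have := hu.map φ
    rwa [map_sub, φ.commutes] at this

/-- An `𝒪`-algebra that embeds into an Artinian test algebra is a local ring. -/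
theorem IsArtinianTestAlgebra.isLocalRing_of_injective {A B : Type} [CommRing A] [IsLocalRing A]
    [Algebra 𝒪 A] [CommRing B] [Algebra 𝒪 B]
    (hA : IsArtinianTestAlgebra 𝒪 A) (φ : B →ₐ[𝒪] A) (hφ : Function.Injective φ) :
    IsLocalRing B := by
  haveI := hA.isLocalHom
  -- it suffices that `φ` reflects units
  haveI : IsLocalHom (φ : B →+* A) := by
    refine ⟨fun b hb => ?_⟩
    -- `φ b = algebraMap c + n` with `c` a unit and `n` nilpotent
    obtain ⟨c, hc⟩ := IsArtinianTestAlgebra.exists_algebraMap_sub_mem hA (φ b)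
    have hcu : IsUnit c := by
      apply isUnit_of_map_unit (algebraMap 𝒪 A)
      by_contra hnu
      have hmem : algebraMap 𝒪 A c ∈ maximalIdeal A := hnu
      have : (φ : B →+* A) b ∈ maximalIdeal A := by
        have := Ideal.add_mem _ hc hmem
        simpa using this
      exact this hb
    -- `b - algebraMap c` is nilpotent in `B`
    have hnil : IsNilpotent (b - algebraMap 𝒪 B c) := by
      obtain ⟨n, hn⟩ := IsArtinianTestAlgebra.isNilpotent_of_mem hA hc
      refine ⟨n, hφ ?_⟩
      rw [map_pow, map_sub, φ.commutes, hn, map_zero]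
    have hu : IsUnit (algebraMap 𝒪 B c) := hcu.map (algebraMap 𝒪 B)
    have : b = algebraMap 𝒪 B c + (b - algebraMap 𝒪 B c) := by ring
    rw [this]
    exact hnil.isUnit_add_left_of_commute hu (Commute.all _ _)
  exact RingHom.domain_isLocalRing (φ : B →+* A)

/-- An injective algebra map into an Artinian test algebra is a local homomorphism. -/
theorem IsArtinianTestAlgebra.isLocalHom_of_injective {A B : Type} [CommRing A] [IsLocalRing A]
    [Algebra 𝒪 A] [CommRing B] [IsLocalRing B] [Algebra 𝒪 B]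
    (hA : IsArtinianTestAlgebra 𝒪 A) (φ : B →ₐ[𝒪] A) (hφ : Function.Injective φ) :
    IsLocalHom (φ : B →+* A) := by
  haveI := IsArtinianTestAlgebra.finite hA
  haveI : Finite B := Finite.of_injective φ hφ
  -- in a finite (Artinian) local ring nonunits are nilpotent, and nilpotents map to nilpotents
  have hB : IsArtinianTestAlgebra 𝒪 B := IsArtinianTestAlgebra.of_algHom_of_finite hA φ
  refine ⟨fun b hb => ?_⟩
  by_contra hnu
  have hmem : b ∈ maximalIdeal B := hnu
  obtain ⟨n, hn⟩ := IsArtinianTestAlgebra.isNilpotent_of_mem hB hmem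
  have : IsNilpotent ((φ : B →+* A) b) := ⟨n, by rw [← map_pow, hn, map_zero]⟩
  exact this.not_isUnit hb

/-- Subobjects: an `𝒪`-algebra that is a local ring and embeds into an Artinian test algebra is an
Artinian test algebra. -/
theorem IsArtinianTestAlgebra.of_injective {A B : Type} [CommRing A] [IsLocalRing A]
    [Algebra 𝒪 A] [CommRing B] [IsLocalRing B] [Algebra 𝒪 B]
    (hA : IsArtinianTestAlgebra 𝒪 A) (φ : B →ₐ[𝒪] A) (hφ : Function.Injective φ) :
    IsArtinianTestAlgebra 𝒪 B :=
  haveI := IsArtinianTestAlgebra.finite hA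
  haveI : Finite B := Finite.of_injective φ hφ
  IsArtinianTestAlgebra.of_algHom_of_finite hA φ

/-- Subalgebras of Artinian test algebras are local rings. -/
theorem IsArtinianTestAlgebra.isLocalRing_subalgebra {A : Type} [CommRing A] [IsLocalRing A]
    [Algebra 𝒪 A] (hA : IsArtinianTestAlgebra 𝒪 A) (A₀ : Subalgebra 𝒪 A) : IsLocalRing A₀ :=
  IsArtinianTestAlgebra.isLocalRing_of_injective hA A₀.val Subtype.val_injective

/-- Subalgebras of Artinian test algebras are Artinian test algebras. -/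
theorem IsArtinianTestAlgebra.subalgebra {A : Type} [CommRing A] [IsLocalRing A]
    [Algebra 𝒪 A] (hA : IsArtinianTestAlgebra 𝒪 A) (A₀ : Subalgebra 𝒪 A) [IsLocalRing A₀] :
    IsArtinianTestAlgebra 𝒪 A₀ :=
  IsArtinianTestAlgebra.of_injective hA A₀.val Subtype.val_injective

end Fermat.Agent.S53
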