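import Mathlib
import Fermat.Prelude.Def_GaloisRep_DeformationCondition
import Fermat.Agent.S53.Defs

/-!
# S53: matrix lifts, normalisation data (shared definitions)

* `Gal` : the absolute Galois group of `ℚ`; `Entry = Gal × Fin 2 × Fin 2` indexes matrix entries.
* `mat x g` : the `2 × 2` matrix with entries `x (g, i, j)`.
* `NormData 𝒪` : a set-theoretic lift `c` of the residual matrices together with three entries
  `ω j` and three matrices `E l` that rigidify lifts.
* `IsLift nd x` : `x : Entry → A` is (the family of entries of) a continuous representation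
  lifting `c` modulo the maximal ideal.
* `IsNormalized nd x` : the three distinguished entries of `x` are the constants `c (ω j)`.
* `toAdic` : the `GaloisRepAdic` attached to a lift.
-/

namespace Fermat.Agent.S53

open IsLocalRing

/-- The absolute Galois group of `ℚ`. -/
abbrev Gal : Type := AlgebraicClosure ℚ ≃ₐ[ℚ] AlgebraicClosure ℚ

/-- Index set of matrix entries. -/
abbrev Entry : Type := Gal × Fin 2 × Fin 2

/-- The matrix of a point at `g`. -/
def mat {A : Type} (x : Entry → A) (g : Gal) : Matrix (Fin 2) (Fin 2) A :=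
  Matrix.of fun i j => x (g, i, j)

@[simp] lemma mat_apply {A : Type} (x : Entry → A) (g : Gal) (i j : Fin 2) :
    mat x g i j = x (g, i, j) := rfl

/-- The point attached to a family of matrices. -/
def pointOf {A : Type} (r : Gal → Matrix (Fin 2) (Fin 2) A) : Entry → A :=
  fun ω => r ω.1 ω.2.1 ω.2.2

@[simp] lemma mat_pointOf {A : Type} (r : Gal → Matrix (Fin 2) (Fin 2) A) (g : Gal) :
    mat (pointOf r) g = r g := rfl

@[simp] lemma pointOf_mat {A : Type} (x : Entry → A) : pointOf (mat x) = x := rfl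

/-- Normalisation data (everything lives over `𝒪`; congruences are modulo `𝔪_𝒪`). -/
structure NormData (𝒪 : Type) [CommRing 𝒪] [IsLocalRing 𝒪] where
  /-- set-theoretic lift of the entries of the residual representation -/
  c : Entry → 𝒪
  /-- the three distinguished entries -/
  ω : Fin 3 → Entry
  /-- three matrices dual to the distinguished entries -/
  E : Fin 3 → Matrix (Fin 2) (Fin 2) 𝒪
  /-- `c` is multiplicative modulo `𝔪` -/
  c_mul : ∀ g h i j, (mat c (g * h) - mat c g * mat c h) i j ∈ maximalIdeal 𝒪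
  /-- `c 1 ≡ 1` modulo `𝔪` -/
  c_one : ∀ i j, (mat c 1 - 1) i j ∈ maximalIdeal 𝒪
  /-- `[E l, c (g_j)]` at the entry `ω j` is `δ_{lj}` modulo `𝔪` -/
  comm_entry : ∀ l j, (E l * mat c (ω j).1 - mat c (ω j).1 * E l) (ω j).2.1 (ω j).2.2 -
      (if l = j then 1 else 0) ∈ maximalIdeal 𝒪
  /-- `c` factors through a finite level modulo `𝔪` -/
  c_cont : ∃ L : IntermediateField ℚ (AlgebraicClosure ℚ), FiniteDimensional ℚ L ∧
      ∀ σ : Gal, (∀ y ∈ L, σ y = y) → ∀ i j, (mat c σ - 1) i j ∈ maximalIdeal 𝒪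

variable {𝒪 : Type} [CommRing 𝒪] [IsLocalRing 𝒪]

/-- `x` is the family of entries of a continuous representation lifting `c`. -/
structure IsLift (nd : NormData 𝒪) {A : Type} [CommRing A] [IsLocalRing A] [Algebra 𝒪 A]
    (x : Entry → A) : Prop where
  one : mat x 1 = 1
  mul : ∀ g h, mat x (g * h) = mat x g * mat x h
  res : ∀ ω, x ω - algebraMap 𝒪 A (nd.c ω) ∈ maximalIdeal A
  cont : ∀ n : ℕ, ∃ L : IntermediateField ℚ (AlgebraicClosure ℚ), FiniteDimensional ℚ L ∧
      ∀ σ : Gal, (∀ y ∈ L, σ y = y) → ∀ i j, (mat x σ - 1) i j ∈ maximalIdeal A ^ n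

/-- The three distinguished entries take the prescribed constant values. -/
def IsNormalized (nd : NormData 𝒪) {A : Type} [CommRing A] [Algebra 𝒪 A] (x : Entry → A) : Prop :=
  ∀ j : Fin 3, x (nd.ω j) = algebraMap 𝒪 A (nd.c (nd.ω j))

/-- Conjugate of a point by a matrix `h` with inverse `h'`. -/
def conj {A : Type} [CommRing A] (h h' : Matrix (Fin 2) (Fin 2) A) (x : Entry → A) : Entry → A :=
  pointOf fun g => h * mat x g * h'

/-- The monoid homomorphism attached to a lift. -/
def IsLift.toMonoidHom {nd : NormData 𝒪} {A : Type} [CommRing A] [IsLocalRing A] [Algebra 𝒪 A]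
    {x : Entry → A} (hx : IsLift nd x) : Gal →* Matrix (Fin 2) (Fin 2) A where
  toFun := mat x
  map_one' := hx.one
  map_mul' := hx.mul

theorem pi_mem_smul_top {A : Type} [CommRing A] (I : Ideal A) (w : Fin 2 → A)
    (hw : ∀ i, w i ∈ I) : w ∈ I • (⊤ : Submodule A (Fin 2 → A)) := by
  have : w = ∑ i, w i • (Pi.single i (1 : A) : Fin 2 → A) := by
    ext j
    simp [Finset.sum_apply, Pi.single_apply]
  rw [this]
  exact Submodule.sum_mem _ fun i _ => Submodule.smul_mem_smul (hw i) Submodule.mem_top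

theorem isAdicContinuous_of_mat {A : Type} [CommRing A] [IsLocalRing A]
    (r : Gal →* Matrix (Fin 2) (Fin 2) A)
    (hcont : ∀ n : ℕ, ∃ L : IntermediateField ℚ (AlgebraicClosure ℚ), FiniteDimensional ℚ L ∧
      ∀ σ : Gal, (∀ y ∈ L, σ y = y) → ∀ i j, (r σ - 1) i j ∈ maximalIdeal A ^ n) :
    GaloisActionIsAdicContinuous A
      ((Matrix.toLinAlgEquiv' : Matrix (Fin 2) (Fin 2) A ≃ₐ[A] _).toAlgHom.toMonoidHom.comp r) := by
  intro n
  obtain ⟨L, hL, h⟩ := hcont n
  refine ⟨L, hL, fun σ hσ v => ?_⟩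
  apply pi_mem_smul_top
  intro i
  have hv : ((Matrix.toLinAlgEquiv' : Matrix (Fin 2) (Fin 2) A ≃ₐ[A] _).toAlgHom.toMonoidHom.comp
      r) σ v - v = (r σ - 1).mulVec v := by
    simp [Matrix.sub_mulVec]
  rw [hv]
  simp only [Matrix.mulVec, dotProduct]
  exact Ideal.sum_mem _ fun j _ => Ideal.mul_mem_right _ _ (h σ hσ i j)

/-- The `GaloisRepAdic` attached to a lift: `V = Fin 2 → A`, `σ ↦ Matrix.toLin' (mat x σ)`. -/
noncomputable def IsLift.toAdic {nd : NormData 𝒪} {A : Type} [CommRing A] [IsLocalRing A]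
    [Algebra 𝒪 A] {x : Entry → A} (hx : IsLift nd x) : GaloisRepAdic A where
  V := Fin 2 → A
  finrank_eq := by simp
  ρ := (Matrix.toLinAlgEquiv' : Matrix (Fin 2) (Fin 2) A ≃ₐ[A] _).toAlgHom.toMonoidHom.comp
    hx.toMonoidHom
  isAdicContinuous := isAdicContinuous_of_mat hx.toMonoidHom hx.cont

end Fermat.Agent.S53
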