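import Mathlib
import Fermat.Agent.S53.Lift

/-!
# S53 chunk A (owner: helper29): normalisation data exist for an absolutely irreducible `ρbar`

* `normData_exists_fin` : greedy choice of `m` functionals cutting out the common kernel.
* `normData_exists_dual` : a family dual to `n` functionals whose common kernel has codimension `n`.
* `normData_schur` : Schur's lemma in matrix form for an absolutely irreducible `ρbar`.
* `exists_normData` : the normalisation data.
-/

namespace Fermat.Agent.S53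

open IsLocalRing

section LinearAlgebra

variable {k V Ω : Type*} [Field k] [AddCommGroup V] [Module k V] [FiniteDimensional k V]

/-- Greedy choice: if `K` is the common kernel of the functionals `lam ω` and `U ⊇ K` has
dimension at most `dim K + m`, then `m` of the functionals cut out `K` inside `U`. -/
theorem normData_exists_fin [Nonempty Ω] (lam : Ω → V →ₗ[k] k) (K : Submodule k V)
    (hK : ∀ v, v ∈ K ↔ ∀ ω, lam ω v = 0) :
    ∀ (m : ℕ) (U : Submodule k V), K ≤ U → Module.finrank k U ≤ Module.finrank k K + m →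
      ∃ ωs : Fin m → Ω, ∀ v, v ∈ K ↔ (v ∈ U ∧ ∀ j, lam (ωs j) v = 0) := by
  intro m
  induction m with
  | zero =>
    intro U hKU hdim
    have hEq : K = U := Submodule.eq_of_le_of_finrank_le hKU (by simpa using hdim)
    refine ⟨Fin.elim0, fun v => ?_⟩
    rw [hEq]
    exact ⟨fun h => ⟨h, fun j => j.elim0⟩, fun h => h.1⟩
  | succ m ih =>
    intro U hKU hdim
    by_cases hU : U ≤ K
    · refine ⟨fun _ => Classical.arbitrary Ω, fun v => ?_⟩
      exact ⟨fun h => ⟨hKU h, fun _ => (hK v).mp h _⟩, fun h => hU h.1⟩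
    · obtain ⟨v₀, hv₀U, hv₀K⟩ := Set.not_subset.mp hU
      have hex : ∃ ω₀, lam ω₀ v₀ ≠ 0 := by
        by_contra hcon
        push Not at hcon
        exact hv₀K ((hK v₀).mpr hcon)
      obtain ⟨ω₀, hω₀⟩ := hex
      have hKU' : K ≤ U ⊓ LinearMap.ker (lam ω₀) := fun v hv =>
        ⟨hKU hv, LinearMap.mem_ker.mpr ((hK v).mp hv ω₀)⟩
      have hlt : U ⊓ LinearMap.ker (lam ω₀) < U := by
        refine lt_of_le_of_ne inf_le_left fun heq => hω₀ ?_
        have : v₀ ∈ U ⊓ LinearMap.ker (lam ω₀) := by rw [heq]; exact hv₀U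
        exact LinearMap.mem_ker.mp this.2
      have hfin := Submodule.finrank_lt_finrank_of_lt hlt
      obtain ⟨ωs', hωs'⟩ := ih (U ⊓ LinearMap.ker (lam ω₀)) hKU' (by omega)
      refine ⟨Fin.cons ω₀ ωs', fun v => ?_⟩
      rw [hωs' v, Fin.forall_fin_succ]
      simp only [Fin.cons_zero, Fin.cons_succ, Submodule.mem_inf, LinearMap.mem_ker]
      tauto

/-- If the common kernel `K` of `n` functionals has codimension `n`, there is a dual family. -/
theorem normData_exists_dual {n : ℕ} (μ : Fin n → V →ₗ[k] k) (K : Submodule k V)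
    (hK : ∀ v, v ∈ K ↔ ∀ j, μ j v = 0)
    (hdim : Module.finrank k V = Module.finrank k K + n) :
    ∃ E : Fin n → V, (∀ l j, μ j (E l) = if l = j then 1 else 0) ∧
      ∀ v, v - ∑ l, μ l v • E l ∈ K := by
  classical
  let Ψ : V →ₗ[k] (Fin n → k) := LinearMap.pi μ
  have hker : LinearMap.ker Ψ = K := by
    ext v
    rw [LinearMap.mem_ker, hK]
    constructor
    · intro h j
      exact congrFun h j
    · intro h
      funext j
      exact h j
  have hrk := LinearMap.finrank_range_add_finrank_ker Ψ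
  rw [hker] at hrk
  have hrange : LinearMap.range Ψ = ⊤ := by
    apply Submodule.eq_top_of_finrank_eq
    rw [Module.finrank_fin_fun]
    omega
  have hsurj : Function.Surjective Ψ := LinearMap.range_eq_top.mp hrange
  choose E hE using fun l : Fin n => hsurj (Pi.single l 1)
  have hE' : ∀ l j, μ j (E l) = if l = j then 1 else 0 := by
    intro l j
    have := congrFun (hE l) j
    rw [Pi.single_apply] at this
    rw [show μ j (E l) = Ψ (E l) j from rfl, this]
    by_cases h : j = l
    · rw [if_pos h, if_pos h.symm]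
    · rw [if_neg h, if_neg (Ne.symm h)]
  refine ⟨E, hE', fun v => ?_⟩
  rw [hK]
  intro j
  rw [map_sub, map_sum]
  simp only [map_smul, hE', smul_eq_mul, mul_ite, mul_one, mul_zero, Finset.sum_ite_eq',
    Finset.mem_univ, if_true, sub_self]

end LinearAlgebra

open scoped TensorProduct

/-- Schur's lemma in matrix form. -/
theorem normData_schur {k : Type} [Field k] (ρbar : ResidualGaloisRep k)
    (habs : ρbar.IsAbsolutelyIrreducible)
    (b : Module.Basis (Fin 2) k ρbar.V) (X : Matrix (Fin 2) (Fin 2) k)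
    (hX : ∀ g, X * LinearMap.toMatrix b b (ρbar.ρ g) = LinearMap.toMatrix b b (ρbar.ρ g) * X) :
    ∃ s : k, X = s • (1 : Matrix (Fin 2) (Fin 2) k) := by
  classical
  let kbar := AlgebraicClosure k
  let f : Module.End k ρbar.V := Matrix.toLin b b X
  have hf : ∀ g, f * ρbar.ρ g = ρbar.ρ g * f := by
    intro g
    apply (LinearMap.toMatrix b b).injective
    rw [LinearMap.toMatrix_mul, LinearMap.toMatrix_mul, LinearMap.toMatrix_toLin]
    exact hX g
  let ρ' := ρbar.baseChange kbar
  let f' : Module.End kbar ρ'.V := f.baseChange kbar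
  have hf' : ∀ g, f' * ρ'.ρ g = ρ'.ρ g * f' := by
    intro g
    show f.baseChange kbar ∘ₗ (ρbar.ρ g).baseChange kbar
      = (ρbar.ρ g).baseChange kbar ∘ₗ f.baseChange kbar
    rw [← LinearMap.baseChange_comp, ← LinearMap.baseChange_comp]
    congr 1
    exact hf g
  have : Nontrivial ρ'.V := by
    apply Module.nontrivial_of_finrank_pos (R := kbar)
    rw [ρ'.finrank_eq]; norm_num
  obtain ⟨μ, hμ⟩ := Module.End.exists_eigenvalue f'
  have hstab : ∀ σ, ∀ x ∈ f'.eigenspace μ, ρ'.ρ σ x ∈ f'.eigenspace μ := by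
    intro σ x hx
    rw [Module.End.mem_eigenspace_iff] at hx ⊢
    have := congrArg (fun F : Module.End kbar ρ'.V => F x) (hf' σ)
    simp only [Module.End.mul_apply] at this
    rw [this, hx, map_smul]
  have htop : f'.eigenspace μ = ⊤ := by
    rcases habs (f'.eigenspace μ) hstab with h | h
    · exact absurd h hμ
    · exact h
  have hf'μ : f' = μ • (1 : Module.End kbar ρ'.V) := by
    refine LinearMap.ext fun x => ?_
    have hx : x ∈ f'.eigenspace μ := by rw [htop]; trivial
    rw [Module.End.mem_eigenspace_iff] at hx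
    rw [hx]; rfl
  have hmat : X.map (algebraMap k kbar) = μ • (1 : Matrix (Fin 2) (Fin 2) kbar) := by
    have h1 := LinearMap.toMatrix_baseChange kbar f b b
    rw [LinearMap.toMatrix_toLin] at h1
    rw [← h1]
    show LinearMap.toMatrix _ _ f' = _
    rw [hf'μ, map_smul, LinearMap.toMatrix_one]
  have hinj : Function.Injective (algebraMap k kbar) := (algebraMap k kbar).injective
  have hent : ∀ i j, algebraMap k kbar (X i j) = (μ • (1 : Matrix (Fin 2) (Fin 2) kbar)) i j := by
    intro i j
    rw [← hmat]; rfl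
  refine ⟨X 0 0, ?_⟩
  ext i j
  apply hinj
  rw [hent i j]
  have h00 := hent 0 0
  fin_cases i <;> fin_cases j <;> simp at h00 ⊢ <;> simp [h00]


section Main

variable {𝒪 : Type} [CommRing 𝒪] [IsLocalRing 𝒪]

/-- Entries in the maximal ideal are detected by reduction. -/
theorem normData_mem_iff (Y : Matrix (Fin 2) (Fin 2) 𝒪) (i j : Fin 2) :
    Y i j ∈ maximalIdeal 𝒪 ↔ (residue 𝒪).mapMatrix Y i j = 0 := by
  rw [RingHom.mapMatrix_apply, Matrix.map_apply, residue_eq_zero_iff]

/-- A matrix all of whose entries lie in `𝔪` belongs to `𝔪 • ⊤`. -/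
theorem normData_mem_smul_top (Z : Matrix (Fin 2) (Fin 2) 𝒪)
    (hZ : ∀ i j, Z i j ∈ maximalIdeal 𝒪) :
    Z ∈ maximalIdeal 𝒪 • (⊤ : Submodule 𝒪 (Matrix (Fin 2) (Fin 2) 𝒪)) := by
  classical
  rw [Matrix.matrix_eq_sum_single Z]
  refine Submodule.sum_mem _ fun i _ => Submodule.sum_mem _ fun j _ => ?_
  have : Matrix.single i j (Z i j) = Z i j • Matrix.single i j (1 : 𝒪) := by
    rw [Matrix.smul_single, smul_eq_mul, mul_one]
  rw [this]
  exact Submodule.smul_mem_smul (hZ i j) Submodule.mem_top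

theorem exists_normData
    (ρbar : ResidualGaloisRep (ResidueField 𝒪)) (habs : ρbar.IsAbsolutelyIrreducible) :
    ∃ (nd : NormData 𝒪) (b : Module.Basis (Fin 2) (ResidueField 𝒪) ρbar.V),
      ∀ g i j, residue 𝒪 (nd.c (g, i, j)) = LinearMap.toMatrix b b (ρbar.ρ g) i j := by
  classical
  let b : Module.Basis (Fin 2) (ResidueField 𝒪) ρbar.V :=
    Module.finBasisOfFinrankEq (ResidueField 𝒪) ρbar.V ρbar.finrank_eq
  let rbar : Gal → Matrix (Fin 2) (Fin 2) (ResidueField 𝒪) :=
    fun g => LinearMap.toMatrix b b (ρbar.ρ g)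
  have rbar_mul : ∀ g h, rbar (g * h) = rbar g * rbar h := by
    intro g h
    show LinearMap.toMatrix b b (ρbar.ρ (g * h)) = _
    rw [map_mul, LinearMap.toMatrix_mul]
  have rbar_one : rbar 1 = 1 := by
    show LinearMap.toMatrix b b (ρbar.ρ 1) = _
    rw [map_one, LinearMap.toMatrix_one]
  -- the functionals `X ↦ [X, rbar g]_{ij}`
  let lam : Entry → Matrix (Fin 2) (Fin 2) (ResidueField 𝒪) →ₗ[ResidueField 𝒪] ResidueField 𝒪 :=
    fun ω =>
      { toFun := fun X => (X * rbar ω.1 - rbar ω.1 * X) ω.2.1 ω.2.2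
        map_add' := fun X Y => by
          simp only [add_mul, mul_add, Matrix.sub_apply, Matrix.add_apply]; ring
        map_smul' := fun a X => by
          simp only [Matrix.smul_mul, Matrix.mul_smul, Matrix.sub_apply, Matrix.smul_apply,
            smul_eq_mul, RingHom.id_apply]; ring }
  have lam_apply : ∀ (ω : Entry) X, lam ω X = (X * rbar ω.1 - rbar ω.1 * X) ω.2.1 ω.2.2 :=
    fun _ _ => rfl
  let K : Submodule (ResidueField 𝒪) (Matrix (Fin 2) (Fin 2) (ResidueField 𝒪)) :=
    Submodule.span (ResidueField 𝒪) {1}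
  have hcomm_iff : ∀ X : Matrix (Fin 2) (Fin 2) (ResidueField 𝒪),
      (∀ ω, lam ω X = 0) ↔ ∀ g, X * rbar g = rbar g * X := by
    intro X
    constructor
    · intro h g
      ext i j
      have := h (g, i, j)
      rw [lam_apply, Matrix.sub_apply, sub_eq_zero] at this
      exact this
    · intro h ω
      rw [lam_apply, h ω.1, sub_self]; rfl
  have hschur : ∀ X : Matrix (Fin 2) (Fin 2) (ResidueField 𝒪),
      (∀ g, X * rbar g = rbar g * X) → ∃ s : ResidueField 𝒪, X = s • 1 :=
    fun X hX => normData_schur ρbar habs b X hX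
  have hK : ∀ X, X ∈ K ↔ ∀ ω, lam ω X = 0 := by
    intro X
    rw [hcomm_iff]
    constructor
    · intro h g
      obtain ⟨s, rfl⟩ := Submodule.mem_span_singleton.mp h
      simp
    · intro h
      obtain ⟨s, rfl⟩ := hschur X h
      exact Submodule.mem_span_singleton.mpr ⟨s, rfl⟩
  have hdimK : Module.finrank (ResidueField 𝒪) K = 1 :=
    finrank_span_singleton (one_ne_zero)
  have hdimV : Module.finrank (ResidueField 𝒪) (Matrix (Fin 2) (Fin 2) (ResidueField 𝒪)) = 4 := by
    rw [Module.finrank_matrix]; simp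
  obtain ⟨ωs, hωs⟩ := normData_exists_fin lam K hK 3 ⊤ le_top
    (by rw [finrank_top, hdimV, hdimK])
  obtain ⟨Ebar, hE1, hE2⟩ := normData_exists_dual (fun j => lam (ωs j)) K
    (fun v => by rw [hωs v]; simp) (by rw [hdimV, hdimK])
  -- lifts to `𝒪`
  choose c hc using fun ω : Entry => residue_surjective (rbar ω.1 ω.2.1 ω.2.2)
  choose Ecoef hEcoef using fun (l : Fin 3) (i j : Fin 2) => residue_surjective (Ebar l i j)
  let E : Fin 3 → Matrix (Fin 2) (Fin 2) 𝒪 := fun l => Matrix.of (Ecoef l)
  have hred_c : ∀ g, (residue 𝒪).mapMatrix (mat c g) = rbar g := by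
    intro g
    ext i j
    rw [RingHom.mapMatrix_apply, Matrix.map_apply, mat_apply, hc]
  have hred_E : ∀ l, (residue 𝒪).mapMatrix (E l) = Ebar l := by
    intro l
    ext i j
    rw [RingHom.mapMatrix_apply, Matrix.map_apply]
    exact hEcoef l i j
  have hred_smul : ∀ (s : 𝒪) (Y : Matrix (Fin 2) (Fin 2) 𝒪),
      (residue 𝒪).mapMatrix (s • Y) = residue 𝒪 s • (residue 𝒪).mapMatrix Y := by
    intro s Y
    ext i j
    simp [RingHom.mapMatrix_apply]
  have hspan_bar : ∀ X : Matrix (Fin 2) (Fin 2) (ResidueField 𝒪),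
      ∃ (s : ResidueField 𝒪), X = s • 1 + ∑ l, lam (ωs l) X • Ebar l := by
    intro X
    obtain ⟨s, hs⟩ := Submodule.mem_span_singleton.mp (hE2 X)
    exact ⟨s, by rw [hs]; abel⟩
  refine ⟨{ c := c, ω := ωs, E := E, c_mul := ?_, c_one := ?_, comm_entry := ?_,
            c_cont := ?_ }, b, fun g i j => hc (g, i, j)⟩
  · -- c_mul
    intro g h i j
    rw [normData_mem_iff, map_sub, map_mul, hred_c, hred_c, hred_c, rbar_mul, sub_self]; rfl
  · -- c_one
    intro i j
    rw [normData_mem_iff, map_sub, map_one, hred_c, rbar_one, sub_self]; rfl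
  · -- comm_entry
    intro l j
    rw [← residue_eq_zero_iff, map_sub]
    have h1 : residue 𝒪 ((E l * mat c (ωs j).1 - mat c (ωs j).1 * E l) (ωs j).2.1 (ωs j).2.2)
        = lam (ωs j) (Ebar l) := by
      rw [lam_apply, ← hred_E, ← hred_c, ← map_mul, ← map_mul, ← map_sub]
      rfl
    rw [h1, hE1]
    split_ifs <;> simp
  · -- c_cont
    obtain ⟨L, hL, h⟩ := ρbar.factorsThroughFiniteLevel
    refine ⟨L, hL, fun σ hσ i j => ?_⟩
    rw [normData_mem_iff, map_sub, map_one, hred_c]
    show (LinearMap.toMatrix b b (ρbar.ρ σ) - 1) i j = 0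
    rw [h σ hσ, LinearMap.toMatrix_one, sub_self]; rfl

end Main

end Fermat.Agent.S53
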