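import Mathlib
import Fermat.Agent.S53.Defs
import Fermat.Agent.S53.TestAlgebra
import Fermat.Agent.S53.Tangent

/-!
# S53 chunk D1–D4 (owner: helper36): the family of "point ideals" of `Λ = MvPolynomial Ω 𝒪`

`pointIdeals F` is the set of ideals `I` of `Λ` such that `Λ ⧸ I` is (local and) an Artinian test
algebra and the tautological family `taut I : Ω → Λ ⧸ I` is a point of `F`.

* `comap_maximalIdeal_eq_baseIdeal`, `le_baseIdeal_of_mem_pointIdeals`
* `ker_aeval_mem_pointIdeals` (D1)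
* `inf_mem_pointIdeals` (D2)
* `mem_pointIdeals_of_le` (D3)
* `exists_finset_adjoin_eq_top` (D4)
-/

set_option linter.style.haveILetI false
set_option linter.unusedSectionVars false
set_option linter.unusedVariables false

namespace Fermat.Agent.S53

open IsLocalRing GaloisRep

section general

variable {A B : Type*} [CommRing A] [CommRing B]

theorem pri_isUnit_of_injective [Finite B] (ι : B →+* A) (hι : Function.Injective ι) {b : B}
    (hb : IsUnit (ι b)) : IsUnit b := by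
  have hreg : IsLeftRegular b := by
    intro x y hxy
    have h : ι b * ι x = ι b * ι y := by
      rw [← map_mul, ← map_mul]; exact congrArg ι hxy
    exact hι (hb.mul_left_cancel h)
  exact hreg.isUnit_of_finite

theorem pri_isLocalRing_of_injective [IsLocalRing A] [Finite B] (ι : B →+* A)
    (hι : Function.Injective ι) : IsLocalRing B := by
  haveI : Nontrivial B := by
    refine ⟨⟨0, 1, fun h => ?_⟩⟩
    have := congrArg ι h
    rw [map_zero, map_one] at this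
    exact zero_ne_one this
  refine IsLocalRing.of_isUnit_or_isUnit_one_sub_self fun b => ?_
  rcases IsLocalRing.isUnit_or_isUnit_one_sub_self (ι b) with h | h
  · exact Or.inl (pri_isUnit_of_injective ι hι h)
  · refine Or.inr (pri_isUnit_of_injective ι hι ?_)
    rwa [map_sub, map_one]

theorem pri_isLocalHom_of_injective [Finite B] (ι : B →+* A)
    (hι : Function.Injective ι) : IsLocalHom ι :=
  ⟨fun _ hb => pri_isUnit_of_injective ι hι hb⟩

end general

section test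

variable {𝒪 : Type} [CommRing 𝒪] [IsLocalRing 𝒪]
variable {A B : Type} [CommRing A] [IsLocalRing A] [Algebra 𝒪 A]
  [CommRing B] [IsLocalRing B] [Algebra 𝒪 B]

/-- A finite local `𝒪`-algebra that maps to an Artinian test algebra is an Artinian test
algebra. -/
theorem pri_isArtinianTestAlgebra_of_algHom [Finite B]
    (hA : IsArtinianTestAlgebra 𝒪 A) (ι : B →ₐ[𝒪] A) :
    IsArtinianTestAlgebra 𝒪 B := by
  refine ⟨⟨fun a ha => ?_⟩, fun y => ?_, inferInstance⟩
  · haveI := hA.isLocalHom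
    have h1 : IsUnit (algebraMap 𝒪 A a) := by
      have := (ι : B →+* A).isUnit_map ha
      simpa using this
    exact IsLocalHom.map_nonunit a h1
  · obtain ⟨b, rfl⟩ := IsLocalRing.residue_surjective y
    obtain ⟨o, ho⟩ := hA.residue_surjective (residue A (ι b))
    refine ⟨o, ?_⟩
    simp only [Function.comp_apply] at ho ⊢
    rw [← sub_eq_zero, ← map_sub, IsLocalRing.residue_eq_zero_iff] at ho ⊢
    rw [IsLocalRing.mem_maximalIdeal, mem_nonunits_iff] at ho ⊢
    intro hu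
    apply ho
    have := (ι : B →+* A).isUnit_map hu
    simpa using this

/-- A local `𝒪`-algebra that is a quotient of an Artinian test algebra is an Artinian test
algebra. -/
theorem pri_isArtinianTestAlgebra_of_surjective
    (hA : IsArtinianTestAlgebra 𝒪 A) (φ : A →ₐ[𝒪] B) (hφ : Function.Surjective φ) :
    IsArtinianTestAlgebra 𝒪 B := by
  haveI hloc : IsLocalHom (φ : A →+* B) := IsLocalHom.of_surjective _ hφ
  haveI := hA.isLocalHom
  haveI := hA.isArtinian
  refine ⟨⟨fun a ha => ?_⟩, fun y => ?_, ?_⟩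
  · have h1 : IsUnit (φ (algebraMap 𝒪 A a)) := by simpa using ha
    have h2 : IsUnit (algebraMap 𝒪 A a) := IsLocalHom.map_nonunit (f := (φ : A →+* B)) _ h1
    exact IsLocalHom.map_nonunit a h2
  · obtain ⟨b, rfl⟩ := IsLocalRing.residue_surjective y
    obtain ⟨a, rfl⟩ := hφ b
    obtain ⟨o, ho⟩ := hA.residue_surjective (residue A a)
    refine ⟨o, ?_⟩
    simp only [Function.comp_apply] at ho ⊢
    rw [← sub_eq_zero, ← map_sub, IsLocalRing.residue_eq_zero_iff] at ho ⊢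
    have := _root_.map_nonunit (φ : A →+* B) _ ho
    simpa using this
  · exact Function.Surjective.isArtinianRing (f := φ) hφ

end test


variable {𝒪 : Type} [CommRing 𝒪] [IsDomain 𝒪] [IsDiscreteValuationRing 𝒪]
  [Finite (ResidueField 𝒪)]
variable {Ω : Type}

/-- The tautological family in `Λ ⧸ I`. -/
noncomputable def taut (I : Ideal (MvPolynomial Ω 𝒪)) : Ω → MvPolynomial Ω 𝒪 ⧸ I :=
  fun ω => Ideal.Quotient.mk I (MvPolynomial.X ω)

/-- The kernel of `Λ → k`, `X_ω ↦ residue (c ω)`. -/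
noncomputable def baseIdeal (c : Ω → 𝒪) : Ideal (MvPolynomial Ω 𝒪) :=
  RingHom.ker (MvPolynomial.aeval (fun ω => algebraMap 𝒪 (ResidueField 𝒪) (c ω)) :
    MvPolynomial Ω 𝒪 →ₐ[𝒪] ResidueField 𝒪)

theorem baseIdeal_ne_top (c : Ω → 𝒪) : baseIdeal c ≠ ⊤ :=
  RingHom.ker_ne_top _

variable (F : ∀ (A : Type) [CommRing A] [IsLocalRing A] [Algebra 𝒪 A], Set (Ω → A))

/-- The family `𝓘` of point ideals. -/
def pointIdeals : Set (Ideal (MvPolynomial Ω 𝒪)) :=
  {I | ∃ _ : IsLocalRing (MvPolynomial Ω 𝒪 ⧸ I),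
    IsArtinianTestAlgebra 𝒪 (MvPolynomial Ω 𝒪 ⧸ I) ∧ taut I ∈ F (MvPolynomial Ω 𝒪 ⧸ I)}

variable {F} {c : Ω → 𝒪}

theorem comap_maximalIdeal_eq_baseIdeal (hF : IsPointFunctor 𝒪 Ω F c)
    {I : Ideal (MvPolynomial Ω 𝒪)} [IsLocalRing (MvPolynomial Ω 𝒪 ⧸ I)]
    (hI : IsArtinianTestAlgebra 𝒪 (MvPolynomial Ω 𝒪 ⧸ I))
    (hx : taut I ∈ F (MvPolynomial Ω 𝒪 ⧸ I)) :
    (maximalIdeal (MvPolynomial Ω 𝒪 ⧸ I)).comap (Ideal.Quotient.mk I) = baseIdeal c := by
  haveI := hI.isLocalHom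
  set A := MvPolynomial Ω 𝒪 ⧸ I
  let f : MvPolynomial Ω 𝒪 →+* ResidueField A := (residue A).comp (Ideal.Quotient.mk I)
  let ev₀ : MvPolynomial Ω 𝒪 →+* ResidueField 𝒪 :=
    (MvPolynomial.aeval (fun ω => algebraMap 𝒪 (ResidueField 𝒪) (c ω)) :
      MvPolynomial Ω 𝒪 →ₐ[𝒪] ResidueField 𝒪)
  let g : MvPolynomial Ω 𝒪 →+* ResidueField A :=
    (ResidueField.map (algebraMap 𝒪 A)).comp ev₀
  have hfg : f = g := by
    apply MvPolynomial.ringHom_ext
    · intro o
      simp only [f, g, ev₀, RingHom.comp_apply, RingHom.coe_coe, MvPolynomial.aeval_C,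
        ResidueField.algebraMap_eq, ResidueField.map_residue]
      rfl
    · intro ω
      simp only [f, g, ev₀, RingHom.comp_apply, RingHom.coe_coe, MvPolynomial.aeval_X,
        ResidueField.algebraMap_eq, ResidueField.map_residue]
      have := hF.residue_eq hI _ hx ω
      rw [← IsLocalRing.residue_eq_zero_iff, map_sub, sub_eq_zero] at this
      exact this
  ext a
  rw [Ideal.mem_comap, ← IsLocalRing.residue_eq_zero_iff]
  change f a = 0 ↔ _
  rw [hfg]
  simp only [g, RingHom.comp_apply]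
  rw [map_eq_zero_iff _ (ResidueField.map (algebraMap 𝒪 A)).injective]
  rfl

theorem le_baseIdeal_of_mem_pointIdeals (hF : IsPointFunctor 𝒪 Ω F c)
    {I : Ideal (MvPolynomial Ω 𝒪)} (hI : I ∈ pointIdeals F) : I ≤ baseIdeal c := by
  obtain ⟨hloc, htest, hx⟩ := hI
  rw [← comap_maximalIdeal_eq_baseIdeal hF htest hx]
  intro a ha
  rw [Ideal.mem_comap, Ideal.Quotient.eq_zero_iff_mem.mpr ha]
  exact Ideal.zero_mem _

/-- D3 -/
theorem mem_pointIdeals_of_le (hF : IsPointFunctor 𝒪 Ω F c)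
    {I I' : Ideal (MvPolynomial Ω 𝒪)} (hI : I ∈ pointIdeals F) (hle : I ≤ I') (hne : I' ≠ ⊤) :
    I' ∈ pointIdeals F := by
  obtain ⟨hloc, htest, hx⟩ := hI
  haveI : Nontrivial (MvPolynomial Ω 𝒪 ⧸ I') := Ideal.Quotient.nontrivial_iff.mpr hne
  let φ : (MvPolynomial Ω 𝒪 ⧸ I) →ₐ[𝒪] (MvPolynomial Ω 𝒪 ⧸ I') := Ideal.Quotient.factorₐ 𝒪 hle
  have hφ : Function.Surjective φ := Ideal.Quotient.factor_surjective hle
  haveI hloc' : IsLocalRing (MvPolynomial Ω 𝒪 ⧸ I') :=
    IsLocalRing.of_surjective' φ.toRingHom hφ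
  have htest' : IsArtinianTestAlgebra 𝒪 (MvPolynomial Ω 𝒪 ⧸ I') :=
    pri_isArtinianTestAlgebra_of_surjective htest φ hφ
  refine ⟨hloc', htest', ?_⟩
  have := hF.map htest htest' φ (IsLocalHom.of_surjective _ hφ) _ hx
  exact this

/-- D1 -/
theorem ker_aeval_mem_pointIdeals (hF : IsPointFunctor 𝒪 Ω F c)
    {A : Type} [CommRing A] [IsLocalRing A] [Algebra 𝒪 A] (hA : IsArtinianTestAlgebra 𝒪 A)
    {x : Ω → A} (hx : x ∈ F A) :
    RingHom.ker (MvPolynomial.aeval x : MvPolynomial Ω 𝒪 →ₐ[𝒪] A) ∈ pointIdeals F := by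
  haveI : Finite A := IsArtinianTestAlgebra.finite hA
  let I := RingHom.ker (MvPolynomial.aeval x : MvPolynomial Ω 𝒪 →ₐ[𝒪] A)
  change I ∈ pointIdeals F
  let ι : (MvPolynomial Ω 𝒪 ⧸ I) →ₐ[𝒪] A :=
    Ideal.Quotient.liftₐ I (MvPolynomial.aeval x) (fun a ha => RingHom.mem_ker.mp ha)
  have hιmk : ∀ a, ι (Ideal.Quotient.mk I a) = MvPolynomial.aeval x a := fun a => rfl
  have hι : Function.Injective ι := by
    rw [injective_iff_map_eq_zero]
    intro b hb
    obtain ⟨a, rfl⟩ := Ideal.Quotient.mk_surjective b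
    rw [Ideal.Quotient.eq_zero_iff_mem]
    rw [hιmk] at hb
    exact RingHom.mem_ker.mpr hb
  haveI : Finite (MvPolynomial Ω 𝒪 ⧸ I) := Finite.of_injective ι hι
  haveI hloc : IsLocalRing (MvPolynomial Ω 𝒪 ⧸ I) :=
    pri_isLocalRing_of_injective (ι : _ →+* A) hι
  have htest : IsArtinianTestAlgebra 𝒪 (MvPolynomial Ω 𝒪 ⧸ I) :=
    pri_isArtinianTestAlgebra_of_algHom hA ι
  refine ⟨hloc, htest, ?_⟩
  refine hF.of_injective htest hA ι (pri_isLocalHom_of_injective _ hι) hι (taut I) ?_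
  have : (fun ω => ι (taut I ω)) = x := by
    funext ω
    show ι (Ideal.Quotient.mk I (MvPolynomial.X ω)) = x ω
    rw [hιmk, MvPolynomial.aeval_X]
  rw [this]
  exact hx


/-- D2 -/
theorem inf_mem_pointIdeals (hF : IsPointFunctor 𝒪 Ω F c)
    {I I' : Ideal (MvPolynomial Ω 𝒪)} (hI : I ∈ pointIdeals F) (hI' : I' ∈ pointIdeals F) :
    I ⊓ I' ∈ pointIdeals F := by
  have hIb := le_baseIdeal_of_mem_pointIdeals hF hI
  have hI'b := le_baseIdeal_of_mem_pointIdeals hF hI'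
  obtain ⟨hloc, htest, hx⟩ := hI
  obtain ⟨hloc', htest', hx'⟩ := hI'
  let pA : (MvPolynomial Ω 𝒪 ⧸ I ⊓ I') →ₐ[𝒪] (MvPolynomial Ω 𝒪 ⧸ I) :=
    Ideal.Quotient.factorₐ 𝒪 inf_le_left
  let pB : (MvPolynomial Ω 𝒪 ⧸ I ⊓ I') →ₐ[𝒪] (MvPolynomial Ω 𝒪 ⧸ I') :=
    Ideal.Quotient.factorₐ 𝒪 inf_le_right
  let f : (MvPolynomial Ω 𝒪 ⧸ I) →ₐ[𝒪] (MvPolynomial Ω 𝒪 ⧸ I ⊔ I') :=
    Ideal.Quotient.factorₐ 𝒪 le_sup_left
  let g : (MvPolynomial Ω 𝒪 ⧸ I') →ₐ[𝒪] (MvPolynomial Ω 𝒪 ⧸ I ⊔ I') :=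
    Ideal.Quotient.factorₐ 𝒪 le_sup_right
  have hpAmk : ∀ a, pA (Ideal.Quotient.mk _ a) = Ideal.Quotient.mk _ a := fun a => rfl
  have hpBmk : ∀ a, pB (Ideal.Quotient.mk _ a) = Ideal.Quotient.mk _ a := fun a => rfl
  have hfmk : ∀ a, f (Ideal.Quotient.mk _ a) = Ideal.Quotient.mk _ a := fun a => rfl
  have hgmk : ∀ a, g (Ideal.Quotient.mk _ a) = Ideal.Quotient.mk _ a := fun a => rfl
  have hpA : Function.Surjective pA := Ideal.Quotient.factor_surjective inf_le_left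
  have hpB : Function.Surjective pB := Ideal.Quotient.factor_surjective inf_le_right
  have hf : Function.Surjective f := Ideal.Quotient.factor_surjective le_sup_left
  have hsup : I ⊔ I' ≠ ⊤ := fun h =>
    baseIdeal_ne_top c (top_le_iff.mp (h ▸ sup_le hIb hI'b))
  have hinf : I ⊓ I' ≠ ⊤ := fun h =>
    baseIdeal_ne_top c (top_le_iff.mp (h ▸ inf_le_left.trans hIb))
  haveI : Nontrivial (MvPolynomial Ω 𝒪 ⧸ I ⊔ I') := Ideal.Quotient.nontrivial_iff.mpr hsup
  haveI hlocC : IsLocalRing (MvPolynomial Ω 𝒪 ⧸ I ⊔ I') :=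
    IsLocalRing.of_surjective' f.toRingHom hf
  have htestC : IsArtinianTestAlgebra 𝒪 (MvPolynomial Ω 𝒪 ⧸ I ⊔ I') :=
    pri_isArtinianTestAlgebra_of_surjective htest f hf
  haveI : Finite (MvPolynomial Ω 𝒪 ⧸ I) := IsArtinianTestAlgebra.finite htest
  haveI : Finite (MvPolynomial Ω 𝒪 ⧸ I') := IsArtinianTestAlgebra.finite htest'
  let ι : (MvPolynomial Ω 𝒪 ⧸ I ⊓ I') →+* (MvPolynomial Ω 𝒪 ⧸ I) × (MvPolynomial Ω 𝒪 ⧸ I') :=
    (pA.toRingHom).prod (pB.toRingHom)
  have hι : Function.Injective ι := by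
    rw [injective_iff_map_eq_zero]
    intro b hb
    obtain ⟨a, rfl⟩ := Ideal.Quotient.mk_surjective b
    have h1 : Ideal.Quotient.mk I a = 0 := congrArg Prod.fst hb
    have h2 : Ideal.Quotient.mk I' a = 0 := congrArg Prod.snd hb
    rw [Ideal.Quotient.eq_zero_iff_mem] at h1 h2 ⊢
    exact ⟨h1, h2⟩
  haveI : Finite (MvPolynomial Ω 𝒪 ⧸ I ⊓ I') := Finite.of_injective ι hι
  haveI : Nontrivial (MvPolynomial Ω 𝒪 ⧸ I ⊓ I') := Ideal.Quotient.nontrivial_iff.mpr hinf
  have hunit : ∀ a : MvPolynomial Ω 𝒪, a ∉ baseIdeal c →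
      IsUnit (Ideal.Quotient.mk (I ⊓ I') a) := by
    intro a ha
    apply pri_isUnit_of_injective ι hι
    rw [Prod.isUnit_iff]
    constructor
    · show IsUnit (Ideal.Quotient.mk I a)
      by_contra h
      apply ha
      rw [← comap_maximalIdeal_eq_baseIdeal hF htest hx]
      exact h
    · show IsUnit (Ideal.Quotient.mk I' a)
      by_contra h
      apply ha
      rw [← comap_maximalIdeal_eq_baseIdeal hF htest' hx']
      exact h
  haveI hlocP : IsLocalRing (MvPolynomial Ω 𝒪 ⧸ I ⊓ I') := by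
    refine IsLocalRing.of_isUnit_or_isUnit_one_sub_self fun b => ?_
    obtain ⟨a, rfl⟩ := Ideal.Quotient.mk_surjective b
    by_cases ha : a ∈ baseIdeal c
    · right
      have h1 : (1 - a) ∉ baseIdeal c := fun h =>
        baseIdeal_ne_top c ((Ideal.eq_top_iff_one _).mpr (by
          have := Ideal.add_mem _ h ha
          simpa using this))
      have := hunit _ h1
      simpa using this
    · left; exact hunit a ha
  have htestP : IsArtinianTestAlgebra 𝒪 (MvPolynomial Ω 𝒪 ⧸ I ⊓ I') :=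
    pri_isArtinianTestAlgebra_of_algHom htest pA
  refine ⟨hlocP, htestP, ?_⟩
  refine hF.of_fibreProduct htest htest' htestC htestP f g pA pB
    (IsLocalHom.of_surjective _ hpA) (IsLocalHom.of_surjective _ hpB) ?_ ?_ ?_ (taut _) ?_ ?_
  · apply AlgHom.ext
    intro b
    obtain ⟨a, rfl⟩ := Ideal.Quotient.mk_surjective b
    rfl
  · exact hι
  · intro a b hab
    obtain ⟨a, rfl⟩ := Ideal.Quotient.mk_surjective a
    obtain ⟨b, rfl⟩ := Ideal.Quotient.mk_surjective b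
    rw [hfmk, hgmk, Ideal.Quotient.eq] at hab
    obtain ⟨i, hi, i', hi', hsum⟩ := Submodule.mem_sup.mp hab
    refine ⟨Ideal.Quotient.mk _ (a - i), ?_, ?_⟩
    · rw [hpAmk, Ideal.Quotient.eq]
      simpa using I.neg_mem hi
    · rw [hpBmk, Ideal.Quotient.eq]
      have : a - i - b = i' := by
        have h3 : a - b = i + i' := hsum.symm
        linear_combination h3
      rw [this]; exact hi'
  · exact hx
  · exact hx'

/-- A finite set of functions is separated by finitely many points. -/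
theorem pri_exists_finset_separating {D : Type*} (T : Set (Ω → D)) (hT : T.Finite) :
    ∃ Ω₀ : Finset Ω, ∀ y ∈ T, ∀ y' ∈ T, (∀ ω ∈ Ω₀, y ω = y' ω) → y = y' := by
  classical
  induction T, hT using Set.Finite.induction_on with
  | empty => exact ⟨∅, fun y hy => absurd hy (Set.notMem_empty y)⟩
  | @insert z T hz hTfin ih =>
    obtain ⟨Ω₁, h₁⟩ := ih
    -- for each `y ∈ T` with `y ≠ z` choose a separating point
    have hsep : ∀ y : Ω → D, ∃ W : Finset Ω, y ≠ z → ∃ ω ∈ W, y ω ≠ z ω := by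
      intro y
      by_cases hyz : y = z
      · exact ⟨∅, fun h => absurd hyz h⟩
      · obtain ⟨ω, hω⟩ := Function.ne_iff.mp hyz
        exact ⟨{ω}, fun _ => ⟨ω, Finset.mem_singleton_self ω, hω⟩⟩
    choose W hW using hsep
    refine ⟨Ω₁ ∪ hTfin.toFinset.biUnion W, ?_⟩
    have key : ∀ y ∈ T, (∀ ω ∈ Ω₁ ∪ hTfin.toFinset.biUnion W, y ω = z ω) → y = z := by
      intro y hy hyz
      by_contra hne
      obtain ⟨ω, hωW, hω⟩ := hW y hne
      apply hω
      apply hyz
      apply Finset.mem_union_right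
      rw [Finset.mem_biUnion]
      exact ⟨y, hTfin.mem_toFinset.mpr hy, hωW⟩
    intro y hy y' hy' hyy'
    rcases Set.mem_insert_iff.mp hy with e | hyT
    · rcases Set.mem_insert_iff.mp hy' with e' | hyT'
      · rw [e, e']
      · rw [e]
        exact (key y' hyT' fun ω hω => by rw [← hyy' ω hω, e]).symm
    · rcases Set.mem_insert_iff.mp hy' with e' | hyT'
      · rw [e']
        exact key y hyT fun ω hω => by rw [hyy' ω hω, e']
      · exact h₁ y hyT y' hyT' fun ω hω => hyy' ω (Finset.mem_union_left _ hω)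

/-- D4 -/
theorem exists_finset_adjoin_eq_top (hF : IsPointFunctor 𝒪 Ω F c) :
    ∃ Ω₀ : Finset Ω, ∀ I ∈ pointIdeals F,
      Algebra.adjoin 𝒪 (taut I '' (Ω₀ : Set Ω)) = ⊤ := by
  letI := dualNumberAlgebra 𝒪
  obtain ⟨Ω₀, hΩ₀⟩ := pri_exists_finset_separating _ hF.tangent_finite
  refine ⟨Ω₀, fun I hI => ?_⟩
  obtain ⟨hloc, htest, hx⟩ := hI
  by_contra hne
  obtain ⟨ψ, ψ', hψ, hψ', hψne, hagree⟩ :=
    exists_ne_algHom_dualNumber htest (Algebra.adjoin 𝒪 (taut I '' (Ω₀ : Set Ω))) hne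
  have hD : IsArtinianTestAlgebra 𝒪 (DualNumber (ResidueField 𝒪)) :=
    isArtinianTestAlgebra_dualNumber
  have hy := hF.map htest hD ψ hψ _ hx
  have hy' := hF.map htest hD ψ' hψ' _ hx
  have heq := hΩ₀ _ hy _ hy' (fun ω hω =>
    hagree _ (Algebra.subset_adjoin (Set.mem_image_of_mem _ hω)))
  apply hψne
  have hcomp : ψ.comp (Ideal.Quotient.mkₐ 𝒪 I) = ψ'.comp (Ideal.Quotient.mkₐ 𝒪 I) := by
    apply MvPolynomial.algHom_ext
    intro ω
    exact congrFun heq ω
  apply AlgHom.ext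
  intro b
  obtain ⟨a, rfl⟩ := Ideal.Quotient.mk_surjective b
  exact DFunLike.congr_fun hcomp a

end Fermat.Agent.S53
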