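import Mathlib
import Fermat.Agent.S53.Lift
import Fermat.Agent.S53.TestAlgebra

/-!
# S53 (owner: helper2): descent and gluing of lifts; lifts from Artinian quotients
-/

set_option autoImplicit false

namespace Fermat.Agent.S53

open IsLocalRing GaloisRep

set_option linter.unusedSectionVars false
set_option linter.style.haveILetI false
set_option linter.unusedVariables false

/-! ### Auxiliary lemmas -/

/-- A ring homomorphism commutes with `mat`. -/
theorem mat_comp_ringHom {A B : Type} [CommRing A] [CommRing B] (φ : A →+* B) (x : Entry → A)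
    (g : Gal) : mat (fun ω => φ (x ω)) g = (mat x g).map φ := by
  ext i j
  simp [mat]

/-- Nonunits are reflected by ring homomorphisms between local rings: if the image lies in the
maximal ideal, so does the element. -/
theorem mem_maximalIdeal_of_map_mem {A B : Type} [CommRing A] [IsLocalRing A] [CommRing B]
    [IsLocalRing B] (φ : A →+* B) {a : A} (ha : φ a ∈ maximalIdeal B) : a ∈ maximalIdeal A := by
  rw [IsLocalRing.mem_maximalIdeal, mem_nonunits_iff] at ha ⊢
  exact fun hu => ha (hu.map φ)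

/-- In a proper quotient of a local ring the maximal ideal is the image of the maximal ideal. -/
theorem map_mk_maximalIdeal {A : Type} [CommRing A] [IsLocalRing A] (I : Ideal A)
    [IsLocalRing (A ⧸ I)] :
    (maximalIdeal A).map (Ideal.Quotient.mk I) = maximalIdeal (A ⧸ I) := by
  have hI : I ≠ ⊤ := by
    intro h
    have : Subsingleton (A ⧸ I) := Ideal.Quotient.subsingleton_iff.mpr h
    exact not_subsingleton (A ⧸ I) this
  haveI : IsLocalHom (Ideal.Quotient.mk I) := isLocalHom_quotient_mk I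
  ext x
  obtain ⟨x, rfl⟩ := Ideal.Quotient.mk_surjective x
  rw [Ideal.mem_map_iff_of_surjective _ Ideal.Quotient.mk_surjective]
  constructor
  · rintro ⟨y, hy, hxy⟩
    rw [← hxy, IsLocalRing.mem_maximalIdeal, mem_nonunits_iff]
    rw [IsLocalRing.mem_maximalIdeal, mem_nonunits_iff] at hy
    exact fun hu => hy ((isUnit_map_iff (Ideal.Quotient.mk I) y).1 hu)
  · intro hx
    refine ⟨x, ?_, rfl⟩
    rw [IsLocalRing.mem_maximalIdeal, mem_nonunits_iff] at hx ⊢
    exact fun hu => hx (hu.map _)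

theorem ld_maximalIdeal_quotient_pow_eq_bot {A : Type} [CommRing A] [IsLocalRing A] (n : ℕ)
    [IsLocalRing (A ⧸ maximalIdeal A ^ n)] :
    maximalIdeal (A ⧸ maximalIdeal A ^ n) ^ n = ⊥ := by
  rw [← map_mk_maximalIdeal, ← Ideal.map_pow, Ideal.map_eq_bot_iff_le_ker, Ideal.mk_ker]

/-- Krull intersection in the form used below. -/
theorem eq_zero_of_forall_mem_pow {A : Type} [CommRing A] [IsLocalRing A] [IsNoetherianRing A]
    {a : A} (h : ∀ n : ℕ, n ≠ 0 → a ∈ maximalIdeal A ^ n) : a = 0 := by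
  have hmem : a ∈ ⨅ i : ℕ, maximalIdeal A ^ i := by
    rw [Ideal.mem_iInf]
    intro i
    by_cases hi : i = 0
    · subst hi; simp
    · exact h i hi
  rw [Ideal.iInf_pow_eq_bot_of_isLocalRing (maximalIdeal A)
    (IsLocalRing.maximalIdeal.isMaximal A).ne_top] at hmem
  exact hmem

section

variable {𝒪 : Type} [CommRing 𝒪] [IsLocalRing 𝒪]

/-- Descent of lifts along an injective local homomorphism into an Artinian local ring. -/
theorem IsLift.of_map_injective {nd : NormData 𝒪} {A B : Type} [CommRing A] [IsLocalRing A]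
    [Algebra 𝒪 A] [CommRing B] [IsLocalRing B] [Algebra 𝒪 B] [IsArtinianRing B]
    {x : Entry → A} (φ : A →ₐ[𝒪] B) (hφ : IsLocalHom (φ : A →+* B))
    (hinj : Function.Injective φ) (hx : IsLift nd (fun ω => φ (x ω))) : IsLift nd x := by
  have hmat : ∀ g, mat (fun ω => φ (x ω)) g = (mat x g).map (φ : A →+* B) := fun g =>
    mat_comp_ringHom (φ : A →+* B) x g
  have hmapinj : Function.Injective
      (fun M : Matrix (Fin 2) (Fin 2) A => M.map (φ : A →+* B)) := by
    intro M M' h
    ext i j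
    have := congrFun (congrFun h i) j
    exact hinj this
  refine ⟨?_, ?_, ?_, ?_⟩
  · apply hmapinj
    show (mat x 1).map (φ : A →+* B) = (1 : Matrix (Fin 2) (Fin 2) A).map (φ : A →+* B)
    rw [← hmat, hx.one, Matrix.map_one _ (map_zero _) (map_one _)]
  · intro g h
    apply hmapinj
    show (mat x (g * h)).map (φ : A →+* B) = (mat x g * mat x h).map (φ : A →+* B)
    rw [Matrix.map_mul, ← hmat, ← hmat, ← hmat, hx.mul]
  · intro ω
    apply mem_maximalIdeal_of_map_mem (φ : A →+* B)
    have := hx.res ω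
    simpa using this
  · intro n
    obtain ⟨N, hN⟩ := IsArtinianRing.isNilpotent_jacobson_bot (R := B)
    rw [IsLocalRing.jacobson_eq_maximalIdeal _ bot_ne_top] at hN
    obtain ⟨L, hL, h⟩ := hx.cont N
    refine ⟨L, hL, fun σ hσ i j => ?_⟩
    have h0 := h σ hσ i j
    rw [hN, hmat] at h0
    have h1 : (φ : A →+* B) ((mat x σ - 1) i j) = 0 := by
      have : ((mat x σ).map (φ : A →+* B) - 1) i j = (φ : A →+* B) ((mat x σ - 1) i j) := by
        simp only [Matrix.sub_apply, Matrix.map_apply, map_sub]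
        congr 1
        by_cases hij : i = j
        · subst hij; simp
        · simp [Matrix.one_apply_ne hij]
      rw [← this]
      exact h0
    have h2 : (mat x σ - 1) i j = 0 := hinj (by rw [← AlgHom.coe_toRingHom, h1, map_zero])
    rw [h2]
    exact Ideal.zero_mem _

/-- Lifts glue along jointly injective local homomorphisms into Artinian local rings. -/
theorem IsLift.of_prod_injective {nd : NormData 𝒪} {A B P : Type} [CommRing A] [IsLocalRing A]
    [Algebra 𝒪 A] [CommRing B] [IsLocalRing B] [Algebra 𝒪 B] [CommRing P] [IsLocalRing P]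
    [Algebra 𝒪 P] [IsArtinianRing A] [IsArtinianRing B]
    {x : Entry → P} (pA : P →ₐ[𝒪] A) (pB : P →ₐ[𝒪] B) (hpA : IsLocalHom (pA : P →+* A))
    (hinj : Function.Injective (fun x => (pA x, pB x)))
    (hxA : IsLift nd (fun ω => pA (x ω))) (hxB : IsLift nd (fun ω => pB (x ω))) :
    IsLift nd x := by
  have hmatA : ∀ g, mat (fun ω => pA (x ω)) g = (mat x g).map (pA : P →+* A) := fun g =>
    mat_comp_ringHom (pA : P →+* A) x g
  have hmatB : ∀ g, mat (fun ω => pB (x ω)) g = (mat x g).map (pB : P →+* B) := fun g =>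
    mat_comp_ringHom (pB : P →+* B) x g
  have hext : ∀ M M' : Matrix (Fin 2) (Fin 2) P, M.map (pA : P →+* A) = M'.map (pA : P →+* A) →
      M.map (pB : P →+* B) = M'.map (pB : P →+* B) → M = M' := by
    intro M M' h1 h2
    ext i j
    apply hinj
    have e1 := congrFun (congrFun h1 i) j
    have e2 := congrFun (congrFun h2 i) j
    simp only [Matrix.map_apply, AlgHom.coe_toRingHom] at e1 e2
    simp only [e1, e2]
  have hentry : ∀ (f : P →+* A) (M : Matrix (Fin 2) (Fin 2) P) (i j : Fin 2),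
      (M.map f - 1) i j = f ((M - 1) i j) := by
    intro f M i j
    simp only [Matrix.sub_apply, Matrix.map_apply, map_sub]
    congr 1
    by_cases hij : i = j
    · subst hij; simp
    · simp [Matrix.one_apply_ne hij]
  have hentryB : ∀ (f : P →+* B) (M : Matrix (Fin 2) (Fin 2) P) (i j : Fin 2),
      (M.map f - 1) i j = f ((M - 1) i j) := by
    intro f M i j
    simp only [Matrix.sub_apply, Matrix.map_apply, map_sub]
    congr 1
    by_cases hij : i = j
    · subst hij; simp
    · simp [Matrix.one_apply_ne hij]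
  refine ⟨?_, ?_, ?_, ?_⟩
  · apply hext
    · rw [← hmatA, hxA.one, Matrix.map_one _ (map_zero _) (map_one _)]
    · rw [← hmatB, hxB.one, Matrix.map_one _ (map_zero _) (map_one _)]
  · intro g h
    apply hext
    · rw [Matrix.map_mul, ← hmatA, ← hmatA, ← hmatA, hxA.mul]
    · rw [Matrix.map_mul, ← hmatB, ← hmatB, ← hmatB, hxB.mul]
  · intro ω
    apply mem_maximalIdeal_of_map_mem (pA : P →+* A)
    have := hxA.res ω
    simpa using this
  · intro n
    obtain ⟨NA, hNA⟩ := IsArtinianRing.isNilpotent_jacobson_bot (R := A)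
    rw [IsLocalRing.jacobson_eq_maximalIdeal _ bot_ne_top] at hNA
    obtain ⟨NB, hNB⟩ := IsArtinianRing.isNilpotent_jacobson_bot (R := B)
    rw [IsLocalRing.jacobson_eq_maximalIdeal _ bot_ne_top] at hNB
    obtain ⟨LA, hLA, hA⟩ := hxA.cont NA
    obtain ⟨LB, hLB, hB⟩ := hxB.cont NB
    haveI := hLA
    haveI := hLB
    refine ⟨LA ⊔ LB, inferInstance, fun σ hσ i j => ?_⟩
    have hσA : ∀ y ∈ LA, σ y = y := fun y hy => hσ y ((le_sup_left : LA ≤ LA ⊔ LB) hy)
    have hσB : ∀ y ∈ LB, σ y = y := fun y hy => hσ y ((le_sup_right : LB ≤ LA ⊔ LB) hy)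
    have h0A := hA σ hσA i j
    have h0B := hB σ hσB i j
    rw [hNA, hmatA, hentry] at h0A
    rw [hNB, hmatB, hentryB] at h0B
    have h2 : (mat x σ - 1) i j = 0 := by
      apply hinj
      show (pA ((mat x σ - 1) i j), pB ((mat x σ - 1) i j)) = (pA 0, pB 0)
      rw [map_zero, map_zero]
      exact Prod.ext h0A h0B
    rw [h2]
    exact Ideal.zero_mem _

end

section

variable {𝒪 : Type} [CommRing 𝒪] [IsDomain 𝒪] [IsDiscreteValuationRing 𝒪]
  [Finite (ResidueField 𝒪)]

/-- `A ⧸ 𝔪ⁿ` is an Artinian test algebra (for `n ≠ 0`). -/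
theorem exists_isArtinianTestAlgebra_quotient_pow (A : Type) [CommRing A] [IsLocalRing A]
    [IsNoetherianRing A] [Algebra 𝒪 A] [IsLocalHom (algebraMap 𝒪 A)]
    (hsurj : Function.Surjective (residue A ∘ algebraMap 𝒪 A)) (n : ℕ) (hn : n ≠ 0) :
    ∃ _ : IsLocalRing (A ⧸ maximalIdeal A ^ n),
      IsArtinianTestAlgebra 𝒪 (A ⧸ maximalIdeal A ^ n) ∧
      IsLocalHom (Ideal.Quotient.mk (maximalIdeal A ^ n)) ∧
      maximalIdeal (A ⧸ maximalIdeal A ^ n) ^ n = ⊥ := by
  haveI hloc : IsLocalRing (A ⧸ maximalIdeal A ^ n) := isLocalRing_quotient_pow hn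
  exact ⟨hloc, isArtinianTestAlgebra_quotient_pow inferInstance hsurj n,
    isLocalHom_quotient_mk _, ld_maximalIdeal_quotient_pow_eq_bot n⟩

/-- A point all of whose Artinian quotients are lifts is a lift (Noetherian local, Hausdorff). -/
theorem isLift_of_forall_quotient (nd : NormData 𝒪) {A : Type} [CommRing A] [IsLocalRing A]
    [IsNoetherianRing A] [Algebra 𝒪 A] [IsLocalHom (algebraMap 𝒪 A)]
    (hsurj : Function.Surjective (residue A ∘ algebraMap 𝒪 A)) (x : Entry → A)
    (h : ∀ (n : ℕ) (_ : n ≠ 0) (_ : IsLocalRing (A ⧸ maximalIdeal A ^ n)),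
      IsLift nd (fun ω => (Ideal.Quotient.mk (maximalIdeal A ^ n)) (x ω))) :
    IsLift nd x := by
  have hq : ∀ (n : ℕ) (hn : n ≠ 0), ∃ _ : IsLocalRing (A ⧸ maximalIdeal A ^ n),
      IsLift nd (fun ω => (Ideal.Quotient.mk (maximalIdeal A ^ n)) (x ω)) := fun n hn =>
    ⟨isLocalRing_quotient_pow hn, h n hn (isLocalRing_quotient_pow hn)⟩
  have hmat : ∀ (n : ℕ) g, mat (fun ω => (Ideal.Quotient.mk (maximalIdeal A ^ n)) (x ω)) g =
      (mat x g).map (Ideal.Quotient.mk (maximalIdeal A ^ n)) := fun n g =>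
    mat_comp_ringHom _ x g
  have hentry : ∀ (n : ℕ) (M : Matrix (Fin 2) (Fin 2) A) (i j : Fin 2),
      (M.map (Ideal.Quotient.mk (maximalIdeal A ^ n)) - 1) i j =
        (Ideal.Quotient.mk (maximalIdeal A ^ n)) ((M - 1) i j) := by
    intro n M i j
    simp only [Matrix.sub_apply, Matrix.map_apply, map_sub]
    congr 1
    by_cases hij : i = j
    · subst hij; simp
    · simp [Matrix.one_apply_ne hij]
  refine ⟨?_, ?_, ?_, ?_⟩
  · ext i j
    rw [← sub_eq_zero]
    apply eq_zero_of_forall_mem_pow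
    intro n hn
    obtain ⟨_, hL⟩ := hq n hn
    have h1 := hL.one
    rw [hmat] at h1
    have h2 : ((mat x 1).map (Ideal.Quotient.mk (maximalIdeal A ^ n)) - 1) i j = 0 := by
      rw [h1, sub_self]; rfl
    rw [hentry] at h2
    exact Ideal.Quotient.eq_zero_iff_mem.1 h2
  · intro g g'
    ext i j
    rw [← sub_eq_zero]
    apply eq_zero_of_forall_mem_pow
    intro n hn
    obtain ⟨_, hL⟩ := hq n hn
    have h1 := hL.mul g g'
    rw [hmat, hmat, hmat, ← Matrix.map_mul] at h1
    have h2 := congrFun (congrFun h1 i) j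
    simp only [Matrix.map_apply] at h2
    rw [← Ideal.Quotient.eq_zero_iff_mem, map_sub, h2, sub_self]
  · intro ω
    obtain ⟨_, hL⟩ := hq 1 one_ne_zero
    have h1 := hL.res ω
    apply mem_maximalIdeal_of_map_mem (Ideal.Quotient.mk (maximalIdeal A ^ 1))
    rw [map_sub]
    exact h1
  · intro n
    by_cases hn : n = 0
    · subst hn
      exact ⟨⊥, inferInstance, fun σ _ i j => by simp⟩
    · obtain ⟨_, hL⟩ := hq n hn
      obtain ⟨L, hLfin, hLσ⟩ := hL.cont n
      refine ⟨L, hLfin, fun σ hσ i j => ?_⟩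
      have h0 := hLσ σ hσ i j
      rw [ld_maximalIdeal_quotient_pow_eq_bot n, hmat, hentry] at h0
      exact Ideal.Quotient.eq_zero_iff_mem.1 h0

theorem isNormalized_of_forall_quotient (nd : NormData 𝒪) {A : Type} [CommRing A] [IsLocalRing A]
    [IsNoetherianRing A] [Algebra 𝒪 A] (x : Entry → A)
    (h : ∀ (n : ℕ) (_ : n ≠ 0),
      IsNormalized nd (fun ω => (Ideal.Quotient.mk (maximalIdeal A ^ n)) (x ω))) :
    IsNormalized nd x := by
  intro j
  rw [← sub_eq_zero]
  apply eq_zero_of_forall_mem_pow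
  intro n hn
  have h1 := h n hn j
  rw [← Ideal.Quotient.eq_zero_iff_mem, map_sub, sub_eq_zero]
  exact h1

end

end Fermat.Agent.S53
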