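import Mathlib
import Fermat.Agent.S53.Lift
import Fermat.Agent.S53.MatRepCore

/-!
# S53 chunk C (owner: helper45): dictionary between `GaloisRepAdic` and matrix lifts

`b` is a basis of `ρbar.V` and `nd.c` lifts the matrix entries of `ρbar` in this basis (`hc`).
The proofs reduce to the generic API of `MatRepCore.lean` through `IsLift.toAdic_eq_ofMat`.
-/

set_option autoImplicit false

namespace Fermat.Agent.S53

open IsLocalRing

variable {𝒪 : Type} [CommRing 𝒪] [IsLocalRing 𝒪]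

theorem IsLift.matAdicContinuous {nd : NormData 𝒪} {A : Type} [CommRing A] [IsLocalRing A]
    [Algebra 𝒪 A] {x : Entry → A} (hx : IsLift nd x) : MatAdicContinuous hx.toMonoidHom :=
  hx.cont

theorem IsLift.toAdic_eq_ofMat {nd : NormData 𝒪} {A : Type} [CommRing A] [IsLocalRing A]
    [Algebra 𝒪 A] {x : Entry → A} (hx : IsLift nd x) :
    hx.toAdic = ofMat hx.toMonoidHom hx.matAdicContinuous := rfl

theorem ofMat_congr {A : Type} [CommRing A] [IsLocalRing A]
    {r r' : Gal →* Matrix (Fin 2) (Fin 2) A} (h : r = r')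
    (hr : MatAdicContinuous r) (hr' : MatAdicContinuous r') : ofMat r hr = ofMat r' hr' := by
  subst h
  rfl

/-- A local ring homomorphism maps the maximal ideal into the maximal ideal. -/
theorem map_mem_maximalIdeal {A B : Type} [CommRing A] [IsLocalRing A] [CommRing B]
    [IsLocalRing B] (φ : A →+* B) (hφ : IsLocalHom φ) {a : A} (ha : a ∈ maximalIdeal A) :
    φ a ∈ maximalIdeal B := by
  have := map_maximalIdeal_pow_le φ hφ 1 (a := a) (by rwa [pow_one])
  rwa [pow_one] at this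

/-- The image of a lift under a local `𝒪`-algebra homomorphism is a lift. -/
theorem IsLift.map {nd : NormData 𝒪} {A B : Type} [CommRing A] [IsLocalRing A] [Algebra 𝒪 A]
    [CommRing B] [IsLocalRing B] [Algebra 𝒪 B] {x : Entry → A} (hx : IsLift nd x)
    (φ : A →ₐ[𝒪] B) (hφ : IsLocalHom (φ : A →+* B)) : IsLift nd (fun ω => φ (x ω)) := by
  have hmat : ∀ g, mat (fun ω => φ (x ω)) g = (mat x g).map φ := fun g => by
    ext i j; rfl
  refine ⟨?_, ?_, ?_, ?_⟩
  · rw [hmat, hx.one]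
    exact Matrix.map_one φ (map_zero φ) (map_one φ)
  · intro g h
    rw [hmat, hmat, hmat, hx.mul, Matrix.map_mul]
  · intro ω
    have h1 : φ (x ω) - algebraMap 𝒪 B (nd.c ω) = (φ : A →+* B) (x ω - algebraMap 𝒪 A (nd.c ω)) := by
      rw [map_sub]
      simp
    rw [h1]
    exact map_mem_maximalIdeal (φ : A →+* B) hφ (hx.res ω)
  · intro n
    obtain ⟨L, hL, h⟩ := hx.cont n
    refine ⟨L, hL, fun σ hσ i j => ?_⟩
    have h1 : (mat (fun ω => φ (x ω)) σ - 1) i j = (φ : A →+* B) ((mat x σ - 1) i j) := by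
      rw [hmat]
      simp only [Matrix.sub_apply, Matrix.map_apply, Matrix.one_apply, map_sub]
      split_ifs <;> simp
    rw [h1]
    exact map_maximalIdeal_pow_le (φ : A →+* B) hφ n (h σ hσ i j)

/-- (M3) base change of `toAdic` is `toAdic` of the image. -/
theorem toAdic_baseChangeAlong {nd : NormData 𝒪} {A B : Type} [CommRing A] [IsLocalRing A]
    [Algebra 𝒪 A] [CommRing B] [IsLocalRing B] [Algebra 𝒪 B] {x : Entry → A} (hx : IsLift nd x)
    (φ : A →ₐ[𝒪] B) (hφ : IsLocalHom (φ : A →+* B)) :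
    (hx.toAdic.baseChangeAlong (φ : A →+* B) hφ).IsEquiv (hx.map φ hφ).toAdic := by
  have h := ofMat_baseChangeAlong (φ : A →+* B) hφ hx.toMonoidHom hx.matAdicContinuous
  have e : mapMat (φ : A →+* B) hx.toMonoidHom = (hx.map φ hφ).toMonoidHom := by
    ext σ i j
    rfl
  rw [IsLift.toAdic_eq_ofMat, IsLift.toAdic_eq_ofMat,
    ← ofMat_congr e (mapMat_adicContinuous (φ : A →+* B) hφ hx.matAdicContinuous)]
  exact h

/-- (M4) equivalence of `toAdic`s is conjugacy of matrices. -/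
theorem toAdic_isEquiv_iff {nd : NormData 𝒪} {A : Type} [CommRing A] [IsLocalRing A]
    [Algebra 𝒪 A] {x x' : Entry → A} (hx : IsLift nd x) (hx' : IsLift nd x') :
    hx.toAdic.IsEquiv hx'.toAdic ↔
      ∃ h h' : Matrix (Fin 2) (Fin 2) A, h * h' = 1 ∧ h' * h = 1 ∧
        ∀ g, h * mat x g = mat x' g * h := by
  rw [IsLift.toAdic_eq_ofMat, IsLift.toAdic_eq_ofMat]
  exact ofMat_isEquiv_iff hx.toMonoidHom hx'.toMonoidHom _ _

/-- Entrywise comparison used for the residual statements. -/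
theorem residue_eq_of_res {nd : NormData 𝒪}
    (ρbar : ResidualGaloisRep (ResidueField 𝒪)) (b : Module.Basis (Fin 2) (ResidueField 𝒪) ρbar.V)
    (hc : ∀ g i j, residue 𝒪 (nd.c (g, i, j)) = LinearMap.toMatrix b b (ρbar.ρ g) i j)
    {A : Type} [CommRing A] [IsLocalRing A] [Algebra 𝒪 A] [IsLocalHom (algebraMap 𝒪 A)]
    {x : Entry → A} (hres : ∀ ω, x ω - algebraMap 𝒪 A (nd.c ω) ∈ maximalIdeal A)
    (σ : Gal) (i j : Fin 2) :
    residue A (x (σ, i, j)) =
      (IsLocalRing.ResidueField.map (algebraMap 𝒪 A)) (resToMat ρbar b σ i j) := by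
  rw [resToMat_apply, ← hc, IsLocalRing.ResidueField.map_residue]
  have := hres (σ, i, j)
  rw [← IsLocalRing.residue_eq_zero_iff, map_sub, sub_eq_zero] at this
  exact this

/-- (M1) a `GaloisRepAdic` with residual representation `ρbar` comes from a lift. -/
theorem exists_isLift_of_residual_isEquiv (nd : NormData 𝒪)
    (ρbar : ResidualGaloisRep (ResidueField 𝒪)) (b : Module.Basis (Fin 2) (ResidueField 𝒪) ρbar.V)
    (hc : ∀ g i j, residue 𝒪 (nd.c (g, i, j)) = LinearMap.toMatrix b b (ρbar.ρ g) i j)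
    {A : Type} [CommRing A] [IsLocalRing A] [Algebra 𝒪 A] [IsLocalHom (algebraMap 𝒪 A)]
    (hsurj : Function.Surjective (residue A ∘ algebraMap 𝒪 A))
    (ρA : GaloisRepAdic A)
    (hres : ρA.residual.IsEquiv
      (ρbar.baseChangeAlong (IsLocalRing.ResidueField.map (algebraMap 𝒪 A)))) :
    ∃ (x : Entry → A) (hx : IsLift nd x), ρA.IsEquiv hx.toAdic := by
  obtain ⟨bA, hbA⟩ := exists_basis_lifting ρA ρbar
    (IsLocalRing.ResidueField.map (algebraMap 𝒪 A)) b hres
  have hx : IsLift nd (pointOf fun g => toMat ρA bA g) := by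
    refine ⟨?_, ?_, ?_, toMat_adicContinuous ρA bA⟩
    · rw [mat_pointOf, map_one]
    · intro g h
      rw [mat_pointOf, mat_pointOf, mat_pointOf, map_mul]
    · rintro ⟨σ, i, j⟩
      rw [← IsLocalRing.residue_eq_zero_iff, map_sub, sub_eq_zero]
      show residue A (toMat ρA bA σ i j) = _
      rw [hbA σ i j, resToMat_apply, ← hc, IsLocalRing.ResidueField.map_residue]
  refine ⟨_, hx, ?_⟩
  have e : toMat ρA bA = hx.toMonoidHom := by
    ext σ i j
    rfl
  rw [IsLift.toAdic_eq_ofMat, ← ofMat_congr e (toMat_adicContinuous ρA bA)]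
  exact isEquiv_ofMat_toMat ρA bA

/-- (M2) the residual representation of a lift is `ρbar`. -/
theorem toAdic_residual_isEquiv (nd : NormData 𝒪)
    (ρbar : ResidualGaloisRep (ResidueField 𝒪)) (b : Module.Basis (Fin 2) (ResidueField 𝒪) ρbar.V)
    (hc : ∀ g i j, residue 𝒪 (nd.c (g, i, j)) = LinearMap.toMatrix b b (ρbar.ρ g) i j)
    {A : Type} [CommRing A] [IsLocalRing A] [Algebra 𝒪 A] [IsLocalHom (algebraMap 𝒪 A)]
    {x : Entry → A} (hx : IsLift nd x) :
    hx.toAdic.residual.IsEquiv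
      (ρbar.baseChangeAlong (IsLocalRing.ResidueField.map (algebraMap 𝒪 A))) := by
  rw [IsLift.toAdic_eq_ofMat]
  exact ofMat_residual_isEquiv hx.toMonoidHom hx.matAdicContinuous ρbar _ b
    (fun σ i j => residue_eq_of_res ρbar b hc hx.res σ i j)

/-- `ofResidualGaloisRep ρbar` is the `toAdic` of the residual lift. -/
theorem isLift_residue (nd : NormData 𝒪) :
    IsLift nd (A := ResidueField 𝒪) (fun ω => algebraMap 𝒪 (ResidueField 𝒪) (nd.c ω)) := by
  have hmat : ∀ g, mat (fun ω => algebraMap 𝒪 (ResidueField 𝒪) (nd.c ω)) g =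
      (mat nd.c g).map (residue 𝒪) := fun g => by
    ext i j; rfl
  have hzero : ∀ (M : Matrix (Fin 2) (Fin 2) 𝒪), (∀ i j, M i j ∈ maximalIdeal 𝒪) →
      M.map (residue 𝒪) = 0 := fun M hM => by
    ext i j
    rw [Matrix.map_apply, Matrix.zero_apply]
    exact (IsLocalRing.residue_eq_zero_iff _).mpr (hM i j)
  have hone : (1 : Matrix (Fin 2) (Fin 2) 𝒪).map (residue 𝒪) = 1 :=
    Matrix.map_one _ (map_zero _) (map_one _)
  refine ⟨?_, ?_, ?_, ?_⟩
  · rw [hmat]
    have := hzero (mat nd.c 1 - 1) nd.c_one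
    rw [Matrix.map_sub (f := residue 𝒪) (fun a b => map_sub _ a b), hone, sub_eq_zero] at this
    exact this
  · intro g h
    rw [hmat, hmat, hmat]
    have := hzero (mat nd.c (g * h) - mat nd.c g * mat nd.c h) (nd.c_mul g h)
    rw [Matrix.map_sub (f := residue 𝒪) (fun a b => map_sub _ a b), sub_eq_zero,
      Matrix.map_mul] at this
    exact this
  · intro ω
    rw [sub_self]
    exact Submodule.zero_mem _
  · intro n
    obtain ⟨L, hL, h⟩ := nd.c_cont
    refine ⟨L, hL, fun σ hσ i j => ?_⟩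
    have h0 : (mat (fun ω => algebraMap 𝒪 (ResidueField 𝒪) (nd.c ω)) σ - 1) i j = 0 := by
      rw [hmat, ← hone, ← Matrix.map_sub (f := residue 𝒪) (fun a b => map_sub _ a b),
        hzero (mat nd.c σ - 1) (h σ hσ)]
      rfl
    rw [h0]
    exact Submodule.zero_mem _

theorem ofResidualGaloisRep_isEquiv (nd : NormData 𝒪)
    (ρbar : ResidualGaloisRep (ResidueField 𝒪)) (b : Module.Basis (Fin 2) (ResidueField 𝒪) ρbar.V)
    (hc : ∀ g i j, residue 𝒪 (nd.c (g, i, j)) = LinearMap.toMatrix b b (ρbar.ρ g) i j) :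
    (GaloisRepAdic.ofResidualGaloisRep ρbar).IsEquiv (isLift_residue nd).toAdic := by
  let ρ : GaloisRepAdic (ResidueField 𝒪) := GaloisRepAdic.ofResidualGaloisRep ρbar
  let bρ : Module.Basis (Fin 2) (ResidueField 𝒪) ρ.V := b
  have e : toMat ρ bρ = (isLift_residue nd).toMonoidHom := by
    ext σ i j
    show LinearMap.toMatrix b b (ρbar.ρ σ) i j = algebraMap 𝒪 (ResidueField 𝒪) (nd.c (σ, i, j))
    rw [← hc]
    rfl
  rw [IsLift.toAdic_eq_ofMat, ← ofMat_congr e (toMat_adicContinuous ρ bρ)]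
  exact isEquiv_ofMat_toMat ρ bρ

end Fermat.Agent.S53
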