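import Mathlib

/-!
# S53 chunk D (helper76): an abstract Mittag-Leffler lemma for a decreasing family of ideals
in an adically precomplete ring.
-/

namespace Fermat.Agent.S53

/-- telescoping: if `t (n+1) - t n ∈ J n` and `J` is antitone then `t m - t n ∈ J n` for `n ≤ m`. -/
theorem ML_telescope {S : Type*} [CommRing S] (J : ℕ → Ideal S) (h2 : ∀ n, J (n + 1) ≤ J n)
    (t : ℕ → S) (ht : ∀ n, t (n + 1) - t n ∈ J n) {n m : ℕ} (hnm : n ≤ m) :
    t m - t n ∈ J n := by
  have hanti : ∀ a b, a ≤ b → J b ≤ J a := by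
    intro a b hab
    induction hab with
    | refl => exact le_rfl
    | step _ ih => exact (h2 _).trans ih
  induction hnm with
  | refl => simp
  | @step m hm ih =>
    have : t (m + 1) - t n = (t (m + 1) - t m) + (t m - t n) := by ring
    rw [this]
    exact (J n).add_mem (hanti n m hm (ht m)) ih

/-- Mittag-Leffler: compatible systems modulo a decreasing family of ideals `J n` with
`𝔞^(n+1) ≤ J n ≤ J (n+1) ⊔ 𝔞^(n+1)` lift to elements of a precomplete ring. -/
theorem ML_exists_limit {S : Type*} [CommRing S] (𝔞 : Ideal S) [IsPrecomplete 𝔞 S]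
    (J : ℕ → Ideal S) (h1 : ∀ n, 𝔞 ^ (n + 1) ≤ J n) (h2 : ∀ n, J (n + 1) ≤ J n)
    (h3 : ∀ n, J n ≤ J (n + 1) ⊔ 𝔞 ^ (n + 1))
    (t : ℕ → S) (ht : ∀ n, t (n + 1) - t n ∈ J n) (n₀ : ℕ) :
    ∃ s : S, (∀ n, s - t n ∈ J n) ∧ s - t n₀ ∈ 𝔞 ^ (n₀ + 1) := by
  classical
  have hanti : ∀ a b, a ≤ b → J b ≤ J a := by
    intro a b hab
    induction hab with
    | refl => exact le_rfl
    | step _ ih => exact (h2 _).trans ih
  -- one step of the construction
  have step : ∀ (k : ℕ) (p : S), p - t (n₀ + k) ∈ J (n₀ + k) →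
      ∃ q : S, q - t (n₀ + (k + 1)) ∈ J (n₀ + (k + 1)) ∧ q - p ∈ 𝔞 ^ (n₀ + k + 1) := by
    intro k p hp
    have hmem : t (n₀ + (k + 1)) - p ∈ J (n₀ + k) := by
      have : t (n₀ + (k + 1)) - p = (t (n₀ + k + 1) - t (n₀ + k)) - (p - t (n₀ + k)) := by
        rw [show n₀ + (k + 1) = n₀ + k + 1 from rfl]; ring
      rw [this]
      exact (J _).sub_mem (ht _) hp
    obtain ⟨j, hj, a, ha, hja⟩ := Submodule.mem_sup.1 (h3 _ hmem)
    refine ⟨p + a, ?_, by simpa using ha⟩
    have : p + a - t (n₀ + (k + 1)) = -j := by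
      have : a = t (n₀ + (k + 1)) - p - j := by rw [← hja]; ring
      rw [this]; ring
    rw [this]
    exact (J _).neg_mem hj
  -- the sequence
  let v : ∀ k : ℕ, {p : S // p - t (n₀ + k) ∈ J (n₀ + k)} := fun k =>
    Nat.rec (motive := fun k => {p : S // p - t (n₀ + k) ∈ J (n₀ + k)})
      ⟨t n₀, by simp⟩
      (fun k p => ⟨Classical.choose (step k p.1 p.2), (Classical.choose_spec (step k p.1 p.2)).1⟩) k
  have hv0 : (v 0).1 = t n₀ := rfl
  have hvs : ∀ k, (v (k + 1)).1 - (v k).1 ∈ 𝔞 ^ (n₀ + k + 1) := fun k =>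
    (Classical.choose_spec (step k (v k).1 (v k).2)).2
  -- telescoping for v
  have hvt : ∀ m n, m ≤ n → (v n).1 - (v m).1 ∈ 𝔞 ^ (n₀ + m + 1) := by
    intro m n hmn
    induction hmn with
    | refl => simp
    | @step n hn ih =>
      have hn' : m ≤ n := hn
      have : (v (n + 1)).1 - (v m).1 = ((v (n + 1)).1 - (v n).1) + ((v n).1 - (v m).1) := by ring
      rw [this]
      exact Ideal.add_mem _ (Ideal.pow_le_pow_right (by omega) (hvs n)) ih
  -- the limit
  have hcauchy : ∀ {m n : ℕ}, m ≤ n →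
      (v m).1 ≡ (v n).1 [SMOD (𝔞 ^ m • ⊤ : Submodule S S)] := by
    intro m n hmn
    rw [SModEq.sub_mem, smul_eq_mul, Ideal.mul_top]
    have := hvt m n hmn
    have h' : (v m).1 - (v n).1 = -((v n).1 - (v m).1) := by ring
    rw [h']
    exact neg_mem (Ideal.pow_le_pow_right (by omega) this)
  obtain ⟨L, hL⟩ := IsPrecomplete.prec (I := 𝔞) (M := S) inferInstance hcauchy
  have hL' : ∀ k, L - (v k).1 ∈ 𝔞 ^ (n₀ + k + 1) := by
    intro k
    have h := hL (n₀ + k + 1)
    rw [SModEq.sub_mem, smul_eq_mul, Ideal.mul_top] at h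
    have h2' := hvt k (n₀ + k + 1) (by omega)
    have : L - (v k).1 = -((v (n₀ + k + 1)).1 - L) + ((v (n₀ + k + 1)).1 - (v k).1) := by ring
    rw [this]
    exact Ideal.add_mem _ (neg_mem h) h2'
  have hLn₀ : L - t n₀ ∈ 𝔞 ^ (n₀ + 1) := by
    have := hL' 0
    rwa [hv0, add_zero] at this
  refine ⟨L, fun n => ?_, hLn₀⟩
  rcases le_total n₀ n with h | h
  · obtain ⟨k, rfl⟩ := Nat.exists_eq_add_of_le h
    have : L - t (n₀ + k) = (L - (v k).1) + ((v k).1 - t (n₀ + k)) := by ring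
    rw [this]
    exact (J _).add_mem (h1 _ (hL' k)) (v k).2
  · have : L - t n = (L - t n₀) + (t n₀ - t n) := by ring
    rw [this]
    exact (J n).add_mem (hanti n n₀ h (h1 _ hLn₀)) (ML_telescope J h2 t ht h)

/-- Corollary: `J n ≤ (⨅ j, J j) ⊔ 𝔞 ^ (n+1)`. -/
theorem ML_le_iInf_sup {S : Type*} [CommRing S] (𝔞 : Ideal S) [IsPrecomplete 𝔞 S]
    (J : ℕ → Ideal S) (h1 : ∀ n, 𝔞 ^ (n + 1) ≤ J n) (h2 : ∀ n, J (n + 1) ≤ J n)
    (h3 : ∀ n, J n ≤ J (n + 1) ⊔ 𝔞 ^ (n + 1)) (n : ℕ) :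
    J n ≤ (⨅ j, J j) ⊔ 𝔞 ^ (n + 1) := by
  classical
  have hanti : ∀ a b, a ≤ b → J b ≤ J a := by
    intro a b hab
    induction hab with
    | refl => exact le_rfl
    | step _ ih => exact (h2 _).trans ih
  intro s₀ hs₀
  let t : ℕ → S := fun j => if j ≤ n then s₀ else 0
  have ht : ∀ j, t (j + 1) - t j ∈ J j := by
    intro j
    simp only [t]
    by_cases hj : j + 1 ≤ n
    · have hj' : j ≤ n := by omega
      simp [hj, hj']
    · by_cases hj' : j ≤ n
      · have : j = n := by omega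
        subst this
        simp [hs₀]
      · simp [hj, hj']
  obtain ⟨s, hs, hsn⟩ := ML_exists_limit 𝔞 J h1 h2 h3 t ht n
  have htn : t n = s₀ := by simp [t]
  rw [htn] at hsn
  have hsJ : s ∈ ⨅ j, J j := by
    rw [Ideal.mem_iInf]
    intro j
    have hbig : s ∈ J (max j (n + 1)) := by
      have := hs (max j (n + 1))
      have ht0 : t (max j (n + 1)) = 0 := by
        simp only [t]
        rw [if_neg]
        omega
      rwa [ht0, sub_zero] at this
    exact hanti j _ (le_max_left _ _) hbig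
  have : s₀ = s + -(s - s₀) := by ring
  rw [this]
  exact Submodule.add_mem_sup hsJ (neg_mem hsn)

end Fermat.Agent.S53
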