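import Mathlib
import Fermat.Agent.S53.Defs
import Fermat.Agent.S53.PowerSeries
import Fermat.Agent.S53.TestAlgebra
import Fermat.Agent.S53.ProRepIdeals
import Fermat.Agent.S53.ProRepML

/-!
# S53 chunk D5–D7 (owner: helper76): the universal ring `UnivRing = 𝒪⟦X⟧ ⧸ ⋂ Jₙ` and its point

`levelIdeal n` = least point ideal containing `𝔪ⁿ⁺¹`, `levelTheta n : S → Λ ⧸ Iₙ`,
`levelKer n = ker θₙ`, `univKer = ⋂ Jₙ`, `UnivRing = S ⧸ univKer`, `univPoint : Ω → UnivRing`.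
-/

set_option linter.unusedSectionVars false
set_option linter.style.haveILetI false

namespace Fermat.Agent.S53

open IsLocalRing GaloisRep

section PS

variable {𝒪 : Type} [CommRing 𝒪] [IsDomain 𝒪] [IsDiscreteValuationRing 𝒪]
  [Finite (ResidueField 𝒪)]

/-- `𝒪 → 𝒪⟦X⟧` is a local homomorphism. -/
theorem isLocalHom_algebraMap_mvPowerSeries (d : ℕ) :
    IsLocalHom (algebraMap 𝒪 (MvPowerSeries (Fin d) 𝒪)) := by
  constructor
  intro a ha
  have h := (MvPowerSeries.isUnit_iff_constantCoeff (σ := Fin d) (R := 𝒪)).1 ha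
  rwa [MvPowerSeries.algebraMap_apply, Algebra.algebraMap_self, RingHom.id_apply,
    MvPowerSeries.constantCoeff_C] at h

/-- the residue field of `𝒪⟦X⟧` is that of `𝒪`. -/
theorem residue_surjective_mvPowerSeries (d : ℕ) :
    Function.Surjective (residue (MvPowerSeries (Fin d) 𝒪) ∘
      algebraMap 𝒪 (MvPowerSeries (Fin d) 𝒪)) := by
  intro y
  obtain ⟨s, rfl⟩ := residue_surjective y
  refine ⟨MvPowerSeries.constantCoeff s, ?_⟩
  simp only [Function.comp_apply]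
  rw [← sub_eq_zero, ← map_sub, residue_eq_zero_iff, mem_maximalIdeal, mem_nonunits_iff,
    MvPowerSeries.isUnit_iff_constantCoeff]
  simp [MvPowerSeries.algebraMap_apply]

/-- `𝒪⟦X⟧ ⧸ 𝔪ⁿ⁺¹` is finite. -/
theorem finite_mvPowerSeries_quotient_pow (d n : ℕ) :
    Finite (MvPowerSeries (Fin d) 𝒪 ⧸ maximalIdeal (MvPowerSeries (Fin d) 𝒪) ^ (n + 1)) := by
  haveI := isLocalRing_quotient_pow (A := MvPowerSeries (Fin d) 𝒪) (n := n + 1) (by omega)
  exact IsArtinianTestAlgebra.finite (isArtinianTestAlgebra_quotient_pow (𝒪 := 𝒪)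
    (isLocalHom_algebraMap_mvPowerSeries d) (residue_surjective_mvPowerSeries d) (n + 1))

end PS

section Theta

variable {𝒪 : Type} [CommRing 𝒪] [IsDomain 𝒪] [IsDiscreteValuationRing 𝒪]
  [Finite (ResidueField 𝒪)]
  {Ω : Type} {F : ∀ (A : Type) [CommRing A] [IsLocalRing A] [Algebra 𝒪 A], Set (Ω → A)}
  {c : Ω → 𝒪}

/-- For a point ideal `I`, the map `θ_I : 𝒪⟦X₁..X_d⟧ → Λ ⧸ I`, `X_i ↦ taut (w i) - c (w i)`. -/
theorem exists_theta (hF : IsPointFunctor 𝒪 Ω F c) {d : ℕ} (w : Fin d → Ω)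
    {I : Ideal (MvPolynomial Ω 𝒪)} (hI : I ∈ pointIdeals F) :
    ∃ θ : MvPowerSeries (Fin d) 𝒪 →ₐ[𝒪] MvPolynomial Ω 𝒪 ⧸ I,
      ∀ i, θ (MvPowerSeries.X i) = taut I (w i) - algebraMap 𝒪 _ (c (w i)) := by
  obtain ⟨hloc, hT, hx⟩ := hI
  exact exists_algHom_mvPowerSeries _ fun i =>
    IsArtinianTestAlgebra.isNilpotent_of_mem hT (hF.residue_eq hT _ hx (w i))

/-- the chosen `θ_I` -/
noncomputable def theta (hF : IsPointFunctor 𝒪 Ω F c) {d : ℕ} (w : Fin d → Ω)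
    {I : Ideal (MvPolynomial Ω 𝒪)} (hI : I ∈ pointIdeals F) :
    MvPowerSeries (Fin d) 𝒪 →ₐ[𝒪] MvPolynomial Ω 𝒪 ⧸ I :=
  Classical.choose (exists_theta hF w hI)

theorem theta_X (hF : IsPointFunctor 𝒪 Ω F c) {d : ℕ} (w : Fin d → Ω)
    {I : Ideal (MvPolynomial Ω 𝒪)} (hI : I ∈ pointIdeals F) (i : Fin d) :
    theta hF w hI (MvPowerSeries.X i) = taut I (w i) - algebraMap 𝒪 _ (c (w i)) :=
  Classical.choose_spec (exists_theta hF w hI) i

theorem isNilpotent_theta_X (hF : IsPointFunctor 𝒪 Ω F c) {d : ℕ} (w : Fin d → Ω)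
    {I : Ideal (MvPolynomial Ω 𝒪)} (hI : I ∈ pointIdeals F) (i : Fin d) :
    IsNilpotent (theta hF w hI (MvPowerSeries.X i)) := by
  rw [theta_X]
  obtain ⟨hloc, hT, hx⟩ := hI
  exact IsArtinianTestAlgebra.isNilpotent_of_mem hT (hF.residue_eq hT _ hx (w i))

/-- `θ` is compatible with the transition maps. -/
theorem factor_comp_theta (hF : IsPointFunctor 𝒪 Ω F c) {d : ℕ} (w : Fin d → Ω)
    {I I' : Ideal (MvPolynomial Ω 𝒪)} (hI : I ∈ pointIdeals F) (hI' : I' ∈ pointIdeals F)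
    (hle : I ≤ I') :
    (Ideal.Quotient.factorₐ 𝒪 hle).comp (theta hF w hI) = theta hF w hI' := by
  symm
  refine algHom_mvPowerSeries_ext _ _ (fun i => ?_) (isNilpotent_theta_X hF w hI')
  rw [AlgHom.comp_apply, theta_X, theta_X, map_sub]
  simp [taut]

/-- `θ_I` is surjective when the `taut (w i)` generate. -/
theorem theta_surjective (hF : IsPointFunctor 𝒪 Ω F c) {d : ℕ} (w : Fin d → Ω)
    {I : Ideal (MvPolynomial Ω 𝒪)} (hI : I ∈ pointIdeals F)
    (hw : Algebra.adjoin 𝒪 (Set.range fun i => taut I (w i)) = ⊤) :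
    Function.Surjective (theta hF w hI) := by
  rw [← AlgHom.range_eq_top, eq_top_iff, ← hw]
  refine Algebra.adjoin_le ?_
  rintro _ ⟨i, rfl⟩
  refine ⟨MvPowerSeries.X i + algebraMap 𝒪 _ (c (w i)), ?_⟩
  simp [theta_X]

/-- the maximal ideal of `Λ ⧸ I` is the image of the base ideal -/
theorem maximalIdeal_quotient_eq_map (hF : IsPointFunctor 𝒪 Ω F c)
    {I : Ideal (MvPolynomial Ω 𝒪)} [IsLocalRing (MvPolynomial Ω 𝒪 ⧸ I)]
    (hT : IsArtinianTestAlgebra 𝒪 (MvPolynomial Ω 𝒪 ⧸ I))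
    (hx : taut I ∈ F (MvPolynomial Ω 𝒪 ⧸ I)) :
    maximalIdeal (MvPolynomial Ω 𝒪 ⧸ I) = (baseIdeal c).map (Ideal.Quotient.mk I) := by
  rw [← comap_maximalIdeal_eq_baseIdeal hF hT hx,
    Ideal.map_comap_of_surjective _ Ideal.Quotient.mk_surjective]

/-- if `𝔪ⁿ⁺¹ ≤ I` then the maximal ideal of `Λ ⧸ I` has vanishing `(n+1)`-st power -/
theorem maximalIdeal_quotient_pow_eq_bot (hF : IsPointFunctor 𝒪 Ω F c)
    {I : Ideal (MvPolynomial Ω 𝒪)} [IsLocalRing (MvPolynomial Ω 𝒪 ⧸ I)]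
    (hT : IsArtinianTestAlgebra 𝒪 (MvPolynomial Ω 𝒪 ⧸ I))
    (hx : taut I ∈ F (MvPolynomial Ω 𝒪 ⧸ I)) {n : ℕ} (hn : baseIdeal c ^ n ≤ I) :
    maximalIdeal (MvPolynomial Ω 𝒪 ⧸ I) ^ n = ⊥ := by
  rw [maximalIdeal_quotient_eq_map hF hT hx, ← Ideal.map_pow, eq_bot_iff]
  calc (baseIdeal c ^ n).map (Ideal.Quotient.mk I) ≤ I.map (Ideal.Quotient.mk I) :=
        Ideal.map_mono hn
    _ = ⊥ := Ideal.map_quotient_self I

/-- `θ_I` kills `𝔪_Sⁿ` if `𝔪ⁿ ≤ I` (given surjectivity). -/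
theorem maximalIdeal_pow_le_ker_theta (hF : IsPointFunctor 𝒪 Ω F c) {d : ℕ} (w : Fin d → Ω)
    {I : Ideal (MvPolynomial Ω 𝒪)} (hI : I ∈ pointIdeals F)
    (hsurj : Function.Surjective (theta hF w hI)) {n : ℕ} (hn : baseIdeal c ^ n ≤ I) :
    maximalIdeal (MvPowerSeries (Fin d) 𝒪) ^ n ≤ RingHom.ker (theta hF w hI) := by
  obtain ⟨hloc, hT, hx⟩ := id hI
  haveI := hloc
  have hmap : (maximalIdeal (MvPowerSeries (Fin d) 𝒪)).map (theta hF w hI) =
      maximalIdeal (MvPolynomial Ω 𝒪 ⧸ I) :=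
    map_maximalIdeal_of_surjective (theta hF w hI).toRingHom hsurj
  intro s hs
  rw [RingHom.mem_ker]
  have h1 : theta hF w hI s ∈ (maximalIdeal (MvPowerSeries (Fin d) 𝒪) ^ n).map (theta hF w hI) :=
    Ideal.mem_map_of_mem _ hs
  rw [Ideal.map_pow, hmap, maximalIdeal_quotient_pow_eq_bot hF hT hx hn] at h1
  simpa using h1

end Theta

section Least

variable {𝒪 : Type} [CommRing 𝒪] [IsDomain 𝒪] [IsDiscreteValuationRing 𝒪]
  [Finite (ResidueField 𝒪)]
  {Ω : Type} {F : ∀ (A : Type) [CommRing A] [IsLocalRing A] [Algebra 𝒪 A], Set (Ω → A)}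
  {c : Ω → 𝒪}

theorem baseIdeal_mem_pointIdeals (hF : IsPointFunctor 𝒪 Ω F c) : baseIdeal c ∈ pointIdeals F :=
  ker_aeval_mem_pointIdeals hF isArtinianTestAlgebra_residueField hF.base_mem

theorem finite_quotient_of_mem_pointIdeals {I : Ideal (MvPolynomial Ω 𝒪)}
    (hI : I ∈ pointIdeals F) : Finite (MvPolynomial Ω 𝒪 ⧸ I) := by
  obtain ⟨hloc, hT, -⟩ := hI
  exact IsArtinianTestAlgebra.finite hT

theorem card_quotient_le (hF : IsPointFunctor 𝒪 Ω F c) {d : ℕ} (w : Fin d → Ω)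
    (hw : ∀ I ∈ pointIdeals F, Algebra.adjoin 𝒪 (Set.range fun i => taut I (w i)) = ⊤)
    {I : Ideal (MvPolynomial Ω 𝒪)} (hI : I ∈ pointIdeals F) {n : ℕ}
    (hn : baseIdeal c ^ (n + 1) ≤ I) :
    Nat.card (MvPolynomial Ω 𝒪 ⧸ I) ≤
      Nat.card (MvPowerSeries (Fin d) 𝒪 ⧸ maximalIdeal (MvPowerSeries (Fin d) 𝒪) ^ (n + 1)) := by
  haveI := finite_mvPowerSeries_quotient_pow (𝒪 := 𝒪) d n
  have hsurj := theta_surjective hF w hI (hw I hI)
  let g : MvPowerSeries (Fin d) 𝒪 ⧸ maximalIdeal (MvPowerSeries (Fin d) 𝒪) ^ (n + 1) →+*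
      MvPolynomial Ω 𝒪 ⧸ I :=
    Ideal.Quotient.lift _ (theta hF w hI).toRingHom
      (fun a ha => maximalIdeal_pow_le_ker_theta hF w hI hsurj hn ha)
  have hg : Function.Surjective g := Ideal.Quotient.lift_surjective_of_surjective _ _ hsurj
  exact Nat.card_le_card_of_surjective g hg

/-- D6: the least point ideal containing `𝔪ⁿ⁺¹`. -/
theorem exists_least_pointIdeal (hF : IsPointFunctor 𝒪 Ω F c) {d : ℕ} (w : Fin d → Ω)
    (hw : ∀ I ∈ pointIdeals F, Algebra.adjoin 𝒪 (Set.range fun i => taut I (w i)) = ⊤)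
    (n : ℕ) :
    ∃ I ∈ pointIdeals F, baseIdeal c ^ (n + 1) ≤ I ∧
      ∀ I' ∈ pointIdeals F, baseIdeal c ^ (n + 1) ≤ I' → I ≤ I' := by
  classical
  let 𝒞 : Set (Ideal (MvPolynomial Ω 𝒪)) := {I | I ∈ pointIdeals F ∧ baseIdeal c ^ (n + 1) ≤ I}
  let vals : Set ℕ := (fun I => Nat.card (MvPolynomial Ω 𝒪 ⧸ I)) '' 𝒞
  have hne : vals.Nonempty :=
    ⟨_, baseIdeal c, ⟨baseIdeal_mem_pointIdeals hF, Ideal.pow_le_self (by omega)⟩, rfl⟩
  have hbdd : BddAbove vals := by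
    refine ⟨Nat.card (MvPowerSeries (Fin d) 𝒪 ⧸
      maximalIdeal (MvPowerSeries (Fin d) 𝒪) ^ (n + 1)), ?_⟩
    rintro _ ⟨I, ⟨hI, hn⟩, rfl⟩
    exact card_quotient_le hF w hw hI hn
  obtain ⟨I₀, ⟨hI₀, hn₀⟩, hcard⟩ := Nat.sSup_mem hne hbdd
  refine ⟨I₀, hI₀, hn₀, fun I' hI' hn' => ?_⟩
  have hinf : I₀ ⊓ I' ∈ pointIdeals F := inf_mem_pointIdeals hF hI₀ hI'
  have hninf : baseIdeal c ^ (n + 1) ≤ I₀ ⊓ I' := le_inf hn₀ hn'
  have hle : Nat.card (MvPolynomial Ω 𝒪 ⧸ (I₀ ⊓ I')) ≤ Nat.card (MvPolynomial Ω 𝒪 ⧸ I₀) := by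
    have h1 : Nat.card (MvPolynomial Ω 𝒪 ⧸ (I₀ ⊓ I')) ∈ vals := ⟨_, ⟨hinf, hninf⟩, rfl⟩
    have h2 := le_csSup hbdd h1
    simpa only [← hcard] using h2
  haveI := finite_quotient_of_mem_pointIdeals hinf
  have hbij : Function.Bijective (Ideal.Quotient.factor (inf_le_left : I₀ ⊓ I' ≤ I₀)) :=
    Function.Surjective.bijective_of_nat_card_le (Ideal.Quotient.factor_surjective _) hle
  intro a ha
  have h0 : Ideal.Quotient.factor (inf_le_left : I₀ ⊓ I' ≤ I₀) (Ideal.Quotient.mk _ a) =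
      Ideal.Quotient.factor (inf_le_left : I₀ ⊓ I' ≤ I₀) 0 := by
    rw [Ideal.Quotient.factor_mk, map_zero, Ideal.Quotient.eq_zero_iff_mem]
    exact ha
  have h1 := hbij.1 h0
  rw [Ideal.Quotient.eq_zero_iff_mem] at h1
  exact h1.2

end Least

section Levels

variable {𝒪 : Type} [CommRing 𝒪] [IsDomain 𝒪] [IsDiscreteValuationRing 𝒪]
  [Finite (ResidueField 𝒪)]
  {Ω : Type} {F : ∀ (A : Type) [CommRing A] [IsLocalRing A] [Algebra 𝒪 A], Set (Ω → A)}
  {c : Ω → 𝒪}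
  (hF : IsPointFunctor 𝒪 Ω F c) {d : ℕ} (w : Fin d → Ω)
  (hw : ∀ I ∈ pointIdeals F, Algebra.adjoin 𝒪 (Set.range fun i => taut I (w i)) = ⊤)

/-- the least point ideal containing `𝔪ⁿ⁺¹` -/
noncomputable def levelIdeal (n : ℕ) : Ideal (MvPolynomial Ω 𝒪) :=
  Classical.choose (exists_least_pointIdeal hF w hw n)

theorem levelIdeal_mem (n : ℕ) : levelIdeal hF w hw n ∈ pointIdeals F :=
  (Classical.choose_spec (exists_least_pointIdeal hF w hw n)).1

theorem pow_le_levelIdeal (n : ℕ) : baseIdeal c ^ (n + 1) ≤ levelIdeal hF w hw n :=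
  (Classical.choose_spec (exists_least_pointIdeal hF w hw n)).2.1

theorem levelIdeal_le (n : ℕ) {I' : Ideal (MvPolynomial Ω 𝒪)} (hI' : I' ∈ pointIdeals F)
    (h : baseIdeal c ^ (n + 1) ≤ I') : levelIdeal hF w hw n ≤ I' :=
  (Classical.choose_spec (exists_least_pointIdeal hF w hw n)).2.2 I' hI' h

theorem levelIdeal_succ_le (n : ℕ) : levelIdeal hF w hw (n + 1) ≤ levelIdeal hF w hw n :=
  levelIdeal_le hF w hw (n + 1) (levelIdeal_mem hF w hw n)
    ((Ideal.pow_le_pow_right (by omega)).trans (pow_le_levelIdeal hF w hw n))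

theorem levelIdeal_le_sup (n : ℕ) :
    levelIdeal hF w hw n ≤ levelIdeal hF w hw (n + 1) ⊔ baseIdeal c ^ (n + 1) := by
  refine levelIdeal_le hF w hw n ?_ le_sup_right
  refine mem_pointIdeals_of_le hF (levelIdeal_mem hF w hw (n + 1)) le_sup_left ?_
  intro htop
  have hle : levelIdeal hF w hw (n + 1) ⊔ baseIdeal c ^ (n + 1) ≤ baseIdeal c :=
    sup_le (le_baseIdeal_of_mem_pointIdeals hF (levelIdeal_mem hF w hw (n + 1)))
      (Ideal.pow_le_self (by omega))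
  rw [htop, top_le_iff] at hle
  exact baseIdeal_ne_top c hle

/-- the maps `θₙ : S → Λ ⧸ Iₙ` -/
noncomputable def levelTheta (n : ℕ) :
    MvPowerSeries (Fin d) 𝒪 →ₐ[𝒪] MvPolynomial Ω 𝒪 ⧸ levelIdeal hF w hw n :=
  theta hF w (levelIdeal_mem hF w hw n)

theorem levelTheta_surjective (n : ℕ) : Function.Surjective (levelTheta hF w hw n) :=
  theta_surjective hF w _ (hw _ (levelIdeal_mem hF w hw n))

theorem levelTheta_X (n : ℕ) (i : Fin d) :
    levelTheta hF w hw n (MvPowerSeries.X i) =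
      taut (levelIdeal hF w hw n) (w i) - algebraMap 𝒪 _ (c (w i)) :=
  theta_X hF w _ i

theorem factor_comp_levelTheta (n : ℕ) :
    (Ideal.Quotient.factorₐ 𝒪 (levelIdeal_succ_le hF w hw n)).comp (levelTheta hF w hw (n + 1)) =
      levelTheta hF w hw n :=
  factor_comp_theta hF w _ _ _

/-- the ideals `Jₙ = ker θₙ` of `S` -/
noncomputable def levelKer (n : ℕ) : Ideal (MvPowerSeries (Fin d) 𝒪) :=
  RingHom.ker (levelTheta hF w hw n)

theorem mem_levelKer {n : ℕ} {s : MvPowerSeries (Fin d) 𝒪} :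
    s ∈ levelKer hF w hw n ↔ levelTheta hF w hw n s = 0 := RingHom.mem_ker

theorem pow_le_levelKer (n : ℕ) :
    maximalIdeal (MvPowerSeries (Fin d) 𝒪) ^ (n + 1) ≤ levelKer hF w hw n :=
  maximalIdeal_pow_le_ker_theta hF w _ (levelTheta_surjective hF w hw n)
    (pow_le_levelIdeal hF w hw n)

theorem levelKer_succ_le (n : ℕ) : levelKer hF w hw (n + 1) ≤ levelKer hF w hw n := by
  intro s hs
  rw [mem_levelKer] at hs ⊢
  rw [← factor_comp_levelTheta hF w hw n, AlgHom.comp_apply, hs, map_zero]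

theorem levelKer_le_sup (n : ℕ) :
    levelKer hF w hw n ≤
      levelKer hF w hw (n + 1) ⊔ maximalIdeal (MvPowerSeries (Fin d) 𝒪) ^ (n + 1) := by
  intro s hs
  rw [mem_levelKer] at hs
  obtain ⟨hloc, hT, hx⟩ := id (levelIdeal_mem hF w hw (n + 1))
  haveI := hloc
  -- θ' s is the class of some a ∈ Λ
  obtain ⟨a, ha⟩ := Ideal.Quotient.mk_surjective (levelTheta hF w hw (n + 1) s)
  have ha0 : a ∈ levelIdeal hF w hw n := by
    rw [← Ideal.Quotient.eq_zero_iff_mem, ← hs, ← factor_comp_levelTheta hF w hw n,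
      AlgHom.comp_apply, ← ha]
    rfl
  obtain ⟨a₁, ha₁, a₂, ha₂, rfl⟩ := Submodule.mem_sup.1 (levelIdeal_le_sup hF w hw n ha0)
  have hmem : levelTheta hF w hw (n + 1) s ∈
      (maximalIdeal (MvPolynomial Ω 𝒪 ⧸ levelIdeal hF w hw (n + 1))) ^ (n + 1) := by
    rw [← ha, map_add, Ideal.Quotient.eq_zero_iff_mem.2 ha₁, zero_add,
      maximalIdeal_quotient_eq_map hF hT hx, ← Ideal.map_pow]
    exact Ideal.mem_map_of_mem _ ha₂
  have hmap : (maximalIdeal (MvPowerSeries (Fin d) 𝒪)).map (levelTheta hF w hw (n + 1)) =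
      maximalIdeal (MvPolynomial Ω 𝒪 ⧸ levelIdeal hF w hw (n + 1)) :=
    map_maximalIdeal_of_surjective (levelTheta hF w hw (n + 1)).toRingHom
      (levelTheta_surjective hF w hw (n + 1))
  rw [← hmap, ← Ideal.map_pow] at hmem
  obtain ⟨t, ht, hts⟩ := (Ideal.mem_map_iff_of_surjective _
    (levelTheta_surjective hF w hw (n + 1))).1 hmem
  have : s = (s - t) + t := by ring
  rw [this]
  refine Submodule.add_mem_sup ?_ ht
  rw [mem_levelKer, map_sub, hts, sub_self]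

end Levels

section Ring

variable {𝒪 : Type} [CommRing 𝒪] [IsDomain 𝒪] [IsDiscreteValuationRing 𝒪]
  [IsAdicComplete (maximalIdeal 𝒪) 𝒪] [Finite (ResidueField 𝒪)]
  {Ω : Type} {F : ∀ (A : Type) [CommRing A] [IsLocalRing A] [Algebra 𝒪 A], Set (Ω → A)}
  {c : Ω → 𝒪}
  (hF : IsPointFunctor 𝒪 Ω F c) {d : ℕ} (w : Fin d → Ω)
  (hw : ∀ I ∈ pointIdeals F, Algebra.adjoin 𝒪 (Set.range fun i => taut I (w i)) = ⊤)

/-- `J = ⋂ Jₙ` -/
noncomputable def univKer : Ideal (MvPowerSeries (Fin d) 𝒪) := ⨅ n, levelKer hF w hw n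

theorem univKer_le (n : ℕ) : univKer hF w hw ≤ levelKer hF w hw n := iInf_le _ n

theorem levelKer_le_maximalIdeal (n : ℕ) :
    levelKer hF w hw n ≤ maximalIdeal (MvPowerSeries (Fin d) 𝒪) := by
  obtain ⟨hloc, hT, hx⟩ := id (levelIdeal_mem hF w hw n)
  haveI := hloc
  refine le_maximalIdeal ?_
  exact RingHom.ker_ne_top _

theorem univKer_ne_top : univKer hF w hw ≠ ⊤ := by
  intro h
  have := (univKer_le hF w hw 0).trans (levelKer_le_maximalIdeal hF w hw 0)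
  rw [h, top_le_iff] at this
  exact (maximalIdeal.isMaximal _).ne_top this

/-- Mittag-Leffler: `Jₙ ≤ J ⊔ 𝔪ⁿ⁺¹`. -/
theorem levelKer_le_univKer_sup (n : ℕ) :
    levelKer hF w hw n ≤
      univKer hF w hw ⊔ maximalIdeal (MvPowerSeries (Fin d) 𝒪) ^ (n + 1) := by
  haveI := mvPowerSeries_isAdicComplete 𝒪 d
  exact ML_le_iInf_sup _ _ (pow_le_levelKer hF w hw) (levelKer_succ_le hF w hw)
    (levelKer_le_sup hF w hw) n

/-- lifts of the tautological points to `S`, compatible for all levels -/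
theorem exists_univPointS (ω : Ω) :
    ∃ s : MvPowerSeries (Fin d) 𝒪,
      ∀ n, levelTheta hF w hw n s = taut (levelIdeal hF w hw n) ω := by
  haveI := mvPowerSeries_isAdicComplete 𝒪 d
  choose t ht using fun n => levelTheta_surjective hF w hw n (taut (levelIdeal hF w hw n) ω)
  have hstep : ∀ n, t (n + 1) - t n ∈ levelKer hF w hw n := by
    intro n
    rw [mem_levelKer, map_sub, ht n, ← factor_comp_levelTheta hF w hw n, AlgHom.comp_apply,
      ht (n + 1), sub_eq_zero]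
    rfl
  obtain ⟨s, hs, -⟩ := ML_exists_limit _ _ (pow_le_levelKer hF w hw) (levelKer_succ_le hF w hw)
    (levelKer_le_sup hF w hw) t hstep 0
  refine ⟨s, fun n => ?_⟩
  have := hs n
  rw [mem_levelKer, map_sub, sub_eq_zero] at this
  rw [this, ht n]

/-- the chosen lift -/
noncomputable def univPointS (ω : Ω) : MvPowerSeries (Fin d) 𝒪 :=
  Classical.choose (exists_univPointS hF w hw ω)

theorem levelTheta_univPointS (ω : Ω) (n : ℕ) :
    levelTheta hF w hw n (univPointS hF w hw ω) = taut (levelIdeal hF w hw n) ω :=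
  Classical.choose_spec (exists_univPointS hF w hw ω) n

/-- the universal ring `R = S ⧸ J` -/
abbrev UnivRing : Type := MvPowerSeries (Fin d) 𝒪 ⧸ univKer hF w hw

/-- the universal point -/
noncomputable def univPoint (ω : Ω) : UnivRing hF w hw :=
  Ideal.Quotient.mk _ (univPointS hF w hw ω)

instance : IsLocalRing (UnivRing hF w hw) :=
  isLocalRing_quotient_of_ne_top _ (univKer_ne_top hF w hw)

instance : IsNoetherianRing (UnivRing hF w hw) := inferInstance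

instance : IsLocalHom (algebraMap 𝒪 (UnivRing hF w hw)) := by
  haveI := isLocalHom_algebraMap_mvPowerSeries (𝒪 := 𝒪) d
  haveI : IsLocalHom (Ideal.Quotient.mk (univKer hF w hw)) := isLocalHom_quotient_mk _
  have : algebraMap 𝒪 (UnivRing hF w hw) =
      (Ideal.Quotient.mk (univKer hF w hw)).comp (algebraMap 𝒪 (MvPowerSeries (Fin d) 𝒪)) := rfl
  rw [this]
  infer_instance

instance : IsAdicComplete (maximalIdeal (UnivRing hF w hw)) (UnivRing hF w hw) := by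
  haveI := mvPowerSeries_isAdicComplete 𝒪 d
  haveI : IsLocalHom (algebraMap (MvPowerSeries (Fin d) 𝒪) (UnivRing hF w hw)) :=
    isLocalHom_quotient_mk _
  exact IsLocalRing.isAdicComplete_of_module_finite (𝒪 := MvPowerSeries (Fin d) 𝒪)

theorem univRing_residue_surjective :
    Function.Surjective (residue (UnivRing hF w hw) ∘ algebraMap 𝒪 (UnivRing hF w hw)) :=
  residue_surjective_of_surjective (residue_surjective_mvPowerSeries d)
    (Ideal.Quotient.mkₐ 𝒪 (univKer hF w hw)) Ideal.Quotient.mk_surjective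

end Ring

end Fermat.Agent.S53
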