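import Mathlib
import Fermat.Agent.S53.ProRepCore

/-!
# S53 chunk D8: every Artinian quotient of the universal point is a point
-/

set_option linter.unusedSectionVars false
set_option linter.style.haveILetI false

namespace Fermat.Agent.S53

open IsLocalRing GaloisRep

variable {𝒪 : Type} [CommRing 𝒪] [IsDomain 𝒪] [IsDiscreteValuationRing 𝒪]
  [IsAdicComplete (maximalIdeal 𝒪) 𝒪] [Finite (ResidueField 𝒪)]
  {Ω : Type} {F : ∀ (A : Type) [CommRing A] [IsLocalRing A] [Algebra 𝒪 A], Set (Ω → A)}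
  {c : Ω → 𝒪}
  (hF : IsPointFunctor 𝒪 Ω F c) {d : ℕ} (w : Fin d → Ω)
  (hw : ∀ I ∈ pointIdeals F, Algebra.adjoin 𝒪 (Set.range fun i => taut I (w i)) = ⊤)

theorem univPoint_mem_of_surjective (B : Type) [CommRing B] [IsLocalRing B] [Algebra 𝒪 B]
    (hB : IsArtinianTestAlgebra 𝒪 B) (q : UnivRing hF w hw →ₐ[𝒪] B)
    (hq : IsLocalHom (q : UnivRing hF w hw →+* B)) (hsurj : Function.Surjective q) :
    (fun ω => q (univPoint hF w hw ω)) ∈ F B := by
  obtain ⟨n, hn⟩ := IsArtinianTestAlgebra.exists_pow_maximalIdeal_eq_bot hB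
  obtain ⟨hloc, hT, hx⟩ := id (levelIdeal_mem hF w hw n)
  haveI := hloc
  -- the composite `g : S → R → B`
  let g : MvPowerSeries (Fin d) 𝒪 →ₐ[𝒪] B := q.comp (Ideal.Quotient.mkₐ 𝒪 (univKer hF w hw))
  have hgsurj : Function.Surjective g := hsurj.comp Ideal.Quotient.mk_surjective
  haveI hgloc : IsLocalHom (g : MvPowerSeries (Fin d) 𝒪 →+* B) :=
    isLocalHom_of_surjective_algHom g hgsurj
  have hgpow : ∀ s ∈ maximalIdeal (MvPowerSeries (Fin d) 𝒪) ^ (n + 1), g s = 0 := by
    intro s hs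
    have h1 : g s ∈ (maximalIdeal (MvPowerSeries (Fin d) 𝒪) ^ (n + 1)).map
        (g : MvPowerSeries (Fin d) 𝒪 →+* B) := Ideal.mem_map_of_mem _ hs
    rw [Ideal.map_pow] at h1
    have h2 : (maximalIdeal (MvPowerSeries (Fin d) 𝒪)).map
        (g : MvPowerSeries (Fin d) 𝒪 →+* B) ^ (n + 1) ≤ maximalIdeal B ^ (n + 1) :=
      Ideal.pow_right_mono (map_maximalIdeal_le _) _
    have h3 : maximalIdeal B ^ (n + 1) = ⊥ := by
      rw [pow_succ, hn, Ideal.bot_mul]
    have := h2 h1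
    rw [h3] at this
    simpa using this
  have hker : RingHom.ker (levelTheta hF w hw n).toRingHom ≤ RingHom.ker g.toRingHom := by
    intro s hs
    have hs' : s ∈ levelKer hF w hw n := hs
    obtain ⟨j, hj, a, ha, rfl⟩ := Submodule.mem_sup.1 (levelKer_le_univKer_sup hF w hw n hs')
    rw [RingHom.mem_ker]
    change g (j + a) = 0
    rw [map_add, hgpow a ha, add_zero]
    change q (Ideal.Quotient.mk _ j) = 0
    rw [Ideal.Quotient.eq_zero_iff_mem.2 hj, map_zero]
  let q' : MvPolynomial Ω 𝒪 ⧸ levelIdeal hF w hw n →ₐ[𝒪] B :=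
    AlgHom.liftOfSurjective (levelTheta hF w hw n) (levelTheta_surjective hF w hw n) g hker
  have hq'surj : Function.Surjective q' := by
    intro b
    obtain ⟨s, rfl⟩ := hgsurj b
    exact ⟨levelTheta hF w hw n s, AlgHom.liftOfSurjective_apply _ _ _ _ _⟩
  have hq'loc : IsLocalHom (q' : MvPolynomial Ω 𝒪 ⧸ levelIdeal hF w hw n →+* B) :=
    isLocalHom_of_surjective_algHom q' hq'surj
  have hmem := hF.map hT hB q' hq'loc _ hx
  have heq : (fun ω => q' (taut (levelIdeal hF w hw n) ω)) =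
      fun ω => q (univPoint hF w hw ω) := by
    funext ω
    rw [← levelTheta_univPointS hF w hw ω n]
    exact AlgHom.liftOfSurjective_apply _ _ _ _ _
  rwa [heq] at hmem

end Fermat.Agent.S53
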