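import Mathlib
import Fermat.Agent.S53.ProRepCore

/-!
# S53 chunk D9: universality of the universal point (owner: helper76)
-/

set_option linter.unusedSectionVars false
set_option linter.style.haveILetI false
set_option linter.unusedVariables false

namespace Fermat.Agent.S53

open IsLocalRing GaloisRep

section General

variable {𝒪 : Type} [CommRing 𝒪] [IsDomain 𝒪] [IsDiscreteValuationRing 𝒪]
  [Finite (ResidueField 𝒪)]
  {Ω : Type} {F : ∀ (A : Type) [CommRing A] [IsLocalRing A] [Algebra 𝒪 A], Set (Ω → A)}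
  {c : Ω → 𝒪}

/-- the maximal ideal of `A ⧸ 𝔪ⁿ` has vanishing `n`-th power -/
theorem d9_maximalIdeal_quotient_pow_pow (A : Type) [CommRing A] [IsLocalRing A] (n : ℕ)
    [IsLocalRing (A ⧸ maximalIdeal A ^ n)] :
    maximalIdeal (A ⧸ maximalIdeal A ^ n) ^ n = ⊥ := by
  rw [← map_maximalIdeal_of_surjective (Ideal.Quotient.mk (maximalIdeal A ^ n))
    Ideal.Quotient.mk_surjective, ← Ideal.map_pow, Ideal.map_quotient_self]

/-- `aeval y` kills `𝔪ⁿ` if `𝔪_Bⁿ = 0`. -/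
theorem d9_pow_baseIdeal_le_ker_aeval (hF : IsPointFunctor 𝒪 Ω F c)
    {B : Type} [CommRing B] [IsLocalRing B] [Algebra 𝒪 B]
    (hB : IsArtinianTestAlgebra 𝒪 B) {y : Ω → B} (hy : y ∈ F B) {n : ℕ}
    (hn : maximalIdeal B ^ n = ⊥) :
    baseIdeal c ^ n ≤ RingHom.ker (MvPolynomial.aeval y : MvPolynomial Ω 𝒪 →ₐ[𝒪] B) := by
  obtain ⟨hloc, hT, hx⟩ := ker_aeval_mem_pointIdeals hF hB hy
  haveI := hloc
  have hinj : Function.Injective
      (Ideal.kerLiftAlg (MvPolynomial.aeval y : MvPolynomial Ω 𝒪 →ₐ[𝒪] B)) :=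
    Ideal.kerLiftAlg_injective _
  haveI hlh := IsArtinianTestAlgebra.isLocalHom_of_injective hB _ hinj
  have hbase : (baseIdeal c).map (MvPolynomial.aeval y : MvPolynomial Ω 𝒪 →ₐ[𝒪] B) ≤
      maximalIdeal B := by
    rw [Ideal.map_le_iff_le_comap]
    intro p hp
    rw [← comap_maximalIdeal_eq_baseIdeal hF hT hx, Ideal.mem_comap] at hp
    rw [Ideal.mem_comap]
    have := map_nonunit
      (Ideal.kerLiftAlg (MvPolynomial.aeval y : MvPolynomial Ω 𝒪 →ₐ[𝒪] B) : _ →+* B) _ hp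
    rwa [RingHom.coe_coe, Ideal.kerLiftAlg_mk] at this
  intro p hp
  rw [RingHom.mem_ker]
  have h1 : (MvPolynomial.aeval y : MvPolynomial Ω 𝒪 →ₐ[𝒪] B) p ∈
      (baseIdeal c ^ n).map (MvPolynomial.aeval y : MvPolynomial Ω 𝒪 →ₐ[𝒪] B) :=
    Ideal.mem_map_of_mem _ hp
  rw [Ideal.map_pow] at h1
  have h2 := Ideal.pow_right_mono hbase n h1
  rw [hn] at h2
  simpa using h2

/-- an `𝒪`-algebra map into a local ring whose residue field is generated by `𝒪` is local -/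
theorem d9_isLocalHom_of_residue_surjective {R A : Type} [CommRing R] [IsLocalRing R]
    [Algebra 𝒪 R] [CommRing A] [IsLocalRing A] [Algebra 𝒪 A]
    (hres : Function.Surjective (residue A ∘ algebraMap 𝒪 A)) (φ : R →ₐ[𝒪] A) :
    IsLocalHom (φ : R →+* A) := by
  let ψ : R →+* ResidueField A := (residue A).comp (φ : R →+* A)
  have hψ : Function.Surjective ψ := by
    intro z
    obtain ⟨a, ha⟩ := hres z
    refine ⟨algebraMap 𝒪 R a, ?_⟩
    simp only [ψ, RingHom.comp_apply, RingHom.coe_coe, AlgHom.commutes]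
    exact ha
  have hmax : (RingHom.ker ψ).IsMaximal := RingHom.ker_isMaximal_of_surjective ψ hψ
  have hker : RingHom.ker ψ = maximalIdeal R := IsLocalRing.eq_maximalIdeal hmax
  constructor
  intro r hr
  by_contra hnu
  have hr' : r ∈ RingHom.ker ψ := by rw [hker]; exact hnu
  rw [RingHom.mem_ker] at hr'
  have : (φ r) ∈ maximalIdeal A := by
    rw [← residue_eq_zero_iff]
    exact hr'
  exact this hr

end General

section Univ

variable {𝒪 : Type} [CommRing 𝒪] [IsDomain 𝒪] [IsDiscreteValuationRing 𝒪]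
  [IsAdicComplete (maximalIdeal 𝒪) 𝒪] [Finite (ResidueField 𝒪)]
  {Ω : Type} {F : ∀ (A : Type) [CommRing A] [IsLocalRing A] [Algebra 𝒪 A], Set (Ω → A)}
  {c : Ω → 𝒪}
  (hF : IsPointFunctor 𝒪 Ω F c) {d : ℕ} (w : Fin d → Ω)
  (hw : ∀ I ∈ pointIdeals F, Algebra.adjoin 𝒪 (Set.range fun i => taut I (w i)) = ⊤)

/-- the class of `X i` in the universal ring is `univPoint (w i) - c (w i)` -/
theorem d9_mk_X_eq_univPoint (i : Fin d) :
    (Ideal.Quotient.mk (univKer hF w hw) (MvPowerSeries.X i) : UnivRing hF w hw) =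
      univPoint hF w hw (w i) - algebraMap 𝒪 _ (c (w i)) := by
  rw [eq_sub_iff_add_eq, univPoint]
  have halg : algebraMap 𝒪 (UnivRing hF w hw) (c (w i)) =
      Ideal.Quotient.mk (univKer hF w hw) (algebraMap 𝒪 _ (c (w i))) := rfl
  rw [halg, ← map_add, Ideal.Quotient.eq, univKer, Ideal.mem_iInf]
  intro n
  rw [mem_levelKer, map_sub, map_add, levelTheta_X, levelTheta_univPointS, AlgHom.commutes]
  ring

/-- two algebra maps out of the universal ring that agree on the classes of the `X i`, with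
nilpotent values, are equal -/
theorem d9_algHom_ext_of_nilpotent {B : Type} [CommRing B] [Algebra 𝒪 B]
    (ψ ψ' : UnivRing hF w hw →ₐ[𝒪] B)
    (h : ∀ i, ψ (Ideal.Quotient.mk _ (MvPowerSeries.X i)) =
      ψ' (Ideal.Quotient.mk _ (MvPowerSeries.X i)))
    (hnil : ∀ i, IsNilpotent (ψ (Ideal.Quotient.mk _ (MvPowerSeries.X i)))) : ψ = ψ' := by
  have key : ψ.comp (Ideal.Quotient.mkₐ 𝒪 (univKer hF w hw)) =
      ψ'.comp (Ideal.Quotient.mkₐ 𝒪 (univKer hF w hw)) :=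
    algHom_mvPowerSeries_ext _ _ (fun i => h i) (fun i => hnil i)
  apply AlgHom.ext
  intro r
  obtain ⟨s, rfl⟩ := Ideal.Quotient.mk_surjective r
  exact congrArg (fun f => f s) key

/-- the level maps `φₙ : R → A ⧸ 𝔪ⁿ⁺¹` -/
theorem d9_exists_levelMap (A : Type) [CommRing A] [IsLocalRing A] [IsNoetherianRing A]
    [Algebra 𝒪 A] [IsLocalHom (algebraMap 𝒪 A)]
    (hres : Function.Surjective (residue A ∘ algebraMap 𝒪 A)) (y : Ω → A)
    (hy : ∀ (B : Type) [CommRing B] [IsLocalRing B] [Algebra 𝒪 B], IsArtinianTestAlgebra 𝒪 B →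
        ∀ (q : A →ₐ[𝒪] B), IsLocalHom (q : A →+* B) → Function.Surjective q →
          (fun ω => q (y ω)) ∈ F B) (n : ℕ) :
    ∃ φn : UnivRing hF w hw →ₐ[𝒪] A ⧸ maximalIdeal A ^ (n + 1),
      ∀ ω, φn (univPoint hF w hw ω) = Ideal.Quotient.mk _ (y ω) := by
  haveI hloc := isLocalRing_quotient_pow (A := A) (n := n + 1) (by omega)
  have hTn : IsArtinianTestAlgebra 𝒪 (A ⧸ maximalIdeal A ^ (n + 1)) :=
    isArtinianTestAlgebra_quotient_pow inferInstance hres (n + 1)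
  have hqn : IsLocalHom (Ideal.Quotient.mkₐ 𝒪 (maximalIdeal A ^ (n + 1)) :
      A →+* A ⧸ maximalIdeal A ^ (n + 1)) := isLocalHom_quotient_mk _
  have hyn := hy _ hTn (Ideal.Quotient.mkₐ 𝒪 (maximalIdeal A ^ (n + 1))) hqn
    Ideal.Quotient.mk_surjective
  have hpow := d9_maximalIdeal_quotient_pow_pow A (n + 1)
  have hK := d9_pow_baseIdeal_le_ker_aeval hF hTn hyn hpow
  have hIK := levelIdeal_le hF w hw n (ker_aeval_mem_pointIdeals hF hTn hyn) hK
  let gn : MvPolynomial Ω 𝒪 ⧸ levelIdeal hF w hw n →ₐ[𝒪] A ⧸ maximalIdeal A ^ (n + 1) :=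
    Ideal.Quotient.liftₐ (levelIdeal hF w hw n) (MvPolynomial.aeval _) (fun a ha => hIK ha)
  let ρn : UnivRing hF w hw →ₐ[𝒪] MvPolynomial Ω 𝒪 ⧸ levelIdeal hF w hw n :=
    Ideal.Quotient.liftₐ (univKer hF w hw) (levelTheta hF w hw n)
      (fun s hs => univKer_le hF w hw n hs)
  refine ⟨gn.comp ρn, fun ω => ?_⟩
  have h1 : ρn (univPoint hF w hw ω) = taut (levelIdeal hF w hw n) ω := by
    rw [← levelTheta_univPointS hF w hw ω n]
    rfl
  rw [AlgHom.comp_apply, h1]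
  change gn (Ideal.Quotient.mk _ (MvPolynomial.X ω)) = _
  exact MvPolynomial.aeval_X (R := 𝒪)
    (fun ω => (Ideal.Quotient.mkₐ 𝒪 (maximalIdeal A ^ (n + 1))) (y ω)) ω

theorem univPoint_universal (A : Type) [CommRing A] [IsLocalRing A] [IsNoetherianRing A]
    [IsAdicComplete (maximalIdeal A) A] [Algebra 𝒪 A] [IsLocalHom (algebraMap 𝒪 A)]
    (hres : Function.Surjective (residue A ∘ algebraMap 𝒪 A)) (y : Ω → A)
    (hy : ∀ (B : Type) [CommRing B] [IsLocalRing B] [Algebra 𝒪 B], IsArtinianTestAlgebra 𝒪 B →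
        ∀ (q : A →ₐ[𝒪] B), IsLocalHom (q : A →+* B) → Function.Surjective q →
          (fun ω => q (y ω)) ∈ F B) :
    ∃ φ : UnivRing hF w hw →ₐ[𝒪] A, IsLocalHom (φ : UnivRing hF w hw →+* A) ∧
      (∀ ω, φ (univPoint hF w hw ω) = y ω) ∧
      ∀ φ' : UnivRing hF w hw →ₐ[𝒪] A, IsLocalHom (φ' : UnivRing hF w hw →+* A) →
        (∀ ω, φ' (univPoint hF w hw ω) = y ω) → φ' = φ := by
  classical
  choose φn hφn using d9_exists_levelMap hF w hw A hres y hy
  -- `y ω - c ω ∈ 𝔪_A`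
  have hyc : ∀ ω, y ω - algebraMap 𝒪 A (c ω) ∈ maximalIdeal A := by
    intro ω
    haveI hloc := isLocalRing_quotient_pow (A := A) (n := 0 + 1) (by omega)
    have hT0 : IsArtinianTestAlgebra 𝒪 (A ⧸ maximalIdeal A ^ (0 + 1)) :=
      isArtinianTestAlgebra_quotient_pow inferInstance hres (0 + 1)
    haveI hq0 : IsLocalHom (Ideal.Quotient.mk (maximalIdeal A ^ (0 + 1))) :=
      isLocalHom_quotient_mk _
    have hq0' : IsLocalHom (Ideal.Quotient.mkₐ 𝒪 (maximalIdeal A ^ (0 + 1)) :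
      A →+* A ⧸ maximalIdeal A ^ (0 + 1)) := hq0
    have hy0 := hy _ hT0 (Ideal.Quotient.mkₐ 𝒪 (maximalIdeal A ^ (0 + 1))) hq0'
      Ideal.Quotient.mk_surjective
    have h := hF.residue_eq hT0 _ hy0 ω
    rw [← maximalIdeal_comap (Ideal.Quotient.mk (maximalIdeal A ^ (0 + 1))), Ideal.mem_comap,
      map_sub]
    exact h
  let f : ∀ k : ℕ, UnivRing hF w hw →ₐ[𝒪] A ⧸ maximalIdeal A ^ k := fun k =>
    (Ideal.Quotient.factorₐ 𝒪 (Ideal.pow_le_pow_right (Nat.le_succ k))).comp (φn k)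
  have hfpt : ∀ k ω, f k (univPoint hF w hw ω) = Ideal.Quotient.mk _ (y ω) := by
    intro k ω
    simp only [f, AlgHom.comp_apply, hφn]
    rfl
  have hmkX : ∀ {B : Type} [CommRing B] [Algebra 𝒪 B] (ψ : UnivRing hF w hw →ₐ[𝒪] B) (i : Fin d),
      ψ (Ideal.Quotient.mk _ (MvPowerSeries.X i)) =
        ψ (univPoint hF w hw (w i)) - algebraMap 𝒪 B (c (w i)) := by
    intro B _ _ ψ i
    rw [d9_mk_X_eq_univPoint, map_sub, AlgHom.commutes]
  have hnilk : ∀ k ω, IsNilpotent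
      (Ideal.Quotient.mk (maximalIdeal A ^ k) (y ω) - algebraMap 𝒪 _ (c ω)) := by
    intro k ω
    refine ⟨k, ?_⟩
    have : (Ideal.Quotient.mk (maximalIdeal A ^ k) (y ω) - algebraMap 𝒪 _ (c ω)) =
        Ideal.Quotient.mk (maximalIdeal A ^ k) (y ω - algebraMap 𝒪 A (c ω)) := by
      rw [map_sub]; rfl
    rw [this, ← map_pow, Ideal.Quotient.eq_zero_iff_mem]
    exact Ideal.pow_mem_pow (hyc ω) k
  have hf : ∀ {m n : ℕ} (hle : m ≤ n),
      (Ideal.Quotient.factorₐ 𝒪 (Ideal.pow_le_pow_right hle)).comp (f n) = f m := by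
    intro m n hle
    refine d9_algHom_ext_of_nilpotent hF w hw _ _ (fun i => ?_) (fun i => ?_)
    · rw [hmkX, hmkX, AlgHom.comp_apply, hfpt, hfpt]
      rfl
    · rw [hmkX, AlgHom.comp_apply, hfpt]
      exact hnilk m (w i)
  let φ : UnivRing hF w hw →ₐ[𝒪] A := IsAdicComplete.liftAlgHom (maximalIdeal A) f hf
  have hφmk : ∀ k r, Ideal.Quotient.mk (maximalIdeal A ^ k) (φ r) = f k r := fun k r =>
    IsAdicComplete.mk_liftAlgHom (maximalIdeal A) f hf k r
  have hφpt : ∀ ω, φ (univPoint hF w hw ω) = y ω := by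
    intro ω
    rw [← sub_eq_zero]
    refine IsHausdorff.haus (I := maximalIdeal A) inferInstance _ (fun k => ?_)
    rw [SModEq.zero, smul_eq_mul, Ideal.mul_top, ← Ideal.Quotient.eq_zero_iff_mem, map_sub,
      hφmk, hfpt, sub_self]
  refine ⟨φ, d9_isLocalHom_of_residue_surjective hres φ, hφpt, fun φ' hφ' h' => ?_⟩
  refine IsAdicComplete.algHom_ext (maximalIdeal A) (fun k => ?_)
  refine d9_algHom_ext_of_nilpotent hF w hw _ _ (fun i => ?_) (fun i => ?_)
  · rw [hmkX, hmkX, AlgHom.comp_apply, AlgHom.comp_apply, h', hφpt]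
  · rw [hmkX, AlgHom.comp_apply, h']
    exact hnilk k (w i)

end Univ

end Fermat.Agent.S53
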