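import Mathlib
import Fermat.Agent.S53.Defs
import Fermat.Agent.S53.PowerSeries
import Fermat.Agent.S53.TestAlgebra
import Fermat.Agent.S53.ProRepIdeals
import Fermat.Agent.S53.ProRepCore
import Fermat.Agent.S53.ProRepD8
import Fermat.Agent.S53.ProRepD9

/-!
# S53 chunk D (owner: helper76): abstract pro-representability

Target: `exists_universalPoint`.  The construction is in `ProRepCore.lean` (D5–D7),
`ProRepD8.lean` and `ProRepD9.lean`.
-/

set_option linter.unusedSectionVars false
set_option linter.style.haveILetI false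

namespace Fermat.Agent.S53

open IsLocalRing GaloisRep

theorem exists_universalPoint
    (𝒪 : Type) [CommRing 𝒪] [IsDomain 𝒪] [IsDiscreteValuationRing 𝒪]
    [IsAdicComplete (maximalIdeal 𝒪) 𝒪] [Finite (ResidueField 𝒪)]
    (Ω : Type) (F : ∀ (A : Type) [CommRing A] [IsLocalRing A] [Algebra 𝒪 A], Set (Ω → A))
    (c : Ω → 𝒪) (hF : IsPointFunctor 𝒪 Ω F c) :
    Nonempty (UniversalPoint 𝒪 Ω F) := by
  classical
  obtain ⟨Ω₀, hΩ₀⟩ := exists_finset_adjoin_eq_top hF
  let w : Fin Ω₀.card → Ω := fun i => (Ω₀.equivFin.symm i : Ω)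
  have hw : ∀ I ∈ pointIdeals F, Algebra.adjoin 𝒪 (Set.range fun i => taut I (w i)) = ⊤ := by
    intro I hI
    rw [← hΩ₀ I hI]
    congr 1
    ext z
    constructor
    · rintro ⟨i, rfl⟩
      exact ⟨w i, (Ω₀.equivFin.symm i).2, rfl⟩
    · rintro ⟨ω, hω, rfl⟩
      exact ⟨Ω₀.equivFin ⟨ω, hω⟩, by simp [w]⟩
  exact ⟨{
    R := UnivRing hF w hw
    residue_surjective := univRing_residue_surjective hF w hw
    x := univPoint hF w hw
    mem_of_surjective := univPoint_mem_of_surjective hF w hw
    universal := univPoint_universal hF w hw }⟩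

end Fermat.Agent.S53
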