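import Mathlib

/-!
# S53 chunk "Rigid" (owner: helper32): rigidification of 2x2 lifts over a local ring

Pure linear algebra over a commutative local ring `A`.  `Y : Fin 3 → M₂(A)` plays the role of the
three matrices `r(g_j)` of a lift, `(a j, b j)` are the three normalised entries and `t j` the
prescribed values.

* `rigidJac Y a b` : the `3 × 3` Jacobian of `x ↦ ([X(x), Y j]_{a j, b j})_j`, `X(x) = !![x0, x1; x2, 0]`.
* `rigid_unique`  (N2): if `δ` is invertible, `δ * Y j = Y' j * δ`, `Y' j ≡ Y j mod 𝔪`, and the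
  normalised entries of `Y` and `Y'` agree, then `δ` is a scalar matrix.  (Any local ring, Nakayama.)
* `rigid_exists`  (N1): if `A` is complete, there is `γ ≡ 1 mod 𝔪` with
  `(γ * Y j * γ⁻¹) (a j) (b j) = t j`.  (Newton iteration.)
-/

namespace Fermat.Agent.S53

open Matrix IsLocalRing

section Basic

variable {A : Type*} [CommRing A]

/-- The matrix `!![x 0, x 1; x 2, 0]`. -/
def rigidEmb (x : Fin 3 → A) : Matrix (Fin 2) (Fin 2) A := !![x 0, x 1; x 2, 0]

/-- The commutator `[X(x), Z]`. -/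
def rigidComm (x : Fin 3 → A) (Z : Matrix (Fin 2) (Fin 2) A) : Matrix (Fin 2) (Fin 2) A :=
  rigidEmb x * Z - Z * rigidEmb x

/-- The `3 × 3` Jacobian matrix of the normalisation conditions. -/
def rigidJac (Y : Fin 3 → Matrix (Fin 2) (Fin 2) A) (a b : Fin 3 → Fin 2) :
    Matrix (Fin 3) (Fin 3) A :=
  fun j i => rigidComm (Pi.single i 1) (Y j) (a j) (b j)

lemma rigidComm_apply (x : Fin 3 → A) (Z : Matrix (Fin 2) (Fin 2) A) (i i' : Fin 2) :
    rigidComm x Z i i' = ∑ l, rigidComm (Pi.single l 1) Z i i' * x l := by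
  obtain ⟨p, q, s, u, rfl⟩ : ∃ p q s u, Z = !![p, q; s, u] := ⟨_, _, _, _, Matrix.eta_fin_two Z⟩
  fin_cases i <;> fin_cases i' <;>
    simp [rigidComm, rigidEmb, Fin.sum_univ_three, Pi.single_apply] <;>
    ring

lemma rigidJac_mulVec (Y : Fin 3 → Matrix (Fin 2) (Fin 2) A) (a b : Fin 3 → Fin 2)
    (x : Fin 3 → A) (j : Fin 3) :
    (rigidJac Y a b).mulVec x j = rigidComm x (Y j) (a j) (b j) := by
  rw [rigidComm_apply]
  simp [Matrix.mulVec, dotProduct, rigidJac]

lemma one_add_rigidEmb_det (x : Fin 3 → A) :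
    (1 + rigidEmb x).det = 1 + x 0 - x 1 * x 2 := by
  simp [rigidEmb, Matrix.det_fin_two, Matrix.one_fin_two]

/-- All entries of a `2 × 2` matrix lie in the ideal `I`. -/
def MatMem (I : Ideal A) (M : Matrix (Fin 2) (Fin 2) A) : Prop := ∀ i j, M i j ∈ I

lemma MatMem.mono {I J : Ideal A} (h : I ≤ J) {M : Matrix (Fin 2) (Fin 2) A} (hM : MatMem I M) :
    MatMem J M := fun i j => h (hM i j)

lemma MatMem.add {I : Ideal A} {M N : Matrix (Fin 2) (Fin 2) A} (hM : MatMem I M)
    (hN : MatMem I N) : MatMem I (M + N) := fun i j => by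
  simpa using I.add_mem (hM i j) (hN i j)

lemma MatMem.sub {I : Ideal A} {M N : Matrix (Fin 2) (Fin 2) A} (hM : MatMem I M)
    (hN : MatMem I N) : MatMem I (M - N) := fun i j => by
  simpa using I.sub_mem (hM i j) (hN i j)

lemma MatMem.neg {I : Ideal A} {M : Matrix (Fin 2) (Fin 2) A} (hM : MatMem I M) :
    MatMem I (-M) := fun i j => by
  simpa using I.neg_mem (hM i j)

lemma MatMem.zero (I : Ideal A) : MatMem I (0 : Matrix (Fin 2) (Fin 2) A) := fun i j => by
  simp

lemma MatMem.mul_right {I : Ideal A} {M : Matrix (Fin 2) (Fin 2) A} (hM : MatMem I M)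
    (N : Matrix (Fin 2) (Fin 2) A) : MatMem I (M * N) := fun i j => by
  rw [Matrix.mul_apply]
  exact I.sum_mem fun l _ => I.mul_mem_right _ (hM i l)

lemma MatMem.mul_left {I : Ideal A} {M : Matrix (Fin 2) (Fin 2) A} (hM : MatMem I M)
    (N : Matrix (Fin 2) (Fin 2) A) : MatMem I (N * M) := fun i j => by
  rw [Matrix.mul_apply]
  exact I.sum_mem fun l _ => I.mul_mem_left _ (hM l j)

lemma MatMem.mul {I J : Ideal A} {M N : Matrix (Fin 2) (Fin 2) A} (hM : MatMem I M)
    (hN : MatMem J N) : MatMem (I * J) (M * N) := fun i j => by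
  rw [Matrix.mul_apply]
  exact (I * J).sum_mem fun l _ => Ideal.mul_mem_mul (hM i l) (hN l j)

lemma matMem_rigidEmb {I : Ideal A} {x : Fin 3 → A} (hx : ∀ i, x i ∈ I) :
    MatMem I (rigidEmb x) := by
  intro i j
  fin_cases i <;> fin_cases j <;> simp [rigidEmb, hx]

lemma matMem_rigidComm {I : Ideal A} {x : Fin 3 → A} (hx : ∀ i, x i ∈ I)
    (Z : Matrix (Fin 2) (Fin 2) A) : MatMem I (rigidComm x Z) :=
  ((matMem_rigidEmb hx).mul_right Z).sub ((matMem_rigidEmb hx).mul_left Z)

/-- If `Λ` is invertible and `Λ x` has entries in `I`, so has `x`. -/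
lemma rigid_mem_of_mulVec_mem {n : Type*} [Fintype n] [DecidableEq n] {Λ : Matrix n n A}
    (hΛ : IsUnit Λ.det) {I : Ideal A} {x : n → A} (h : ∀ j, Λ.mulVec x j ∈ I) (i : n) :
    x i ∈ I := by
  have hx : x = Λ⁻¹.mulVec (Λ.mulVec x) := by
    rw [Matrix.mulVec_mulVec, Matrix.nonsing_inv_mul _ hΛ, Matrix.one_mulVec]
  rw [hx]
  simp only [Matrix.mulVec, dotProduct]
  exact I.sum_mem fun l _ => I.mul_mem_left _ (h l)

end Basic

section Unique

variable {A : Type*} [CommRing A] [IsLocalRing A]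

lemma rigid_isUnit_one_add_of_mem_maximalIdeal {y : A} (h : y ∈ maximalIdeal A) : IsUnit (1 + y) := by
  by_contra hu
  have h1 : (1 + y) ∈ maximalIdeal A := (IsLocalRing.mem_maximalIdeal _).2 hu
  have h2 : (1 : A) ∈ maximalIdeal A := by
    have := (maximalIdeal A).sub_mem h1 h
    simp at this
  exact (IsLocalRing.mem_maximalIdeal _).1 h2 isUnit_one

lemma isUnit_one_add_rigidEmb_det {x : Fin 3 → A} (hx : ∀ i, x i ∈ maximalIdeal A) :
    IsUnit (1 + rigidEmb x).det := by
  rw [one_add_rigidEmb_det]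
  have h : x 0 - x 1 * x 2 ∈ maximalIdeal A :=
    (maximalIdeal A).sub_mem (hx 0) ((maximalIdeal A).mul_mem_left _ (hx 2))
  have := rigid_isUnit_one_add_of_mem_maximalIdeal h
  rwa [show (1 : A) + x 0 - x 1 * x 2 = 1 + (x 0 - x 1 * x 2) by ring]

/-- Core of (N2): a conjugating matrix of the form `1 + X(x)`, `x ∈ 𝔪³`, between two families
with the same normalised entries is the identity. -/
theorem rigid_unique_core (Y Y' : Fin 3 → Matrix (Fin 2) (Fin 2) A) (a b : Fin 3 → Fin 2)
    (hjac : IsUnit (rigidJac Y a b).det) (x : Fin 3 → A) (hx : ∀ i, x i ∈ maximalIdeal A)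
    (hconj : ∀ j, (1 + rigidEmb x) * Y j = Y' j * (1 + rigidEmb x))
    (hnorm : ∀ j, Y' j (a j) (b j) = Y j (a j) (b j)) : x = 0 := by
  set I : Ideal A := Ideal.span (Set.range x) with hI
  have hxI : ∀ i, x i ∈ I := fun i => Ideal.subset_span ⟨i, rfl⟩
  have hIm : I ≤ maximalIdeal A := by
    rw [hI, Ideal.span_le]
    rintro _ ⟨i, rfl⟩
    exact hx i
  have hu := isUnit_one_add_rigidEmb_det hx
  -- the difference `D j = Y' j - Y j` has entries in `I`
  have hD : ∀ j, (Y' j - Y j) * (1 + rigidEmb x) = rigidComm x (Y j) := by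
    intro j
    rw [sub_mul, ← hconj j, rigidComm]
    noncomm_ring
  have hDI : ∀ j, MatMem I (Y' j - Y j) := by
    intro j
    have h1 : Y' j - Y j = rigidComm x (Y j) * (1 + rigidEmb x)⁻¹ := by
      rw [← hD j, Matrix.mul_assoc, Matrix.mul_nonsing_inv _ hu, Matrix.mul_one]
    rw [h1]
    exact (matMem_rigidComm hxI _).mul_right _
  have hII : ∀ j, (rigidJac Y a b).mulVec x j ∈ I * I := by
    intro j
    rw [rigidJac_mulVec, ← hD j, Matrix.mul_add, Matrix.mul_one, Matrix.add_apply,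
      Matrix.sub_apply, hnorm j, sub_self, zero_add]
    exact (hDI j).mul (matMem_rigidEmb hxI) _ _
  have hle : I ≤ I * I := by
    rw [hI, Ideal.span_le]
    rintro _ ⟨i, rfl⟩
    exact rigid_mem_of_mulVec_mem hjac hII i
  have hbot : I = ⊥ := by
    have := Submodule.eq_bot_of_le_smul_of_le_jacobson_bot I I
      (by rw [hI]; exact Submodule.fg_span (Set.finite_range x)) (by simpa using hle)
      (by rw [IsLocalRing.jacobson_eq_maximalIdeal ⊥ bot_ne_top]; exact hIm)
    exact this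
  funext i
  have := hxI i
  rw [hbot] at this
  simpa using this

/-- (N2) Uniqueness: an invertible matrix conjugating the family `Y` into a family `Y'` which is
congruent to `Y` modulo `𝔪` and has the same normalised entries is a scalar matrix. -/
theorem rigid_unique (Y Y' : Fin 3 → Matrix (Fin 2) (Fin 2) A) (a b : Fin 3 → Fin 2)
    (hjac : IsUnit (rigidJac Y a b).det) (δ : Matrix (Fin 2) (Fin 2) A) (hδ : IsUnit δ.det)
    (hconj : ∀ j, δ * Y j = Y' j * δ)
    (hcong : ∀ j, MatMem (maximalIdeal A) (Y' j - Y j))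
    (hnorm : ∀ j, Y' j (a j) (b j) = Y j (a j) (b j)) :
    δ 0 1 = 0 ∧ δ 1 0 = 0 ∧ δ 0 0 = δ 1 1 := by
  set s : A := δ 1 1 with hs
  set y : Fin 3 → A := ![δ 0 0 - δ 1 1, δ 0 1, δ 1 0] with hy
  have hδy : δ = s • (1 : Matrix (Fin 2) (Fin 2) A) + rigidEmb y := by
    ext i j
    fin_cases i <;> fin_cases j <;> simp [rigidEmb, hy, hs]
  have hcomm : ∀ Z : Matrix (Fin 2) (Fin 2) A, rigidComm y Z = δ * Z - Z * δ := by
    intro Z
    have h1 : rigidEmb y = δ - s • (1 : Matrix (Fin 2) (Fin 2) A) := by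
      rw [eq_sub_iff_add_eq, add_comm]; exact hδy.symm
    rw [rigidComm, h1, sub_mul, mul_sub, smul_mul_assoc, mul_smul_comm, Matrix.one_mul,
      Matrix.mul_one]
    abel
  have hym : ∀ i, y i ∈ maximalIdeal A := by
    apply rigid_mem_of_mulVec_mem hjac
    intro j
    rw [rigidJac_mulVec, hcomm, hconj j, ← sub_mul]
    exact (hcong j).mul_right δ _ _
  have hsu : IsUnit s := by
    by_contra hns
    have hsm : s ∈ maximalIdeal A := (IsLocalRing.mem_maximalIdeal _).2 hns
    have hdet : δ.det ∈ maximalIdeal A := by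
      rw [Matrix.det_fin_two]
      have h01 : δ 0 1 ∈ maximalIdeal A := by simpa [hy] using hym 1
      exact (maximalIdeal A).sub_mem ((maximalIdeal A).mul_mem_left _ hsm)
        ((maximalIdeal A).mul_mem_right _ h01)
    exact (IsLocalRing.mem_maximalIdeal _).1 hdet hδ
  obtain ⟨u, hu⟩ := hsu
  set x : Fin 3 → A := fun i => (↑u⁻¹ : A) * y i with hx
  have hxm : ∀ i, x i ∈ maximalIdeal A := fun i => (maximalIdeal A).mul_mem_left _ (hym i)
  have hx1 : (1 : Matrix (Fin 2) (Fin 2) A) + rigidEmb x = (↑u⁻¹ : A) • δ := by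
    rw [hδy, smul_add, smul_smul, ← hu, Units.inv_mul, one_smul]
    congr 1
    ext i j
    fin_cases i <;> fin_cases j <;> simp [rigidEmb, hx]
  have hx0 : x = 0 := by
    apply rigid_unique_core Y Y' a b hjac x hxm _ hnorm
    intro j
    rw [hx1, smul_mul_assoc, mul_smul_comm, hconj j]
  have hy0 : ∀ i, y i = 0 := by
    intro i
    have h := congrFun hx0 i
    simp only [hx, Pi.zero_apply] at h
    have h2 : (u : A) * ((↑u⁻¹ : A) * y i) = 0 := by rw [h, mul_zero]
    rwa [← mul_assoc, Units.mul_inv, one_mul] at h2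
  refine ⟨?_, ?_, ?_⟩
  · simpa [hy] using hy0 1
  · simpa [hy] using hy0 2
  · have := hy0 0
    simp only [hy, Matrix.cons_val_zero] at this
    exact sub_eq_zero.1 this

/-- Consequence of (N2): the conjugating matrix commutes with everything, so any two matrices
intertwined by it are equal. -/
theorem rigid_unique_eq (Y Y' : Fin 3 → Matrix (Fin 2) (Fin 2) A) (a b : Fin 3 → Fin 2)
    (hjac : IsUnit (rigidJac Y a b).det) (δ : Matrix (Fin 2) (Fin 2) A) (hδ : IsUnit δ.det)
    (hconj : ∀ j, δ * Y j = Y' j * δ)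
    (hcong : ∀ j, MatMem (maximalIdeal A) (Y' j - Y j))
    (hnorm : ∀ j, Y' j (a j) (b j) = Y j (a j) (b j))
    (Z Z' : Matrix (Fin 2) (Fin 2) A) (hZ : δ * Z = Z' * δ) : Z' = Z := by
  obtain ⟨h01, h10, h00⟩ := rigid_unique Y Y' a b hjac δ hδ hconj hcong hnorm
  have hδs : δ = (δ 1 1) • (1 : Matrix (Fin 2) (Fin 2) A) := by
    ext i j
    fin_cases i <;> fin_cases j <;> simp [h01, h10, h00]
  have hu : IsUnit (δ 1 1) := by
    have : δ.det = δ 1 1 * δ 1 1 := by rw [Matrix.det_fin_two, h01, h00]; ring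
    rw [this] at hδ
    exact isUnit_of_mul_isUnit_left hδ
  obtain ⟨u, hu⟩ := hu
  rw [hδs, smul_mul_assoc, mul_smul_comm, Matrix.one_mul, Matrix.mul_one, ← hu] at hZ
  have := congrArg (fun M => (↑u⁻¹ : A) • M) hZ
  simpa [smul_smul] using this.symm

end Unique

section Exists

variable {A : Type*} [CommRing A] [IsLocalRing A]

lemma MatMem.congr_mul {I : Ideal A} {M M' N N' : Matrix (Fin 2) (Fin 2) A}
    (hM : MatMem I (M - M')) (hN : MatMem I (N - N')) : MatMem I (M * N - M' * N') := by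
  have : M * N - M' * N' = (M - M') * N + M' * (N - N') := by noncomm_ring
  rw [this]
  exact (hM.mul_right N).add (hN.mul_left M')

lemma rigidEmb_map {B : Type*} [CommRing B] (f : A →+* B) (x : Fin 3 → A) :
    (rigidEmb x).map f = rigidEmb (fun i => f (x i)) := by
  ext i j
  fin_cases i <;> fin_cases j <;> simp [rigidEmb]

lemma rigidComm_map {B : Type*} [CommRing B] (f : A →+* B) (x : Fin 3 → A)
    (Z : Matrix (Fin 2) (Fin 2) A) :
    (rigidComm x Z).map f = rigidComm (fun i => f (x i)) (Z.map f) := by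
  rw [rigidComm, rigidComm, Matrix.map_sub (f := f) (by intro a b; exact map_sub f a b), Matrix.map_mul,
    Matrix.map_mul, rigidEmb_map]

/-- The Jacobian is compatible with ring homomorphisms. -/
lemma rigidJac_map {B : Type*} [CommRing B] (f : A →+* B)
    (Y : Fin 3 → Matrix (Fin 2) (Fin 2) A) (a b : Fin 3 → Fin 2) :
    (rigidJac Y a b).map f = rigidJac (fun j => (Y j).map f) a b := by
  ext j i
  have h1 : (fun l => f ((Pi.single i 1 : Fin 3 → A) l)) = (Pi.single i 1 : Fin 3 → B) := by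
    funext l
    by_cases hl : l = i
    · subst hl; simp
    · simp [hl]
  have h2 := congrFun (congrFun (rigidComm_map f (Pi.single i 1) (Y j)) (a j)) (b j)
  rw [h1] at h2
  simpa [rigidJac] using h2

lemma map_residue_eq_of_matMem {M N : Matrix (Fin 2) (Fin 2) A}
    (h : MatMem (maximalIdeal A) (M - N)) : M.map (residue A) = N.map (residue A) := by
  ext i j
  have := h i j
  rw [Matrix.sub_apply, ← residue_eq_zero_iff, map_sub, sub_eq_zero] at this
  simpa using this

/-- Invertibility of the Jacobian only depends on the family modulo `𝔪`. -/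
lemma isUnit_rigidJac_det_of_matMem {Y Y' : Fin 3 → Matrix (Fin 2) (Fin 2) A}
    (a b : Fin 3 → Fin 2) (h : ∀ j, MatMem (maximalIdeal A) (Y' j - Y j))
    (hjac : IsUnit (rigidJac Y a b).det) : IsUnit (rigidJac Y' a b).det := by
  have h1 : (rigidJac Y' a b).map (residue A) = (rigidJac Y a b).map (residue A) := by
    rw [rigidJac_map, rigidJac_map]
    congr 1
    funext j
    exact map_residue_eq_of_matMem (h j)
  have h2 : residue A (rigidJac Y' a b).det = residue A (rigidJac Y a b).det := by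
    rw [RingHom.map_det, RingHom.map_det, RingHom.mapMatrix_apply, RingHom.mapMatrix_apply, h1]
  by_contra hn
  have h3 : (rigidJac Y' a b).det ∈ maximalIdeal A := (IsLocalRing.mem_maximalIdeal _).2 hn
  rw [← residue_eq_zero_iff, h2, residue_eq_zero_iff] at h3
  exact (IsLocalRing.mem_maximalIdeal _).1 h3 hjac

/-- One Newton step: if the normalisation error lies in `I ≤ 𝔪`, a conjugation by `1 + X(x)`,
`x ∈ I³`, makes the error lie in `I * I`. -/
lemma rigid_newton_step (Y : Fin 3 → Matrix (Fin 2) (Fin 2) A) (a b : Fin 3 → Fin 2)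
    (t : Fin 3 → A) (hjac : IsUnit (rigidJac Y a b).det) (I : Ideal A)
    (hI : I ≤ maximalIdeal A) (hc : ∀ j, Y j (a j) (b j) - t j ∈ I) :
    ∃ x : Fin 3 → A, (∀ i, x i ∈ I) ∧
      ∀ j, ((1 + rigidEmb x) * Y j * (1 + rigidEmb x)⁻¹) (a j) (b j) - t j ∈ I * I := by
  set c : Fin 3 → A := fun j => Y j (a j) (b j) - t j with hcdef
  set x : Fin 3 → A := -((rigidJac Y a b)⁻¹.mulVec c) with hxdef
  have hJx : (rigidJac Y a b).mulVec x = -c := by
    rw [hxdef, Matrix.mulVec_neg, Matrix.mulVec_mulVec, Matrix.mul_nonsing_inv _ hjac,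
      Matrix.one_mulVec]
  have hxI : ∀ i, x i ∈ I := by
    intro i
    rw [hxdef]
    simp only [Pi.neg_apply, Matrix.mulVec, dotProduct]
    exact I.neg_mem (I.sum_mem fun l _ => I.mul_mem_left _ (hc l))
  refine ⟨x, hxI, fun j => ?_⟩
  have hu := isUnit_one_add_rigidEmb_det (fun i => hI (hxI i))
  set γ : Matrix (Fin 2) (Fin 2) A := 1 + rigidEmb x with hγ
  set D : Matrix (Fin 2) (Fin 2) A := γ * Y j * γ⁻¹ - Y j with hD
  have hDγ : D * γ = rigidComm x (Y j) := by
    rw [hD, sub_mul, Matrix.mul_assoc, Matrix.nonsing_inv_mul _ hu, Matrix.mul_one, hγ, rigidComm]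
    noncomm_ring
  have hDI : MatMem I D := by
    have : D = rigidComm x (Y j) * γ⁻¹ := by
      rw [← hDγ, Matrix.mul_assoc, Matrix.mul_nonsing_inv _ hu, Matrix.mul_one]
    rw [this]
    exact (matMem_rigidComm hxI _).mul_right _
  have hD2 : D = rigidComm x (Y j) - D * rigidEmb x := by
    rw [← hDγ, hγ, Matrix.mul_add, Matrix.mul_one]
    abel
  have hJ := congrFun hJx j
  rw [rigidJac_mulVec] at hJ
  have hval : (γ * Y j * γ⁻¹) (a j) (b j) - t j = -((D * rigidEmb x) (a j) (b j)) := by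
    have h1 : γ * Y j * γ⁻¹ = Y j + D := by rw [hD]; abel
    rw [h1, Matrix.add_apply]
    have h2 : D (a j) (b j) = rigidComm x (Y j) (a j) (b j) - (D * rigidEmb x) (a j) (b j) := by
      conv_lhs => rw [hD2]
      rfl
    rw [h2, hJ]
    simp only [hcdef, Pi.neg_apply]
    ring
  rw [hval]
  exact (I * I).neg_mem ((hDI.mul (matMem_rigidEmb hxI)) _ _)

/-- State of the Newton iteration after `n` steps. -/
structure RigidNewtonState (Y : Fin 3 → Matrix (Fin 2) (Fin 2) A) (a b : Fin 3 → Fin 2)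
    (t : Fin 3 → A) (n : ℕ) where
  /-- the conjugating matrix -/
  γ : Matrix (Fin 2) (Fin 2) A
  /-- its inverse -/
  γ' : Matrix (Fin 2) (Fin 2) A
  mul : γ * γ' = 1
  mul' : γ' * γ = 1
  cong : MatMem (maximalIdeal A) (γ - 1)
  cong' : MatMem (maximalIdeal A) (γ' - 1)
  err : ∀ j, (γ * Y j * γ') (a j) (b j) - t j ∈ maximalIdeal A ^ (n + 1)

lemma rigid_newton_next (Y : Fin 3 → Matrix (Fin 2) (Fin 2) A) (a b : Fin 3 → Fin 2)
    (t : Fin 3 → A) (hjac : IsUnit (rigidJac Y a b).det) (n : ℕ)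
    (s : RigidNewtonState Y a b t n) :
    ∃ s' : RigidNewtonState Y a b t (n + 1),
      MatMem (maximalIdeal A ^ (n + 1)) (s'.γ - s.γ) ∧
      MatMem (maximalIdeal A ^ (n + 1)) (s'.γ' - s.γ') := by
  set I : Ideal A := maximalIdeal A ^ (n + 1) with hI
  have hIm : I ≤ maximalIdeal A := Ideal.pow_le_self (Nat.succ_ne_zero n)
  set Ys : Fin 3 → Matrix (Fin 2) (Fin 2) A := fun j => s.γ * Y j * s.γ' with hYs
  have hYsY : ∀ j, MatMem (maximalIdeal A) (Ys j - Y j) := by
    intro j
    have h1 : MatMem (maximalIdeal A) (s.γ * Y j - 1 * Y j) :=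
      MatMem.congr_mul s.cong (by simpa using MatMem.zero _)
    have h2 := MatMem.congr_mul h1 s.cong'
    simpa [hYs] using h2
  have hjac' : IsUnit (rigidJac Ys a b).det := isUnit_rigidJac_det_of_matMem a b hYsY hjac
  obtain ⟨x, hxI, hx⟩ := rigid_newton_step Ys a b t hjac' I hIm s.err
  have hu := isUnit_one_add_rigidEmb_det (fun i => hIm (hxI i))
  set X : Matrix (Fin 2) (Fin 2) A := rigidEmb x with hX
  have hXI : MatMem I X := matMem_rigidEmb hxI
  have hinv : MatMem I ((1 + X)⁻¹ - 1) := by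
    have : (1 + X)⁻¹ - 1 = -(X * (1 + X)⁻¹) := by
      have h1 : (1 + X) * (1 + X)⁻¹ = 1 := Matrix.mul_nonsing_inv _ hu
      rw [Matrix.add_mul, Matrix.one_mul] at h1
      apply eq_neg_of_add_eq_zero_left
      rw [sub_add_eq_add_sub, h1, sub_self]
    rw [this]
    exact (hXI.mul_right _).neg
  refine ⟨⟨(1 + X) * s.γ, s.γ' * (1 + X)⁻¹, ?_, ?_, ?_, ?_, ?_⟩, ?_, ?_⟩
  · rw [Matrix.mul_assoc, ← Matrix.mul_assoc s.γ, s.mul, Matrix.one_mul,
      Matrix.mul_nonsing_inv _ hu]
  · rw [Matrix.mul_assoc, ← Matrix.mul_assoc _ (1 + X), Matrix.nonsing_inv_mul _ hu,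
      Matrix.one_mul, s.mul']
  · have : (1 + X) * s.γ - 1 = (s.γ - 1) + X * s.γ := by noncomm_ring
    rw [this]
    exact s.cong.add ((hXI.mono hIm).mul_right _)
  · have : s.γ' * (1 + X)⁻¹ - 1 = (s.γ' - 1) * (1 + X)⁻¹ + ((1 + X)⁻¹ - 1) := by noncomm_ring
    rw [this]
    exact (s.cong'.mul_right _).add (hinv.mono hIm)
  · intro j
    have h1 : (1 + X) * s.γ * Y j * (s.γ' * (1 + X)⁻¹) = (1 + X) * Ys j * (1 + X)⁻¹ := by
      simp only [hYs, Matrix.mul_assoc]
    rw [h1]
    have h2 : I * I ≤ maximalIdeal A ^ (n + 1 + 1) := by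
      rw [hI, ← pow_add]
      exact Ideal.pow_le_pow_right (by omega)
    exact h2 (hx j)
  · have : (1 + X) * s.γ - s.γ = X * s.γ := by noncomm_ring
    change MatMem I ((1 + X) * s.γ - s.γ)
    rw [this]
    exact hXI.mul_right _
  · have : s.γ' * (1 + X)⁻¹ - s.γ' = s.γ' * ((1 + X)⁻¹ - 1) := by noncomm_ring
    change MatMem I (s.γ' * (1 + X)⁻¹ - s.γ')
    rw [this]
    exact hinv.mul_left _

/-- The initial state of the Newton iteration. -/
def rigidNewtonInit (Y : Fin 3 → Matrix (Fin 2) (Fin 2) A) (a b : Fin 3 → Fin 2)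
    (t : Fin 3 → A) (ht : ∀ j, Y j (a j) (b j) - t j ∈ maximalIdeal A) :
    RigidNewtonState Y a b t 0 where
  γ := 1
  γ' := 1
  mul := Matrix.one_mul 1
  mul' := Matrix.one_mul 1
  cong := by simpa using MatMem.zero _
  cong' := by simpa using MatMem.zero _
  err := fun j => by simpa using ht j

/-- The Newton sequence. -/
noncomputable def rigidNewtonSeq (Y : Fin 3 → Matrix (Fin 2) (Fin 2) A) (a b : Fin 3 → Fin 2)
    (t : Fin 3 → A) (hjac : IsUnit (rigidJac Y a b).det)
    (ht : ∀ j, Y j (a j) (b j) - t j ∈ maximalIdeal A) : (n : ℕ) → RigidNewtonState Y a b t n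
  | 0 => rigidNewtonInit Y a b t ht
  | n + 1 => Classical.choose (rigid_newton_next Y a b t hjac n (rigidNewtonSeq Y a b t hjac ht n))

lemma rigidNewtonSeq_succ (Y : Fin 3 → Matrix (Fin 2) (Fin 2) A) (a b : Fin 3 → Fin 2)
    (t : Fin 3 → A) (hjac : IsUnit (rigidJac Y a b).det)
    (ht : ∀ j, Y j (a j) (b j) - t j ∈ maximalIdeal A) (n : ℕ) :
    MatMem (maximalIdeal A ^ (n + 1))
        ((rigidNewtonSeq Y a b t hjac ht (n + 1)).γ - (rigidNewtonSeq Y a b t hjac ht n).γ) ∧
      MatMem (maximalIdeal A ^ (n + 1))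
        ((rigidNewtonSeq Y a b t hjac ht (n + 1)).γ' - (rigidNewtonSeq Y a b t hjac ht n).γ') :=
  Classical.choose_spec (rigid_newton_next Y a b t hjac n (rigidNewtonSeq Y a b t hjac ht n))

omit [IsLocalRing A] in
/-- A sequence whose consecutive differences lie in `I ^ (n + 1)` converges `I`-adically. -/
lemma rigid_exists_adic_limit (I : Ideal A) [IsPrecomplete I A] (f : ℕ → A)
    (hf : ∀ n, f (n + 1) - f n ∈ I ^ (n + 1)) : ∃ L : A, ∀ n, f n - L ∈ I ^ n := by
  have hmn : ∀ m n, m ≤ n → f n - f m ∈ I ^ m := by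
    intro m n hmn
    induction n, hmn using Nat.le_induction with
    | base => simp
    | succ n hmn ih =>
      have h1 : f (n + 1) - f m = (f (n + 1) - f n) + (f n - f m) := by ring
      rw [h1]
      exact (I ^ m).add_mem (Ideal.pow_le_pow_right (by omega) (hf n)) ih
  obtain ⟨L, hL⟩ := IsPrecomplete.prec' (I := I) f (fun {m n} h => by
    rw [SModEq.sub_mem]
    have := hmn m n h
    have h2 : f m - f n = -(f n - f m) := by ring
    rw [h2]
    simpa using (I ^ m).neg_mem this)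
  refine ⟨L, fun n => ?_⟩
  have := hL n
  rw [SModEq.sub_mem] at this
  simpa using this

omit [IsLocalRing A] in
lemma rigid_eq_zero_of_forall_mem_pow (I : Ideal A) [IsHausdorff I A] (x : A)
    (h : ∀ n, x ∈ I ^ n) : x = 0 := by
  apply IsHausdorff.haus' (I := I) x
  intro n
  rw [SModEq.sub_mem]
  simpa using h n

/-- (N1) Existence: over a complete local ring, a family `Y` with invertible Jacobian whose
distinguished entries are congruent to `t` modulo `𝔪` can be conjugated, by a matrix congruent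
to `1` modulo `𝔪`, to a family whose distinguished entries are equal to `t`. -/
theorem rigid_exists [IsAdicComplete (maximalIdeal A) A]
    (Y : Fin 3 → Matrix (Fin 2) (Fin 2) A) (a b : Fin 3 → Fin 2) (t : Fin 3 → A)
    (hjac : IsUnit (rigidJac Y a b).det) (ht : ∀ j, Y j (a j) (b j) - t j ∈ maximalIdeal A) :
    ∃ γ γ' : Matrix (Fin 2) (Fin 2) A, γ * γ' = 1 ∧ γ' * γ = 1 ∧
      MatMem (maximalIdeal A) (γ - 1) ∧ ∀ j, (γ * Y j * γ') (a j) (b j) = t j := by
  set S := rigidNewtonSeq Y a b t hjac ht with hS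
  have hsucc := rigidNewtonSeq_succ Y a b t hjac ht
  have hlim : ∀ i j, ∃ L : A, ∀ n, (S n).γ i j - L ∈ maximalIdeal A ^ n := fun i j =>
    rigid_exists_adic_limit (maximalIdeal A) (fun n => (S n).γ i j) (fun n => (hsucc n).1 i j)
  have hlim' : ∀ i j, ∃ L : A, ∀ n, (S n).γ' i j - L ∈ maximalIdeal A ^ n := fun i j =>
    rigid_exists_adic_limit (maximalIdeal A) (fun n => (S n).γ' i j) (fun n => (hsucc n).2 i j)
  choose L hL using hlim
  choose L' hL' using hlim'
  set γ : Matrix (Fin 2) (Fin 2) A := Matrix.of L with hγ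
  set γ' : Matrix (Fin 2) (Fin 2) A := Matrix.of L' with hγ'
  have hγn : ∀ n, MatMem (maximalIdeal A ^ n) ((S n).γ - γ) := fun n i j => hL i j n
  have hγn' : ∀ n, MatMem (maximalIdeal A ^ n) ((S n).γ' - γ') := fun n i j => hL' i j n
  have hmul : γ * γ' = 1 := by
    ext i j
    rw [← sub_eq_zero]
    apply rigid_eq_zero_of_forall_mem_pow (maximalIdeal A)
    intro n
    have h1 := MatMem.congr_mul (hγn n) (hγn' n)
    rw [(S n).mul] at h1
    have h2 := (h1 i j)
    have h3 : (γ * γ') i j - (1 : Matrix (Fin 2) (Fin 2) A) i j =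
        -((1 - γ * γ' : Matrix (Fin 2) (Fin 2) A) i j) := by
      simp
    rw [h3]
    exact (maximalIdeal A ^ n).neg_mem h2
  have hmul' : γ' * γ = 1 := by
    ext i j
    rw [← sub_eq_zero]
    apply rigid_eq_zero_of_forall_mem_pow (maximalIdeal A)
    intro n
    have h1 := MatMem.congr_mul (hγn' n) (hγn n)
    rw [(S n).mul'] at h1
    have h2 := (h1 i j)
    have h3 : (γ' * γ) i j - (1 : Matrix (Fin 2) (Fin 2) A) i j =
        -((1 - γ' * γ : Matrix (Fin 2) (Fin 2) A) i j) := by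
      simp
    rw [h3]
    exact (maximalIdeal A ^ n).neg_mem h2
  refine ⟨γ, γ', hmul, hmul', ?_, ?_⟩
  · have h1 : γ - 1 = ((S 1).γ - 1) - ((S 1).γ - γ) := by abel
    rw [h1]
    exact (S 1).cong.sub (by simpa using hγn 1)
  · intro j
    rw [← sub_eq_zero]
    apply rigid_eq_zero_of_forall_mem_pow (maximalIdeal A)
    intro n
    have h1 : MatMem (maximalIdeal A ^ n) ((S n).γ * Y j - γ * Y j) :=
      MatMem.congr_mul (hγn n) (by simpa using MatMem.zero _)
    have h2 := MatMem.congr_mul h1 (hγn' n)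
    have h3 := h2 (a j) (b j)
    have h4 := Ideal.pow_le_pow_right (Nat.le_succ n) ((S n).err j)
    have h5 : (γ * Y j * γ') (a j) (b j) - t j =
        ((S n).γ * Y j * (S n).γ') (a j) (b j) - t j -
          ((S n).γ * Y j * (S n).γ' - γ * Y j * γ') (a j) (b j) := by
      simp
    rw [h5]
    exact (maximalIdeal A ^ n).sub_mem h4 h3

end Exists

end Fermat.Agent.S53
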