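import Mathlib
import Fermat.Agent.S53.Lift
import Fermat.Agent.S53.RigidCore
import Fermat.Prelude.Thm_IsAdicComplete_of_module_finite

/-!
# S53 chunk B (owner: helper32): rigidification of lifts

* `IsLift.conj` : conjugating a lift by `h ≡ 1` mod `𝔪` gives a lift.
* `exists_conj_isNormalized` (N1): over a complete Noetherian local ring every lift is conjugate,
  by some `h ≡ 1` mod `𝔪`, to a normalised lift (Newton iteration, `RigidCore.rigid_exists`).
* `eq_of_conj_of_isNormalized` (N2): two normalised lifts that are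
  conjugate under `GL₂(A)` are equal (Nakayama, `RigidCore.rigid_unique_eq`).

Only the field `comm_entry` of `NormData` is used.
-/

namespace Fermat.Agent.S53

open IsLocalRing Matrix

variable {𝒪 : Type} [CommRing 𝒪] [IsLocalRing 𝒪]

section Aux

variable {A : Type*} [CommRing A]

/-- The commutator with an arbitrary matrix `δ` is the commutator with its `rigidEmb` part. -/
lemma rigidComm_of_matrix (δ Z : Matrix (Fin 2) (Fin 2) A) :
    rigidComm ![δ 0 0 - δ 1 1, δ 0 1, δ 1 0] Z = δ * Z - Z * δ := by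
  have h1 : rigidEmb ![δ 0 0 - δ 1 1, δ 0 1, δ 1 0] =
      δ - (δ 1 1) • (1 : Matrix (Fin 2) (Fin 2) A) := by
    ext i j
    fin_cases i <;> fin_cases j <;> simp [rigidEmb]
  rw [rigidComm, h1, sub_mul, mul_sub, smul_mul_assoc, mul_smul_comm, Matrix.one_mul,
    Matrix.mul_one]
  abel

/-- A square matrix congruent to `1` modulo the maximal ideal has unit determinant. -/
lemma rigid_isUnit_det_of_cong_one {n : Type*} [Fintype n] [DecidableEq n] [IsLocalRing A]
    (M : Matrix n n A)
    (h : ∀ j l, M j l - (if j = l then 1 else 0) ∈ maximalIdeal A) : IsUnit M.det := by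
  have h1 : (residue A).mapMatrix M = 1 := by
    ext j l
    have := h j l
    rw [← residue_eq_zero_iff, map_sub, sub_eq_zero] at this
    rw [RingHom.mapMatrix_apply, Matrix.map_apply, this, Matrix.one_apply]
    split_ifs <;> simp
  have h2 : residue A M.det = 1 := by
    rw [RingHom.map_det, h1, Matrix.det_one]
  by_contra hn
  have h3 : M.det ∈ maximalIdeal A := (IsLocalRing.mem_maximalIdeal _).2 hn
  rw [← residue_eq_zero_iff, h2] at h3
  exact one_ne_zero h3

end Aux

section Bridge

variable {A : Type} [CommRing A] [IsLocalRing A] [Algebra 𝒪 A]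

/-- The three distinguished matrices of a point. -/
def rigidY (nd : NormData 𝒪) (x : Entry → A) : Fin 3 → Matrix (Fin 2) (Fin 2) A :=
  fun j => mat x (nd.ω j).1

/-- Row indices of the distinguished entries. -/
def rigidA (nd : NormData 𝒪) : Fin 3 → Fin 2 := fun j => (nd.ω j).2.1

/-- Column indices of the distinguished entries. -/
def rigidB (nd : NormData 𝒪) : Fin 3 → Fin 2 := fun j => (nd.ω j).2.2

lemma rigidY_apply (nd : NormData 𝒪) (x : Entry → A) (j : Fin 3) :
    rigidY nd x j (rigidA nd j) (rigidB nd j) = x (nd.ω j) := rfl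

/-- The Jacobian of a lift is invertible (this uses only `NormData.comm_entry`). -/
lemma isUnit_rigidJac_det [IsLocalHom (algebraMap 𝒪 A)] (nd : NormData 𝒪) {x : Entry → A}
    (hres : ∀ ω, x ω - algebraMap 𝒪 A (nd.c ω) ∈ maximalIdeal A) :
    IsUnit (rigidJac (rigidY nd x) (rigidA nd) (rigidB nd)).det := by
  set f := algebraMap 𝒪 A with hf
  set E' : Fin 3 → Matrix (Fin 2) (Fin 2) A := fun l => (nd.E l).map f with hE'
  set ε : Fin 3 → Fin 3 → A := fun l => ![E' l 0 0 - E' l 1 1, E' l 0 1, E' l 1 0] with hε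
  set Eps : Matrix (Fin 3) (Fin 3) A := fun i l => ε l i with hEps
  have hfm : ∀ z ∈ maximalIdeal 𝒪, f z ∈ maximalIdeal A := by
    intro z hz
    rw [IsLocalRing.mem_maximalIdeal, mem_nonunits_iff] at hz ⊢
    exact fun h => hz (isUnit_of_map_unit f z h)
  -- the constant family
  set C : Fin 3 → Matrix (Fin 2) (Fin 2) A := fun j => (mat nd.c (nd.ω j).1).map f with hC
  have hYC : ∀ j, MatMem (maximalIdeal A) (rigidY nd x j - C j) := by
    intro j i i'
    simpa [rigidY, hC] using hres ((nd.ω j).1, i, i')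
  have hcomm : ∀ l j, (E' l * C j - C j * E' l) (rigidA nd j) (rigidB nd j) -
      (if l = j then 1 else 0) ∈ maximalIdeal A := by
    intro l j
    have h1 := hfm _ (nd.comm_entry l j)
    have h2 : f ((nd.E l * mat nd.c (nd.ω j).1 - mat nd.c (nd.ω j).1 * nd.E l) (nd.ω j).2.1
        (nd.ω j).2.2 - (if l = j then 1 else 0)) =
        (E' l * C j - C j * E' l) (rigidA nd j) (rigidB nd j) - (if l = j then 1 else 0) := by
      rw [map_sub]
      congr 1
      · have := congrFun (congrFun (Matrix.map_sub (f := f) (by intro a b; exact map_sub f a b)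
          (nd.E l * mat nd.c (nd.ω j).1) (mat nd.c (nd.ω j).1 * nd.E l)) (nd.ω j).2.1)
          (nd.ω j).2.2
        rw [Matrix.map_apply, Matrix.map_mul, Matrix.map_mul] at this
        exact this
      · split_ifs <;> simp
    rwa [h2] at h1
  have hcomm' : ∀ l j, (E' l * rigidY nd x j - rigidY nd x j * E' l) (rigidA nd j)
      (rigidB nd j) - (if l = j then 1 else 0) ∈ maximalIdeal A := by
    intro l j
    have h1 : MatMem (maximalIdeal A)
        ((E' l * rigidY nd x j - rigidY nd x j * E' l) - (E' l * C j - C j * E' l)) := by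
      have : (E' l * rigidY nd x j - rigidY nd x j * E' l) - (E' l * C j - C j * E' l) =
          E' l * (rigidY nd x j - C j) - (rigidY nd x j - C j) * E' l := by noncomm_ring
      rw [this]
      exact ((hYC j).mul_left _).sub ((hYC j).mul_right _)
    have h2 := (maximalIdeal A).add_mem (h1 (rigidA nd j) (rigidB nd j)) (hcomm l j)
    simpa using h2
  have hprod : ∀ j l, (rigidJac (rigidY nd x) (rigidA nd) (rigidB nd) * Eps) j l -
      (if j = l then 1 else 0) ∈ maximalIdeal A := by
    intro j l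
    have h1 : (rigidJac (rigidY nd x) (rigidA nd) (rigidB nd) * Eps) j l =
        (rigidJac (rigidY nd x) (rigidA nd) (rigidB nd)).mulVec (ε l) j := by
      rw [Matrix.mul_apply]
      rfl
    rw [h1, rigidJac_mulVec, hε, rigidComm_of_matrix]
    have := hcomm' l j
    simpa [eq_comm] using this
  have hu := rigid_isUnit_det_of_cong_one _ hprod
  rw [Matrix.det_mul] at hu
  exact isUnit_of_mul_isUnit_left hu

end Bridge

section Main

theorem IsLift.conj {nd : NormData 𝒪} {A : Type} [CommRing A] [IsLocalRing A] [Algebra 𝒪 A]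
    {x : Entry → A} (hx : IsLift nd x) (h h' : Matrix (Fin 2) (Fin 2) A)
    (hh : h * h' = 1) (hh' : h' * h = 1) (h1 : ∀ i j, (h - 1) i j ∈ maximalIdeal A) :
    IsLift nd (Fermat.Agent.S53.conj h h' x) := by
  have hmat : ∀ g, mat (Fermat.Agent.S53.conj h h' x) g = h * mat x g * h' := fun g => rfl
  have h1' : MatMem (maximalIdeal A) (h' - 1) := by
    have : h' - 1 = -(h' * (h - 1)) := by
      rw [Matrix.mul_sub, hh', Matrix.mul_one]; abel
    rw [this]
    exact ((show MatMem (maximalIdeal A) (h - 1) from h1).mul_left _).neg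
  refine ⟨?_, ?_, ?_, ?_⟩
  · rw [hmat, hx.one, Matrix.mul_one, hh]
  · intro g g'
    rw [hmat, hmat, hmat, hx.mul]
    calc h * (mat x g * mat x g') * h' = h * mat x g * 1 * mat x g' * h' := by noncomm_ring
      _ = h * mat x g * (h' * h) * mat x g' * h' := by rw [hh']
      _ = h * mat x g * h' * (h * mat x g' * h') := by noncomm_ring
  · intro ω
    have h2 : MatMem (maximalIdeal A) (h * mat x ω.1 - 1 * mat x ω.1) :=
      MatMem.congr_mul h1 (by simpa using MatMem.zero _)
    have h3 := MatMem.congr_mul h2 h1'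
    have h4 := h3 ω.2.1 ω.2.2
    simp only [Matrix.one_mul, Matrix.mul_one, Matrix.sub_apply] at h4
    have h5 := (maximalIdeal A).add_mem h4 (hx.res ω)
    have h6 : Fermat.Agent.S53.conj h h' x ω = (h * mat x ω.1 * h') ω.2.1 ω.2.2 := rfl
    rw [h6]
    have h7 : mat x ω.1 ω.2.1 ω.2.2 = x ω := rfl
    rw [h7] at h5
    simpa using h5
  · intro n
    obtain ⟨L, hL, hLσ⟩ := hx.cont n
    refine ⟨L, hL, fun σ hσ => ?_⟩
    have h2 : MatMem (maximalIdeal A ^ n) (mat x σ - 1) := hLσ σ hσ
    have h3 : h * mat x σ * h' - 1 = h * (mat x σ - 1) * h' := by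
      rw [Matrix.mul_sub, Matrix.sub_mul, Matrix.mul_one, hh]
    rw [hmat, h3]
    exact (h2.mul_left _).mul_right _

/-- (N1) existence of a normalised conjugate. -/
theorem exists_conj_isNormalized (nd : NormData 𝒪) {A : Type} [CommRing A] [IsLocalRing A]
    [IsNoetherianRing A] [IsAdicComplete (maximalIdeal A) A] [Algebra 𝒪 A]
    [IsLocalHom (algebraMap 𝒪 A)] {x : Entry → A} (hx : IsLift nd x) :
    ∃ h h' : Matrix (Fin 2) (Fin 2) A, h * h' = 1 ∧ h' * h = 1 ∧
      (∀ i j, (h - 1) i j ∈ maximalIdeal A) ∧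
      IsNormalized nd (Fermat.Agent.S53.conj h h' x) := by
  obtain ⟨γ, γ', h1, h2, h3, h4⟩ := rigid_exists (rigidY nd x) (rigidA nd) (rigidB nd)
    (fun j => algebraMap 𝒪 A (nd.c (nd.ω j))) (isUnit_rigidJac_det nd hx.res)
    (fun j => by rw [rigidY_apply]; exact hx.res _)
  exact ⟨γ, γ', h1, h2, h3, fun j => h4 j⟩

/-- (N2) uniqueness of normalised lifts in a conjugacy class. -/
theorem eq_of_conj_of_isNormalized (nd : NormData 𝒪) {A : Type} [CommRing A] [IsLocalRing A]
    [Algebra 𝒪 A] [IsLocalHom (algebraMap 𝒪 A)] [IsHausdorff (maximalIdeal A) A]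
    (hsurj : Function.Surjective (residue A ∘ algebraMap 𝒪 A))
    {x x' : Entry → A} (hx : IsLift nd x) (hx' : IsLift nd x')
    (hn : IsNormalized nd x) (hn' : IsNormalized nd x')
    (h h' : Matrix (Fin 2) (Fin 2) A) (hh : h * h' = 1) (hh' : h' * h = 1)
    (hconj : ∀ g, h * mat x g = mat x' g * h) : x = x' := by
  have hdet : IsUnit h.det := (Matrix.isUnit_iff_isUnit_det h).1 ⟨⟨h, h', hh, hh'⟩, rfl⟩
  have hcong : ∀ j, MatMem (maximalIdeal A) (rigidY nd x' j - rigidY nd x j) := by
    intro j i i'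
    have := (maximalIdeal A).sub_mem (hx'.res ((nd.ω j).1, i, i')) (hx.res ((nd.ω j).1, i, i'))
    simpa [rigidY] using this
  have hnorm : ∀ j, rigidY nd x' j (rigidA nd j) (rigidB nd j) =
      rigidY nd x j (rigidA nd j) (rigidB nd j) := by
    intro j
    rw [rigidY_apply, rigidY_apply, hn j, hn' j]
  have key : ∀ g, mat x' g = mat x g := fun g =>
    rigid_unique_eq (rigidY nd x) (rigidY nd x') (rigidA nd) (rigidB nd)
      (isUnit_rigidJac_det nd hx.res) h hdet (fun j => hconj _) hcong hnorm _ _ (hconj g)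
  funext ω
  have := congrFun (congrFun (key ω.1) ω.2.1) ω.2.2
  exact this.symm

end Main

end Fermat.Agent.S53
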