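import Mathlib
import Fermat.Agent.S53.Defs
import Fermat.Agent.S53.Lift
import Fermat.Agent.S53.Rigid
import Fermat.Agent.S53.MatRep
import Fermat.Agent.S53.NormDataExists
import Fermat.Agent.S53.TestAlgebra
import Fermat.Agent.S53.ProRep
import Fermat.Agent.S53.LiftDescent
import Fermat.Prelude.Def_GaloisRep_DeformationRingData

/-!
# S53 chunk E (owner: helper88): assembly
-/

set_option autoImplicit false

namespace Fermat.Agent.S53

open IsLocalRing GaloisRep

section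

variable {𝒪 : Type} [CommRing 𝒪] [IsLocalRing 𝒪]

theorem finite_of_quotient {T : Type*} (s : Setoid T) (h : Finite (Quotient s)) {X : Type*}
    (f : X → T) (hf : ∀ x y, s.r (f x) (f y) → x = y) : Finite X :=
  Finite.of_injective (fun x => Quotient.mk s (f x)) (fun x y h => hf x y (Quotient.exact h))

/-- The point functor of normalised lifts of type `𝒟`. -/
def defFunctor (nd : NormData 𝒪)
    (𝒟 : ∀ ⦃A : Type⦄ [CommRing A] [IsLocalRing A] [Algebra 𝒪 A], GaloisRepAdic A → Prop)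
    (A : Type) [CommRing A] [IsLocalRing A] [Algebra 𝒪 A] : Set (Entry → A) :=
  {x | ∃ hx : IsLift nd x, IsNormalized nd x ∧ 𝒟 hx.toAdic}

/-- Equal points have equivalent `toAdic`. -/
theorem toAdic_isEquiv_of_eq {nd : NormData 𝒪} {A : Type} [CommRing A] [IsLocalRing A]
    [Algebra 𝒪 A] {x y : Entry → A} (hx : IsLift nd x) (hy : IsLift nd y) (h : x = y) :
    hx.toAdic.IsEquiv hy.toAdic := by
  subst h
  exact ⟨GaloisRepAdic.Equiv.refl _⟩

theorem IsNormalized.map {nd : NormData 𝒪} {A B : Type} [CommRing A] [Algebra 𝒪 A]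
    [CommRing B] [Algebra 𝒪 B] {x : Entry → A} (hx : IsNormalized nd x) (φ : A →ₐ[𝒪] B) :
    IsNormalized nd (fun ω => φ (x ω)) := by
  intro j
  show φ (x (nd.ω j)) = _
  rw [hx j, AlgHom.commutes]

theorem IsNormalized.of_map_injective {nd : NormData 𝒪} {A B : Type} [CommRing A] [Algebra 𝒪 A]
    [CommRing B] [Algebra 𝒪 B] {x : Entry → A} (φ : A →ₐ[𝒪] B) (hφ : Function.Injective φ)
    (hx : IsNormalized nd (fun ω => φ (x ω))) : IsNormalized nd x := by
  intro j
  apply hφ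
  have := hx j
  simpa [AlgHom.commutes] using this

end

section

variable {𝒪 : Type} [CommRing 𝒪] [IsDomain 𝒪] [IsDiscreteValuationRing 𝒪]
  [IsAdicComplete (maximalIdeal 𝒪) 𝒪] [Finite (ResidueField 𝒪)]

theorem residueFieldMap_dualNumber :
    letI := dualNumberAlgebra 𝒪
    ∀ [IsLocalHom (algebraMap 𝒪 (DualNumber (ResidueField 𝒪)))],
    IsLocalRing.ResidueField.map (algebraMap 𝒪 (DualNumber (ResidueField 𝒪))) =
      (residue (DualNumber (ResidueField 𝒪))).comp
        (algebraMap (ResidueField 𝒪) (DualNumber (ResidueField 𝒪))) := by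
  letI := dualNumberAlgebra 𝒪
  intro _
  ext x
  obtain ⟨a, rfl⟩ := IsLocalRing.residue_surjective x
  rfl

theorem tangent_finite_defFunctor (ρbar : ResidualGaloisRep (ResidueField 𝒪))
    (𝒟 : ∀ ⦃A : Type⦄ [CommRing A] [IsLocalRing A] [Algebra 𝒪 A], GaloisRepAdic A → Prop)
    (nd : NormData 𝒪)
    (b : Module.Basis (Fin 2) (ResidueField 𝒪) ρbar.V)
    (hc : ∀ g i j, residue 𝒪 (nd.c (g, i, j)) = LinearMap.toMatrix b b (ρbar.ρ g) i j)
    (hfin : GaloisRep.TangentFinite 𝒪 ρbar 𝒟) :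
    letI := dualNumberAlgebra 𝒪
    (defFunctor nd 𝒟 (DualNumber (ResidueField 𝒪))).Finite := by
  letI := dualNumberAlgebra 𝒪
  have hT := isArtinianTestAlgebra_dualNumber (𝒪 := 𝒪)
  haveI : IsLocalHom (algebraMap 𝒪 (DualNumber (ResidueField 𝒪))) := hT.isLocalHom
  haveI := hT.isArtinian
  rw [← Set.finite_coe_iff]
  unfold TangentFinite at hfin
  refine finite_of_quotient _ hfin
    (fun x : ↥(defFunctor nd 𝒟 (DualNumber (ResidueField 𝒪))) =>
      ⟨(Classical.choose x.2).toAdic, (Classical.choose_spec x.2).2, ?_⟩) ?_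
  · have h := toAdic_residual_isEquiv nd ρbar b hc (Classical.choose x.2)
    rw [residueFieldMap_dualNumber] at h
    exact h
  · rintro ⟨x, hx⟩ ⟨y, hy⟩ hxy
    have hxy' : (Classical.choose hx).toAdic.IsEquiv (Classical.choose hy).toAdic := hxy
    obtain ⟨g, g', hg, hg', hconj⟩ := (toAdic_isEquiv_iff (Classical.choose hx) (Classical.choose hy)).mp hxy'
    have := eq_of_conj_of_isNormalized nd hT.residue_surjective (Classical.choose hx)
      (Classical.choose hy) (Classical.choose_spec hx).1 (Classical.choose_spec hy).1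
      g g' hg hg' hconj
    exact Subtype.ext this

variable (ρbar : ResidualGaloisRep (ResidueField 𝒪))
  (𝒟 : ∀ ⦃A : Type⦄ [CommRing A] [IsLocalRing A] [Algebra 𝒪 A], GaloisRepAdic A → Prop)

/-- The functor of normalised lifts of type `𝒟` is a point functor. -/
theorem isPointFunctor_defFunctor (nd : NormData 𝒪)
    (b : Module.Basis (Fin 2) (ResidueField 𝒪) ρbar.V)
    (hc : ∀ g i j, residue 𝒪 (nd.c (g, i, j)) = LinearMap.toMatrix b b (ρbar.ρ g) i j)
    (h𝒟 : GaloisRep.IsDeformationCondition 𝒪 𝒟)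
    (hbar : 𝒟 (GaloisRepAdic.ofResidualGaloisRep ρbar))
    (hfin : GaloisRep.TangentFinite 𝒪 ρbar 𝒟) :
    IsPointFunctor 𝒪 Entry (defFunctor nd 𝒟) nd.c where
  map := by
    intro A B _ _ _ _ _ _ hA hB φ hφ x hx
    obtain ⟨hx, hn, hD⟩ := hx
    refine ⟨hx.map φ hφ, hn.map φ, ?_⟩
    exact h𝒟.of_isEquiv hB (toAdic_baseChangeAlong hx φ hφ) (h𝒟.baseChangeAlong hA hB φ hφ hD)
  of_injective := by
    intro A B _ _ _ _ _ _ hA hB φ hφ hinj x hx
    obtain ⟨hx', hn, hD⟩ := hx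
    haveI := hB.isArtinian
    have hx : IsLift nd x := IsLift.of_map_injective φ hφ hinj hx'
    refine ⟨hx, hn.of_map_injective φ hinj, ?_⟩
    apply h𝒟.of_baseChangeAlong_injective hA hB φ hφ hinj
    obtain ⟨e⟩ := toAdic_baseChangeAlong hx φ hφ
    exact h𝒟.of_isEquiv hB ⟨e.symm⟩ hD
  of_fibreProduct := by
    intro A B C P _ _ _ _ _ _ _ _ _ _ _ _ hA hB hC hP f g pA pB hpA hpB hcomp hinj hsurj x hxA hxB
    obtain ⟨hxA, hnA, hDA⟩ := hxA
    obtain ⟨hxB, hnB, hDB⟩ := hxB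
    haveI := hA.isArtinian
    haveI := hB.isArtinian
    have hx : IsLift nd x := IsLift.of_prod_injective pA pB hpA hinj hxA hxB
    have hpAinj : ∀ a b : P, pA a = pA b → pB a = pB b → a = b := fun a b h1 h2 =>
      hinj (Prod.ext h1 h2)
    refine ⟨hx, ?_, ?_⟩
    · intro j
      apply hpAinj
      · simpa [AlgHom.commutes] using hnA j
      · simpa [AlgHom.commutes] using hnB j
    · apply h𝒟.of_fibreProduct hA hB hC hP f g pA pB hpA hpB hcomp hinj hsurj
      · obtain ⟨e⟩ := toAdic_baseChangeAlong hx pA hpA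
        exact h𝒟.of_isEquiv hA ⟨e.symm⟩ hDA
      · obtain ⟨e⟩ := toAdic_baseChangeAlong hx pB hpB
        exact h𝒟.of_isEquiv hB ⟨e.symm⟩ hDB
  residue_eq := by
    intro A _ _ _ hA x hx ω
    obtain ⟨hx, -, -⟩ := hx
    exact hx.res ω
  base_mem := by
    refine ⟨isLift_residue nd, fun j => rfl, ?_⟩
    exact h𝒟.of_isEquiv isArtinianTestAlgebra_residueField
      (ofResidualGaloisRep_isEquiv nd ρbar b hc) hbar
  tangent_finite := tangent_finite_defFunctor ρbar 𝒟 nd b hc hfin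

/-- The deformation ring data built from a universal point. -/
theorem nonempty_deformationRingData_of_universalPoint (nd : NormData 𝒪)
    (b : Module.Basis (Fin 2) (ResidueField 𝒪) ρbar.V)
    (hc : ∀ g i j, residue 𝒪 (nd.c (g, i, j)) = LinearMap.toMatrix b b (ρbar.ρ g) i j)
    (habs : ρbar.IsAbsolutelyIrreducible)
    (h𝒟 : GaloisRep.IsDeformationCondition 𝒪 𝒟)
    (U : UniversalPoint 𝒪 Entry (defFunctor nd 𝒟)) :
    Nonempty (GaloisRep.DeformationRingData 𝒪 ρbar 𝒟) := by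
  -- the universal point is a normalised lift
  have hquot : ∀ (n : ℕ) (_ : n ≠ 0) (_ : IsLocalRing (U.R ⧸ maximalIdeal U.R ^ n)),
      (fun ω => (Ideal.Quotient.mk (maximalIdeal U.R ^ n)) (U.x ω)) ∈
        defFunctor nd 𝒟 (U.R ⧸ maximalIdeal U.R ^ n) := by
    intro n hn inst
    obtain ⟨inst', hA, hloc, -⟩ :=
      exists_isArtinianTestAlgebra_quotient_pow (𝒪 := 𝒪) U.R U.residue_surjective n hn
    obtain rfl : inst = inst' := Subsingleton.elim _ _
    exact U.mem_of_surjective _ hA (Ideal.Quotient.mkₐ 𝒪 (maximalIdeal U.R ^ n)) hloc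
      Ideal.Quotient.mk_surjective
  have hxR : IsLift nd U.x :=
    isLift_of_forall_quotient nd U.residue_surjective U.x fun n hn inst =>
      (hquot n hn inst).1
  have hnR : IsNormalized nd U.x :=
    isNormalized_of_forall_quotient nd U.x fun n hn => by
      obtain ⟨inst, -⟩ :=
        exists_isArtinianTestAlgebra_quotient_pow (𝒪 := 𝒪) U.R U.residue_surjective n hn
      exact (hquot n hn inst).2.1
  have hmem : ∀ (B : Type) [CommRing B] [IsLocalRing B] [Algebra 𝒪 B],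
      IsArtinianTestAlgebra 𝒪 B → ∀ (q : U.R →ₐ[𝒪] B) (hq : IsLocalHom (q : U.R →+* B)),
      Function.Surjective q → 𝒟 (hxR.toAdic.baseChangeAlong (q : U.R →+* B) hq) := by
    intro B _ _ _ hB q hq hqs
    obtain ⟨hxq, -, hD⟩ := U.mem_of_surjective B hB q hq hqs
    obtain ⟨e⟩ := toAdic_baseChangeAlong hxR q hq
    exact h𝒟.of_isEquiv hB ⟨e.symm⟩ hD
  refine ⟨{
    R := U.R
    residue_surjective := U.residue_surjective
    absIrr := habs
    ρ := hxR.toAdic
    isOfType := (h𝒟.iff_forall_surjective inferInstance U.residue_surjective hxR.toAdic).mpr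
      (fun B _ _ _ hB q hq hqs => hmem B hB q hq hqs)
    residual_isEquiv := toAdic_residual_isEquiv nd ρbar b hc hxR
    universal := ?_ }⟩
  intro A _ _ _ _ _ _ hsurjA ρA hDA hresA
  -- matrix form of `ρA`, normalised
  obtain ⟨x₀, hx₀, ⟨e₀⟩⟩ := exists_isLift_of_residual_isEquiv nd ρbar b hc hsurjA ρA hresA
  obtain ⟨h, h', hh, hh', h1, hny⟩ := exists_conj_isNormalized nd hx₀
  have hy : IsLift nd (conj h h' x₀) := hx₀.conj h h' hh hh' h1
  have hxy : hx₀.toAdic.IsEquiv hy.toAdic := by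
    rw [toAdic_isEquiv_iff]
    refine ⟨h, h', hh, hh', fun g => ?_⟩
    show h * mat x₀ g = (h * mat x₀ g * h') * h
    rw [Matrix.mul_assoc (h * mat x₀ g), hh', Matrix.mul_one]
  obtain ⟨e₁⟩ := hxy
  have eA : GaloisRepAdic.Equiv ρA hy.toAdic := e₀.trans e₁
  -- all Artinian quotients of `y` are points
  have hyF : ∀ (B : Type) [CommRing B] [IsLocalRing B] [Algebra 𝒪 B],
      IsArtinianTestAlgebra 𝒪 B → ∀ (q : A →ₐ[𝒪] B), IsLocalHom (q : A →+* B) →
      Function.Surjective q → (fun ω => q (conj h h' x₀ ω)) ∈ defFunctor nd 𝒟 B := by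
    intro B _ _ _ hB q hq hqs
    refine ⟨hy.map q hq, hny.map q, ?_⟩
    have h1 : 𝒟 (ρA.baseChangeAlong (q : A →+* B) hq) :=
      (h𝒟.iff_forall_surjective inferInstance hsurjA ρA).mp hDA hB q hq hqs
    have h2 : 𝒟 (hy.toAdic.baseChangeAlong (q : A →+* B) hq) :=
      h𝒟.of_isEquiv hB ⟨eA.baseChangeAlong (q : A →+* B) hq⟩ h1
    exact h𝒟.of_isEquiv hB (toAdic_baseChangeAlong hy q hq) h2
  obtain ⟨φ, hφ, hφx, hφuniq⟩ := U.universal A hsurjA (conj h h' x₀) hyF
  refine ⟨φ, ⟨hφ, ?_⟩, ?_⟩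
  · obtain ⟨e₂⟩ := toAdic_baseChangeAlong hxR φ hφ
    obtain ⟨e₃⟩ := toAdic_isEquiv_of_eq (hxR.map φ hφ) hy (funext hφx)
    exact ⟨(e₂.trans e₃).trans eA.symm⟩
  · rintro φ' ⟨hφ', ⟨e'⟩⟩
    apply hφuniq φ' hφ'
    obtain ⟨e₂⟩ := toAdic_baseChangeAlong hxR φ' hφ'
    have e₄ : GaloisRepAdic.Equiv (hxR.map φ' hφ').toAdic hy.toAdic :=
      (e₂.symm.trans e').trans eA
    obtain ⟨g, g', hg, hg', hconj⟩ := (toAdic_isEquiv_iff _ _).mp ⟨e₄⟩
    have := eq_of_conj_of_isNormalized nd hsurjA (hxR.map φ' hφ') hy (hnR.map φ') hny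
      g g' hg hg' hconj
    exact fun ω => congrFun this ω

/-- S53 (with explicit hypotheses). -/
theorem nonempty_deformationRingData
    (habs : ρbar.IsAbsolutelyIrreducible)
    (h𝒟 : GaloisRep.IsDeformationCondition 𝒪 𝒟)
    (hbar : 𝒟 (GaloisRepAdic.ofResidualGaloisRep ρbar))
    (hfin : GaloisRep.TangentFinite 𝒪 ρbar 𝒟) :
    Nonempty (GaloisRep.DeformationRingData 𝒪 ρbar 𝒟) := by
  obtain ⟨nd, b, hc⟩ := exists_normData ρbar habs
  obtain ⟨U⟩ := exists_universalPoint 𝒪 Entry (defFunctor nd 𝒟) nd.c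
    (isPointFunctor_defFunctor ρbar 𝒟 nd b hc h𝒟 hbar hfin)
  exact nonempty_deformationRingData_of_universalPoint ρbar 𝒟 nd b hc habs h𝒟 U

end

end Fermat.Agent.S53
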