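import Mathlib
import Fermat.Prelude.Def_GaloisRep_Residual

/-!
# S53: Schur's lemma in matrix form (owner: helper32)

If `ρbar` is absolutely irreducible, a matrix commuting with all matrices of `ρbar` (in a basis
`b`) is scalar.
-/

namespace Fermat.Agent.S53

open Matrix Module TensorProduct

theorem schur_of_isAbsolutelyIrreducible {k : Type} [Field k] (ρbar : ResidualGaloisRep k)
    (habs : ρbar.IsAbsolutelyIrreducible) (b : Module.Basis (Fin 2) k ρbar.V)
    (X : Matrix (Fin 2) (Fin 2) k)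
    (hX : ∀ g, X * LinearMap.toMatrix b b (ρbar.ρ g) = LinearMap.toMatrix b b (ρbar.ρ g) * X) :
    ∃ s : k, X = s • (1 : Matrix (Fin 2) (Fin 2) k) := by
  classical
  set K := AlgebraicClosure k with hK
  set f : ρbar.V →ₗ[k] ρbar.V := Matrix.toLin b b X with hf
  have hcomm : ∀ g, f ∘ₗ ρbar.ρ g = ρbar.ρ g ∘ₗ f := by
    intro g
    have h1 : ρbar.ρ g = Matrix.toLin b b (LinearMap.toMatrix b b (ρbar.ρ g)) :=
      (Matrix.toLin_toMatrix b b _).symm
    rw [h1, hf, ← Matrix.toLin_mul b b b, ← Matrix.toLin_mul b b b, hX g]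
  set fK : (K ⊗[k] ρbar.V) →ₗ[K] (K ⊗[k] ρbar.V) := f.baseChange K with hfK
  have hcommK : ∀ g (x : K ⊗[k] ρbar.V),
      fK ((ρbar.ρ g).baseChange K x) = (ρbar.ρ g).baseChange K (fK x) := by
    intro g x
    have h1 : fK ∘ₗ (ρbar.ρ g).baseChange K = (ρbar.ρ g).baseChange K ∘ₗ fK := by
      rw [hfK, ← LinearMap.baseChange_comp, ← LinearMap.baseChange_comp, hcomm g]
    exact LinearMap.congr_fun h1 x
  have : Module.Finite K (K ⊗[k] ρbar.V) := inferInstance
  have : Nontrivial (K ⊗[k] ρbar.V) := by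
    have h2 : Module.finrank K (K ⊗[k] ρbar.V) = 2 := by
      rw [Module.finrank_baseChange, ρbar.finrank_eq]
    exact Module.nontrivial_of_finrank_pos (R := K) (by rw [h2]; norm_num)
  obtain ⟨μ, hμ⟩ := Module.End.exists_eigenvalue fK
  set W : Submodule K (K ⊗[k] ρbar.V) := Module.End.eigenspace fK μ with hW
  have hWstable : ∀ σ : AlgebraicClosure ℚ ≃ₐ[ℚ] AlgebraicClosure ℚ, ∀ x ∈ W,
      (ρbar.baseChange K).ρ σ x ∈ W := by
    intro σ x hx
    rw [hW, Module.End.mem_eigenspace_iff] at hx ⊢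
    show fK ((ρbar.ρ σ).baseChange K x) = μ • (ρbar.ρ σ).baseChange K x
    rw [hcommK, hx, map_smul]
  have hWtop : W = ⊤ := by
    rcases habs W hWstable with h | h
    · exact absurd h hμ
    · exact h
  have hfKμ : ∀ x, fK x = μ • x := by
    intro x
    have : x ∈ W := by rw [hWtop]; trivial
    rwa [hW, Module.End.mem_eigenspace_iff] at this
  -- compare matrices
  have hmat : (LinearMap.toMatrix b b f).map (algebraMap k K) =
      μ • (1 : Matrix (Fin 2) (Fin 2) K) := by
    rw [← LinearMap.toMatrix_baseChange]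
    ext i j
    rw [LinearMap.toMatrix_apply, ← hfK, hfKμ]
    simp [Matrix.one_apply, Finsupp.single_apply, eq_comm]
  rw [hf, LinearMap.toMatrix_toLin] at hmat
  have hinj : Function.Injective (algebraMap k K) := (algebraMap k K).injective
  refine ⟨X 1 1, ?_⟩
  have h00 := congrFun (congrFun hmat 0) 0
  have h01 := congrFun (congrFun hmat 0) 1
  have h10 := congrFun (congrFun hmat 1) 0
  have h11 := congrFun (congrFun hmat 1) 1
  simp at h00 h01 h10 h11
  ext i j
  fin_cases i <;> fin_cases j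
  · simp; apply hinj; rw [h00, h11]
  · simp; exact h01
  · simp; exact h10
  · simp

end Fermat.Agent.S53
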