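import Mathlib
import Fermat.Agent.S53.RigidCore

/-!
# S53: separation lemma for the normalisation data (owner: helper32)

Pure linear algebra over a field `k`.  If the centraliser of a family `r : G → M₂(k)` consists of
scalar matrices (Schur), then there are three entries `(g j, a j, b j)` and three matrices `E l`
such that `[E l, r (g j)]_{a j, b j} = δ_{l j}`.
-/

namespace Fermat.Agent.S53

open Matrix Module

variable {k : Type*} [Field k] {G : Type*}

/-- The linear functional `x ↦ [X(x), Z]_{a b}` on `k³`. -/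
noncomputable def rigidFunctional (Z : Matrix (Fin 2) (Fin 2) k) (a b : Fin 2) :
    Module.Dual k (Fin 3 → k) :=
  ∑ l, rigidComm (Pi.single l 1) Z a b • (LinearMap.proj l : (Fin 3 → k) →ₗ[k] k)

lemma rigidFunctional_apply (Z : Matrix (Fin 2) (Fin 2) k) (a b : Fin 2) (x : Fin 3 → k) :
    rigidFunctional Z a b x = rigidComm x Z a b := by
  rw [rigidComm_apply]
  simp [rigidFunctional]

/-- If `X(x)` commutes with `Z` entrywise for a family whose centraliser is scalar, `x = 0`. -/
lemma eq_zero_of_rigidComm_eq_zero (r : G → Matrix (Fin 2) (Fin 2) k)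
    (hschur : ∀ X : Matrix (Fin 2) (Fin 2) k, (∀ g, X * r g = r g * X) →
      ∃ s : k, X = s • (1 : Matrix (Fin 2) (Fin 2) k))
    (x : Fin 3 → k) (h : ∀ g a b, rigidComm x (r g) a b = 0) : x = 0 := by
  obtain ⟨s, hs⟩ := hschur (rigidEmb x) (fun g => by
    rw [← sub_eq_zero]
    ext a b
    exact h g a b)
  have h11 := congrFun (congrFun hs 1) 1
  have h00 := congrFun (congrFun hs 0) 0
  have h01 := congrFun (congrFun hs 0) 1
  have h10 := congrFun (congrFun hs 1) 0
  simp [rigidEmb] at h11 h00 h01 h10
  funext i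
  fin_cases i
  · simp [h00, ← h11]
  · simp [h01]
  · simp [h10]

/-- Separation lemma. -/
theorem exists_sep (r : G → Matrix (Fin 2) (Fin 2) k)
    (hschur : ∀ X : Matrix (Fin 2) (Fin 2) k, (∀ g, X * r g = r g * X) →
      ∃ s : k, X = s • (1 : Matrix (Fin 2) (Fin 2) k)) :
    ∃ (g : Fin 3 → G) (a b : Fin 3 → Fin 2) (E : Fin 3 → Matrix (Fin 2) (Fin 2) k),
      ∀ l j, (E l * r (g j) - r (g j) * E l) (a j) (b j) = if l = j then 1 else 0 := by
  classical
  set s : Set (Module.Dual k (Fin 3 → k)) :=
    Set.range (fun i : G × Fin 2 × Fin 2 => rigidFunctional (r i.1) i.2.1 i.2.2) with hs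
  have hspan : Submodule.span k s = ⊤ := by
    apply Submodule.span_eq_top_of_ne_zero
    intro z hz
    by_contra hcon
    simp only [not_exists, not_and, not_not] at hcon
    apply hz
    apply eq_zero_of_rigidComm_eq_zero r hschur z
    intro g a b
    have := hcon (rigidFunctional (r g) a b) ⟨(g, a, b), rfl⟩
    rwa [rigidFunctional_apply] at this
  set B := Module.Basis.ofSpan hspan.ge with hB
  set e := B.indexEquiv ((Pi.basisFun k (Fin 3)).dualBasis) with he
  -- the three functionals
  have hmem : ∀ j : Fin 3, ∃ i : G × Fin 2 × Fin 2,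
      rigidFunctional (r i.1) i.2.1 i.2.2 = B (e.symm j) := by
    intro j
    have := Module.Basis.ofSpan_subset hspan.ge ⟨e.symm j, rfl⟩
    obtain ⟨i, hi⟩ := this
    exact ⟨i, hi⟩
  choose ι hι using hmem
  set B' := B.reindex e with hB'
  have hB'j : ∀ j, B' j = rigidFunctional (r (ι j).1) (ι j).2.1 (ι j).2.2 := by
    intro j
    rw [hι j, hB', Module.Basis.reindex_apply]
  -- the evaluation map
  set Ψ : (Fin 3 → k) →ₗ[k] (Fin 3 → k) := LinearMap.pi (fun j => B' j) with hΨ
  have hinj : Function.Injective Ψ := by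
    rw [← LinearMap.ker_eq_bot, LinearMap.ker_eq_bot']
    intro x hx
    rw [← Module.forall_dual_apply_eq_zero_iff k]
    intro φ
    have hφ : φ ∈ Submodule.span k (Set.range B') := by
      rw [B'.span_eq]; trivial
    induction hφ using Submodule.span_induction with
    | mem f hf =>
      obtain ⟨j, rfl⟩ := hf
      have := congrFun hx j
      simpa [hΨ] using this
    | zero => simp
    | add f f' _ _ hf hf' => simp [hf, hf']
    | smul c f _ hf => simp [hf]
  have hsurj : Function.Surjective Ψ :=
    (LinearMap.injective_iff_surjective_of_finrank_eq_finrank rfl).1 hinj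
  choose v hv using fun l : Fin 3 => hsurj (Pi.single l 1)
  refine ⟨fun j => (ι j).1, fun j => (ι j).2.1, fun j => (ι j).2.2, fun l => rigidEmb (v l),
    fun l j => ?_⟩
  have h1 := congrFun (hv l) j
  simp only [hΨ, LinearMap.pi_apply, hB'j, rigidFunctional_apply] at h1
  rw [show rigidEmb (v l) * r (ι j).1 - r (ι j).1 * rigidEmb (v l) = rigidComm (v l) (r (ι j).1)
    from rfl, h1, Pi.single_apply]
  simp [eq_comm]

end Fermat.Agent.S53
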