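import Mathlib
import Fermat.Agent.S53.ProRepCore

/-!
# S53 chunk D9a (helper36): the universal ring is generated by the universal point; uniqueness

* `mk_X_eq_univPoint` : the class of `X i` in `R = S ⧸ J` is `univPoint (w i) - c (w i)`
* `univRing_algHom_ext` : two local `𝒪`-algebra maps `R → A` (`A` complete) that agree on the
  universal point are equal.
-/

set_option linter.unusedSectionVars false
set_option linter.style.haveILetI false
set_option linter.unusedVariables false

namespace Fermat.Agent.S53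

open IsLocalRing GaloisRep

variable {𝒪 : Type} [CommRing 𝒪] [IsDomain 𝒪] [IsDiscreteValuationRing 𝒪]
  [IsAdicComplete (maximalIdeal 𝒪) 𝒪] [Finite (ResidueField 𝒪)]
  {Ω : Type} {F : ∀ (A : Type) [CommRing A] [IsLocalRing A] [Algebra 𝒪 A], Set (Ω → A)}
  {c : Ω → 𝒪}
  (hF : IsPointFunctor 𝒪 Ω F c) {d : ℕ} (w : Fin d → Ω)
  (hw : ∀ I ∈ pointIdeals F, Algebra.adjoin 𝒪 (Set.range fun i => taut I (w i)) = ⊤)

theorem mk_X_eq_univPoint (i : Fin d) :
    (Ideal.Quotient.mk (univKer hF w hw) (MvPowerSeries.X i) : UnivRing hF w hw) =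
      univPoint hF w hw (w i) - algebraMap 𝒪 _ (c (w i)) := by
  have halg : algebraMap 𝒪 (UnivRing hF w hw) (c (w i)) =
      Ideal.Quotient.mk (univKer hF w hw)
        (algebraMap 𝒪 (MvPowerSeries (Fin d) 𝒪) (c (w i))) := rfl
  rw [univPoint, halg, ← map_sub, Ideal.Quotient.eq]
  unfold univKer
  rw [Ideal.mem_iInf]
  intro n
  rw [mem_levelKer, map_sub, map_sub, levelTheta_X, levelTheta_univPointS, AlgHom.commutes]
  ring

theorem mk_X_mem_maximalIdeal (i : Fin d) :
    (Ideal.Quotient.mk (univKer hF w hw) (MvPowerSeries.X i) : UnivRing hF w hw) ∈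
      maximalIdeal (UnivRing hF w hw) := by
  rw [IsLocalRing.mem_maximalIdeal, mem_nonunits_iff]
  intro hu
  haveI : IsLocalHom (Ideal.Quotient.mk (univKer hF w hw)) := isLocalHom_quotient_mk _
  have h1 : IsUnit (MvPowerSeries.X i : MvPowerSeries (Fin d) 𝒪) :=
    IsLocalHom.map_nonunit (f := Ideal.Quotient.mk (univKer hF w hw)) _ hu
  rw [MvPowerSeries.isUnit_iff_constantCoeff] at h1
  simp at h1

theorem univRing_algHom_ext (A : Type) [CommRing A] [IsLocalRing A] [IsNoetherianRing A]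
    [IsAdicComplete (maximalIdeal A) A] [Algebra 𝒪 A]
    (φ φ' : UnivRing hF w hw →ₐ[𝒪] A) (hφ : IsLocalHom (φ : UnivRing hF w hw →+* A))
    (h : ∀ ω, φ (univPoint hF w hw ω) = φ' (univPoint hF w hw ω)) : φ = φ' := by
  -- agreement on the classes of the variables
  have hX : ∀ i, φ (Ideal.Quotient.mk (univKer hF w hw) (MvPowerSeries.X i)) =
      φ' (Ideal.Quotient.mk (univKer hF w hw) (MvPowerSeries.X i)) := by
    intro i
    rw [mk_X_eq_univPoint, map_sub, map_sub, h, AlgHom.commutes, AlgHom.commutes]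
  have hXmem : ∀ i, φ (Ideal.Quotient.mk (univKer hF w hw) (MvPowerSeries.X i)) ∈
      maximalIdeal A := by
    intro i
    exact _root_.map_nonunit (φ : UnivRing hF w hw →+* A) _ (mk_X_mem_maximalIdeal hF w hw i)
  -- compare modulo `𝔪ⁿ`
  have key : ∀ n : ℕ, (Ideal.Quotient.mkₐ 𝒪 (maximalIdeal A ^ n)).comp
      (φ.comp (Ideal.Quotient.mkₐ 𝒪 (univKer hF w hw))) =
      (Ideal.Quotient.mkₐ 𝒪 (maximalIdeal A ^ n)).comp
      (φ'.comp (Ideal.Quotient.mkₐ 𝒪 (univKer hF w hw))) := by
    intro n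
    apply algHom_mvPowerSeries_ext
    · intro i
      simp only [AlgHom.comp_apply, Ideal.Quotient.mkₐ_eq_mk]
      rw [hX]
    · intro i
      refine ⟨n, ?_⟩
      simp only [AlgHom.comp_apply, Ideal.Quotient.mkₐ_eq_mk]
      rw [← map_pow, Ideal.Quotient.eq_zero_iff_mem]
      exact Ideal.pow_mem_pow (hXmem i) n
  apply AlgHom.ext
  intro r
  obtain ⟨s, rfl⟩ := Ideal.Quotient.mk_surjective r
  rw [← sub_eq_zero]
  apply IsHausdorff.haus (inferInstance : IsHausdorff (maximalIdeal A) A)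
  intro n
  rw [SModEq.zero, smul_eq_mul, Ideal.mul_top]
  have := DFunLike.congr_fun (key n) s
  simp only [AlgHom.comp_apply, Ideal.Quotient.mkₐ_eq_mk] at this
  rw [Ideal.Quotient.eq] at this
  exact this

end Fermat.Agent.S53
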