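import Mathlib
import Fermat.Agent.S53.TestAlgebra

/-!
# S53 toolkit: the quotient `Λ ⧸ (I ⊓ I')` as a fibre product (helper2)

For ideals `I I'` of a commutative ring `Λ` with `Λ ⧸ I`, `Λ ⧸ I'` local and `I ⊔ I' ≠ ⊤`:
* `isLocalRing_quotient_inf` : `Λ ⧸ (I ⊓ I')` is local;
* `isArtinianTestAlgebra_quotient_inf` : it is an Artinian test algebra if both quotients are;
* `quotient_inf_injective` : `Λ ⧸ (I ⊓ I') → Λ ⧸ I × Λ ⧸ I'` is injective;
* `exists_quotient_inf_of_eq` : the fibre product property over `Λ ⧸ (I ⊔ I')`.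
-/

namespace Fermat.Agent.S53

open IsLocalRing GaloisRep

set_option linter.unusedSectionVars false
set_option linter.style.haveILetI false

variable {𝒪 : Type} [CommRing 𝒪] [IsDomain 𝒪] [IsDiscreteValuationRing 𝒪]
  [Finite (ResidueField 𝒪)]

section Ring

variable {Λ : Type} [CommRing Λ]

/-- If `Λ ⧸ I` is local and `M` is a maximal ideal containing `I`, then the nonunits of `Λ ⧸ I`
are exactly the classes of elements of `M`. -/
theorem isUnit_quotient_mk_iff_not_mem {I M : Ideal Λ} [IsLocalRing (Λ ⧸ I)] (hM : M.IsMaximal)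
    (hIM : I ≤ M) (a : Λ) : IsUnit (Ideal.Quotient.mk I a) ↔ a ∉ M := by
  -- `comap (mk I) 𝔪` is a proper ideal containing `M`
  have hcomap_ne : (maximalIdeal (Λ ⧸ I)).comap (Ideal.Quotient.mk I) ≠ ⊤ :=
    Ideal.comap_ne_top _ (IsLocalRing.maximalIdeal.isMaximal _).ne_top
  have hMle : M ≤ (maximalIdeal (Λ ⧸ I)).comap (Ideal.Quotient.mk I) := by
    intro m hm
    rw [Ideal.mem_comap, IsLocalRing.mem_maximalIdeal, mem_nonunits_iff]
    intro hu
    obtain ⟨b, hb⟩ := hu.exists_right_inv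
    obtain ⟨b, rfl⟩ := Ideal.Quotient.mk_surjective b
    rw [← map_mul, ← map_one (Ideal.Quotient.mk I), Ideal.Quotient.eq] at hb
    have h1 : m * b - 1 ∈ M := hIM hb
    have h2 : m * b ∈ M := M.mul_mem_right b hm
    have h3 : (1 : Λ) ∈ M := by
      have := M.sub_mem h2 h1
      simpa using this
    exact hM.ne_top ((Ideal.eq_top_iff_one M).2 h3)
  have heq : M = (maximalIdeal (Λ ⧸ I)).comap (Ideal.Quotient.mk I) :=
    hM.eq_of_le hcomap_ne hMle
  constructor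
  · intro hu ha
    rw [heq, Ideal.mem_comap, IsLocalRing.mem_maximalIdeal, mem_nonunits_iff] at ha
    exact ha hu
  · intro ha
    by_contra hu
    apply ha
    rw [heq, Ideal.mem_comap, IsLocalRing.mem_maximalIdeal, mem_nonunits_iff]
    exact hu

/-- An element of `Λ ⧸ (I ⊓ I')` is a unit as soon as its images in `Λ ⧸ I` and `Λ ⧸ I'` are. -/
theorem isUnit_quotient_inf_mk {I I' : Ideal Λ} {a : Λ}
    (h1 : IsUnit (Ideal.Quotient.mk I a)) (h2 : IsUnit (Ideal.Quotient.mk I' a)) :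
    IsUnit (Ideal.Quotient.mk (I ⊓ I') a) := by
  obtain ⟨b, hb⟩ := h1.exists_right_inv
  obtain ⟨b, rfl⟩ := Ideal.Quotient.mk_surjective b
  obtain ⟨b', hb'⟩ := h2.exists_right_inv
  obtain ⟨b', rfl⟩ := Ideal.Quotient.mk_surjective b'
  rw [← map_mul, ← map_one (Ideal.Quotient.mk I), Ideal.Quotient.eq] at hb
  rw [← map_mul, ← map_one (Ideal.Quotient.mk I'), Ideal.Quotient.eq] at hb'
  refine IsUnit.of_mul_eq_one (Ideal.Quotient.mk (I ⊓ I') (b + b' - a * b * b')) ?_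
  rw [← map_mul, ← map_one (Ideal.Quotient.mk (I ⊓ I')), Ideal.Quotient.eq]
  have e : a * (b + b' - a * b * b') - 1 = -((a * b - 1) * (a * b' - 1)) := by ring
  rw [e]
  refine (I ⊓ I').neg_mem ⟨?_, ?_⟩
  · exact I.mul_mem_right _ hb
  · exact I'.mul_mem_left _ hb'

/-- `Λ ⧸ (I ⊓ I')` is a local ring if `Λ ⧸ I` and `Λ ⧸ I'` are and `I ⊔ I' ≠ ⊤`. -/
theorem isLocalRing_quotient_inf (I I' : Ideal Λ) [IsLocalRing (Λ ⧸ I)] [IsLocalRing (Λ ⧸ I')]
    (h : I ⊔ I' ≠ ⊤) : IsLocalRing (Λ ⧸ (I ⊓ I')) := by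
  obtain ⟨M, hM, hle⟩ := Ideal.exists_le_maximal _ h
  have hIM : I ≤ M := le_sup_left.trans hle
  have hI'M : I' ≤ M := le_sup_right.trans hle
  have hne : I ⊓ I' ≠ ⊤ := fun htop =>
    hM.ne_top (top_le_iff.1 (htop ▸ (inf_le_left.trans hIM)))
  haveI : Nontrivial (Λ ⧸ (I ⊓ I')) := Ideal.Quotient.nontrivial_iff.mpr hne
  -- characterisation of units
  have hunit : ∀ a : Λ, IsUnit (Ideal.Quotient.mk (I ⊓ I') a) ↔ a ∉ M := by
    intro a
    constructor
    · intro hu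
      have : IsUnit (Ideal.Quotient.mk I a) := by
        have := hu.map (Ideal.Quotient.factor (inf_le_left : I ⊓ I' ≤ I))
        simpa using this
      exact (isUnit_quotient_mk_iff_not_mem hM hIM a).1 this
    · intro ha
      exact isUnit_quotient_inf_mk ((isUnit_quotient_mk_iff_not_mem hM hIM a).2 ha)
        ((isUnit_quotient_mk_iff_not_mem hM hI'M a).2 ha)
  refine IsLocalRing.of_nonunits_add ?_
  intro x y hx hy
  obtain ⟨a, rfl⟩ := Ideal.Quotient.mk_surjective x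
  obtain ⟨b, rfl⟩ := Ideal.Quotient.mk_surjective y
  rw [mem_nonunits_iff, hunit, not_not] at hx hy
  rw [← map_add, mem_nonunits_iff, hunit, not_not]
  exact M.add_mem hx hy

/-- `Λ ⧸ (I ⊓ I') → Λ ⧸ I × Λ ⧸ I'` is injective. -/
theorem quotient_inf_injective (I I' : Ideal Λ) :
    Function.Injective (fun x : Λ ⧸ (I ⊓ I') =>
      (Ideal.Quotient.factor (inf_le_left : I ⊓ I' ≤ I) x,
        Ideal.Quotient.factor (inf_le_right : I ⊓ I' ≤ I') x)) := by
  intro x y hxy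
  obtain ⟨a, rfl⟩ := Ideal.Quotient.mk_surjective x
  obtain ⟨b, rfl⟩ := Ideal.Quotient.mk_surjective y
  simp only [Ideal.Quotient.factor_mk, Prod.mk.injEq] at hxy
  rw [Ideal.Quotient.eq] at hxy ⊢
  exact ⟨by simpa [Ideal.Quotient.eq] using hxy.1, by simpa [Ideal.Quotient.eq] using hxy.2⟩

/-- Fibre product property: classes `a ∈ Λ ⧸ I`, `b ∈ Λ ⧸ I'` with the same image in
`Λ ⧸ (I ⊔ I')` come from a (unique) class in `Λ ⧸ (I ⊓ I')`. -/
theorem exists_quotient_inf_of_eq (I I' : Ideal Λ) (a : Λ ⧸ I) (b : Λ ⧸ I')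
    (hab : Ideal.Quotient.factor (le_sup_left : I ≤ I ⊔ I') a =
      Ideal.Quotient.factor (le_sup_right : I' ≤ I ⊔ I') b) :
    ∃ x : Λ ⧸ (I ⊓ I'), Ideal.Quotient.factor (inf_le_left : I ⊓ I' ≤ I) x = a ∧
      Ideal.Quotient.factor (inf_le_right : I ⊓ I' ≤ I') x = b := by
  obtain ⟨u, rfl⟩ := Ideal.Quotient.mk_surjective a
  obtain ⟨v, rfl⟩ := Ideal.Quotient.mk_surjective b
  simp only [Ideal.Quotient.factor_mk] at hab
  rw [Ideal.Quotient.eq, Submodule.mem_sup] at hab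
  obtain ⟨i, hi, i', hi', hsum⟩ := hab
  refine ⟨Ideal.Quotient.mk _ (u - i), ?_, ?_⟩
  · simp only [Ideal.Quotient.factor_mk]
    rw [Ideal.Quotient.eq]
    simpa using I.neg_mem hi
  · simp only [Ideal.Quotient.factor_mk]
    rw [Ideal.Quotient.eq]
    have : u - i - v = i' := by linear_combination -hsum
    rw [this]; exact hi'

end Ring

section Algebra

variable {Λ : Type} [CommRing Λ] [Algebra 𝒪 Λ]

/-- `Λ ⧸ (I ⊓ I')` is an Artinian test algebra if `Λ ⧸ I` and `Λ ⧸ I'` are (and it is local, e.g. by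
`isLocalRing_quotient_inf`). -/
theorem isArtinianTestAlgebra_quotient_inf (I I' : Ideal Λ) [IsLocalRing (Λ ⧸ I)]
    [IsLocalRing (Λ ⧸ I')] [IsLocalRing (Λ ⧸ (I ⊓ I'))]
    (hI : IsArtinianTestAlgebra 𝒪 (Λ ⧸ I)) (hI' : IsArtinianTestAlgebra 𝒪 (Λ ⧸ I')) :
    IsArtinianTestAlgebra 𝒪 (Λ ⧸ (I ⊓ I')) := by
  haveI := IsArtinianTestAlgebra.finite hI
  haveI := IsArtinianTestAlgebra.finite hI'
  haveI : Finite (Λ ⧸ (I ⊓ I')) := Finite.of_injective _ (quotient_inf_injective I I')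
  exact IsArtinianTestAlgebra.of_algHom_of_finite hI
    (Ideal.Quotient.factorₐ 𝒪 (inf_le_left : I ⊓ I' ≤ I))

/-- The quotient of an `𝒪`-algebra by the kernel of an algebra map into an Artinian test algebra is
a local ring. -/
theorem isLocalRing_quotient_ker {A : Type} [CommRing A] [IsLocalRing A] [Algebra 𝒪 A]
    (hA : IsArtinianTestAlgebra 𝒪 A) (φ : Λ →ₐ[𝒪] A) :
    IsLocalRing (Λ ⧸ RingHom.ker (φ : Λ →+* A)) :=
  IsArtinianTestAlgebra.isLocalRing_of_injective hA (Ideal.kerLiftAlg φ)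
    (Ideal.kerLiftAlg_injective φ)

/-- The quotient of an `𝒪`-algebra by the kernel of an algebra map into an Artinian test algebra is
an Artinian test algebra. -/
theorem isArtinianTestAlgebra_quotient_ker {A : Type} [CommRing A] [IsLocalRing A] [Algebra 𝒪 A]
    (hA : IsArtinianTestAlgebra 𝒪 A) (φ : Λ →ₐ[𝒪] A)
    [IsLocalRing (Λ ⧸ RingHom.ker (φ : Λ →+* A))] :
    IsArtinianTestAlgebra 𝒪 (Λ ⧸ RingHom.ker (φ : Λ →+* A)) :=
  IsArtinianTestAlgebra.of_injective hA (Ideal.kerLiftAlg φ) (Ideal.kerLiftAlg_injective φ)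

end Algebra

end Fermat.Agent.S53
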